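import Fermat.Agent.SiegelMean.SecondMoment
import Mathlib.Analysis.SpecialFunctions.Log.Base

/-!
# Schmidt's theorem on random lattices

For `n ≥ 3` the number of primitive points of a lattice in a set of volume `V` has variance at
most `2 V / ζ(n)`.  Hence along an increasing sequence of sets with volumes tending to infinity it
is asymptotic to `V / ζ(n)` for almost every lattice: it suffices to control the first and the last
set in each geometric range of volumes.
-/

set_option autoImplicit false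

noncomputable section

open MeasureTheory Matrix Set Filter Topology
open scoped ENNReal NNReal
open FA.SLnLattice FA.SLnVolume
open FA.MinkowskiHlawka (castVec)

namespace FA.SiegelMean

variable {q : ℕ}

/-- The primitive lattice points in a set. -/
def primPoints {n : ℕ} (S : Set (Fin n → ℝ)) (g : SLR n) : Set (Fin n → ℤ) :=
  {v | v ∈ primVecs n ∧ castVec v ᵥ* g.1 ∈ S}

/-- Their number. -/
def countIn {n : ℕ} (S : Set (Fin n → ℝ)) (g : SLR n) : ℝ≥0∞ :=
  theta (primVecs n) (S.indicator 1) g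

theorem countIn_mono {n : ℕ} {S S' : Set (Fin n → ℝ)} (h : S ⊆ S') (g : SLR n) :
    countIn S g ≤ countIn S' g :=
  ENNReal.tsum_le_tsum fun _ => Set.indicator_le_indicator_of_subset h (fun _ => zero_le) _

theorem countIn_smul {n : ℕ} (S : Set (Fin n → ℝ)) (γ : Gamma n) (g : SLR n) :
    countIn S (γ • g) = countIn S g :=
  theta_smul isStable_prim _ γ g

theorem countIn_of_finite {n : ℕ} {S : Set (Fin n → ℝ)} {g : SLR n}
    (h : (primPoints S g).Finite) : countIn S g = ((primPoints S g).ncard : ℝ≥0∞) :=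
  tsum_indicator_eq_ncard g h

theorem countIn_of_infinite {n : ℕ} {S : Set (Fin n → ℝ)} {g : SLR n}
    (h : (primPoints S g).Infinite) : countIn S g = ⊤ := by
  classical
  refine top_unique ?_
  refine ENNReal.le_of_forall_nnreal_lt fun r _ => ?_
  obtain ⟨N, hN⟩ := exists_nat_ge r
  obtain ⟨F, hF, hFc⟩ := h.exists_subset_card_eq N
  obtain ⟨F', hF'⟩ : ∃ F' : Finset (primVecs n), F' = F.subtype (· ∈ primVecs n) := ⟨_, rfl⟩
  refine le_trans ?_ (ENNReal.sum_le_tsum F')
  rw [Finset.sum_congr rfl fun v hv => Set.indicator_of_mem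
    (hF (Finset.mem_coe.2 (Finset.mem_subtype.1 (hF' ▸ hv)))).2 _]
  simp only [Pi.one_apply, Finset.sum_const, nsmul_one, hF', Finset.card_subtype,
    Finset.filter_true_of_mem fun v hv => (hF (Finset.mem_coe.2 hv)).1, hFc]
  exact_mod_cast hN

theorem countIn_toReal {n : ℕ} (S : Set (Fin n → ℝ)) (g : SLR n) :
    (countIn S g).toReal = (primPoints S g).ncard := by
  rcases (primPoints S g).finite_or_infinite with h | h
  · rw [countIn_of_finite h, ENNReal.toReal_natCast]
  · rw [countIn_of_infinite h, ENNReal.toReal_top, h.ncard, Nat.cast_zero]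

theorem primPoints_infinite {n : ℕ} {S : Set (Fin n → ℝ)} {g : SLR n} (h : countIn S g = ⊤) :
    (primPoints S g).Infinite := fun hf => by
  rw [countIn_of_finite hf] at h
  exact ENNReal.natCast_ne_top _ h

variable [MeasurableSpace (SLR (q + 3))] [BorelSpace (SLR (q + 3))]

theorem measurable_countIn {S : Set (Fin (q + 3) → ℝ)} (hS : MeasurableSet S) :
    Measurable (countIn S : SLR (q + 3) → ℝ≥0∞) :=
  measurable_theta _ ((measurable_one (α := ℝ≥0∞)).indicator hS)

/-- The expected number of primitive points. -/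
def primExpect (S : Set (Fin (q + 3) → ℝ)) : ℝ := (volume S).toReal / zetaVal (q + 3)

variable {μ : Measure (SLR (q + 3))} [μ.IsHaarMeasure] {D : Set (SLR (q + 3))}

theorem lintegral_countIn (hD : IsFundamentalDomain (Gamma (q + 3)) D μ)
    {S : Set (Fin (q + 3) → ℝ)} (hS : MeasurableSet S) (hfin : volume S ≠ ∞) :
    ∫⁻ g in D, countIn S g ∂μ = μ D * ENNReal.ofReal (primExpect S) := by
  have hz := zetaVal_pos (m := q + 2) (by omega)
  have h := (siegel_mean (by omega) μ hD ((measurable_one (α := ℝ≥0∞)).indicator hS)).2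
  rw [lintegral_indicator_one hS] at h
  rw [primExpect, ENNReal.ofReal_div_of_pos hz, ENNReal.ofReal_toReal hfin, ← mul_div_assoc, ← h,
    mul_comm, ENNReal.mul_div_cancel_right (by simpa using hz) ENNReal.ofReal_ne_top]
  rfl

theorem lintegral_countIn_sq_le (hD : IsFundamentalDomain (Gamma (q + 3)) D μ)
    {S : Set (Fin (q + 3) → ℝ)} (hS : MeasurableSet S) (hfin : volume S ≠ ∞) :
    ∫⁻ g in D, countIn S g ^ 2 ∂μ ≤
      μ D * ENNReal.ofReal (primExpect S ^ 2 + 2 * primExpect S) := by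
  obtain ⟨F, hF⟩ : ∃ F : Pairs q → ℝ≥0∞,
      F = fun p => S.indicator 1 p.1 * S.indicator 1 p.2 := ⟨_, rfl⟩
  have hm : Measurable F := by
    rw [hF]
    exact (((measurable_one (α := ℝ≥0∞)).indicator hS).comp measurable_fst).fun_mul
      (((measurable_one (α := ℝ≥0∞)).indicator hS).comp measurable_snd)
  have h := (rogers_second_moment μ hD hm).1
  have e : ∀ g, pairTheta (primVecs (q + 3)) F g = countIn S g ^ 2 := fun g => by
    rw [hF, pairTheta_mul, sq]
    rfl
  simp only [e] at h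
  have h2 : ∫⁻ x, (F (x, x) + F (x, -x)) ≤ 2 * volume S := by
    rw [← lintegral_indicator_one hS, ← lintegral_const_mul _
      ((measurable_one (α := ℝ≥0∞)).indicator hS)]
    refine lintegral_mono fun x => ?_
    rw [hF, two_mul]
    refine add_le_add ?_ ?_ <;>
      exact mul_le_of_le_one_right zero_le (Set.indicator_le_self' (fun _ _ => zero_le) _)
  have h1 : ∫⁻ p, F p = volume S * volume S := by
    rw [hF, Measure.volume_eq_prod,
      lintegral_prod_mul ((measurable_one (α := ℝ≥0∞)).indicator hS).aemeasurable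
        ((measurable_one (α := ℝ≥0∞)).indicator hS).aemeasurable, lintegral_indicator_one hS]
  have hz := zetaVal_pos (m := q + 2) (by omega)
  have hv : volume S = ENNReal.ofReal (zetaVal (q + 3) * primExpect S) := by
    rw [primExpect, mul_div_cancel₀ _ hz.ne', ENNReal.ofReal_toReal hfin]
  have hV : 0 ≤ primExpect S := div_nonneg ENNReal.toReal_nonneg hz.le
  refine (ENNReal.mul_le_mul_iff_right (a := ENNReal.ofReal (zetaVal (q + 3)) ^ 2)
    (pow_ne_zero _ (by simpa using hz)) (ENNReal.pow_ne_top ENNReal.ofReal_ne_top)).1 ?_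
  rw [h, mul_left_comm, h1]
  gcongr μ D * ?_
  refine (add_le_add le_rfl (mul_le_mul' le_rfl h2)).trans (le_of_eq ?_)
  rw [hv, ← ENNReal.ofReal_mul (by positivity), ← ENNReal.ofReal_ofNat (n := 2),
    ← ENNReal.ofReal_mul two_pos.le, ← ENNReal.ofReal_mul hz.le,
    ← ENNReal.ofReal_add (by positivity) (by positivity), ← ENNReal.ofReal_pow hz.le,
    ← ENNReal.ofReal_mul (by positivity)]
  congr 1
  ring

/-- **The variance.** -/
theorem lintegral_variance_le (hD : IsFundamentalDomain (Gamma (q + 3)) D μ) (hDf : μ D ≠ ∞)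
    {S : Set (Fin (q + 3) → ℝ)} (hS : MeasurableSet S) (hfin : volume S ≠ ∞) :
    ∫⁻ g in D, ENNReal.ofReal (((countIn S g).toReal - primExpect S) ^ 2) ∂μ ≤
      μ D * ENNReal.ofReal (2 * primExpect S) := by
  have hV : 0 ≤ primExpect S :=
    div_nonneg ENNReal.toReal_nonneg (zetaVal_pos (m := q + 2) (by omega)).le
  obtain ⟨V, hVdef⟩ : ∃ V, V = primExpect S := ⟨_, rfl⟩
  rw [← hVdef] at hV ⊢
  have hlin := lintegral_countIn hD hS hfin
  have hsq := lintegral_countIn_sq_le hD hS hfin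
  rw [← hVdef] at hlin hsq
  have hae : ∀ᵐ g ∂μ.restrict D, countIn S g < ∞ :=
    ae_lt_top (measurable_countIn hS) (by
      rw [hlin]; exact ENNReal.mul_ne_top hDf ENNReal.ofReal_ne_top)
  have hsum : ∫⁻ g in D, (ENNReal.ofReal (((countIn S g).toReal - V) ^ 2) +
      ENNReal.ofReal (2 * V) * countIn S g) ∂μ =
      ∫⁻ g in D, (countIn S g ^ 2 + ENNReal.ofReal (V ^ 2)) ∂μ := by
    refine lintegral_congr_ae (hae.mono fun g hg => ?_)
    obtain ⟨t, ht, ht'⟩ : ∃ t : ℝ, 0 ≤ t ∧ countIn S g = ENNReal.ofReal t :=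
      ⟨_, ENNReal.toReal_nonneg, (ENNReal.ofReal_toReal hg.ne).symm⟩
    simp only [ht', ENNReal.toReal_ofReal ht]
    rw [← ENNReal.ofReal_mul (by positivity), ← ENNReal.ofReal_pow ht,
      ← ENNReal.ofReal_add (sq_nonneg _) (by positivity),
      ← ENNReal.ofReal_add (by positivity) (by positivity)]
    congr 1
    ring
  rw [lintegral_add_right _ ((measurable_countIn hS).const_mul _),
    lintegral_add_right _ measurable_const, lintegral_const_mul _ (measurable_countIn hS), hlin,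
    setLIntegral_const] at hsum
  have h2 : ∫⁻ g in D, countIn S g ^ 2 ∂μ + ENNReal.ofReal (V ^ 2) * μ D ≤
      μ D * ENNReal.ofReal (2 * V) + ENNReal.ofReal (2 * V) * (μ D * ENNReal.ofReal V) := by
    refine (add_le_add hsq le_rfl).trans (le_of_eq ?_)
    rw [mul_comm _ (μ D), ← mul_add, mul_left_comm, ← mul_add, ← ENNReal.ofReal_mul (by positivity),
      ← ENNReal.ofReal_add (by positivity) (by positivity),
      ← ENNReal.ofReal_add (by positivity) (by positivity)]
    congr 2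
    ring
  rw [← hsum] at h2
  exact ENNReal.le_of_add_le_add_right (ENNReal.mul_ne_top ENNReal.ofReal_ne_top
    (ENNReal.mul_ne_top hDf ENNReal.ofReal_ne_top)) h2

/-- The deviation bound. -/
theorem measure_deviation_le (hD : IsFundamentalDomain (Gamma (q + 3)) D μ) (hDf : μ D ≠ ∞)
    {S : Set (Fin (q + 3) → ℝ)} (hS : MeasurableSet S) (hfin : volume S ≠ ∞) {δ : ℝ} (hδ : 0 < δ)
    (hV : 0 < primExpect S) :
    (μ.restrict D) {g | δ * primExpect S ≤ |(countIn S g).toReal - primExpect S|} ≤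
      μ D * ENNReal.ofReal (2 / (δ ^ 2 * primExpect S)) := by
  obtain ⟨V, hVdef⟩ : ∃ V, V = primExpect S := ⟨_, rfl⟩
  rw [← hVdef] at hV ⊢
  have hm : Measurable fun g : SLR (q + 3) =>
      ENNReal.ofReal (((countIn S g).toReal - V) ^ 2) :=
    (((measurable_countIn hS).ennreal_toReal.sub_const V).pow_const 2).ennreal_ofReal
  have hc : 0 < (δ * V) ^ 2 := by positivity
  have hsub : {g | δ * V ≤ |(countIn S g).toReal - V|} ⊆
      {g | ENNReal.ofReal ((δ * V) ^ 2) ≤ ENNReal.ofReal (((countIn S g).toReal - V) ^ 2)} :=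
    fun g hg => ENNReal.ofReal_le_ofReal
      ((pow_le_pow_left₀ (by positivity) hg 2).trans_eq (sq_abs _))
  refine (measure_mono hsub).trans ((meas_ge_le_lintegral_div hm.aemeasurable
    (ENNReal.ofReal_pos.2 hc).ne' ENNReal.ofReal_ne_top).trans ?_)
  refine (ENNReal.div_le_div_right ((hVdef ▸ lintegral_variance_le hD hDf hS hfin) :
    _ ≤ μ D * ENNReal.ofReal (2 * V)) _).trans (le_of_eq ?_)
  rw [mul_div_assoc, ← ENNReal.ofReal_div_of_pos hc]
  congr 2
  field_simp

/-- **Schmidt's theorem, one precision.** -/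
theorem ae_eventually_close (hD : IsFundamentalDomain (Gamma (q + 3)) D μ) (hDf : μ D ≠ ∞)
    {S : ℕ → Set (Fin (q + 3) → ℝ)} (hm : ∀ j, MeasurableSet (S j)) (hmono : Monotone S)
    (hfin : ∀ j, volume (S j) ≠ ∞) (hV : Tendsto (fun j => primExpect (S j)) atTop atTop)
    {ε : ℝ} (hε : 0 < ε) :
    ∀ᵐ g ∂μ.restrict D, ∀ᶠ j in atTop,
      (1 - ε) / (1 + ε) * primExpect (S j) ≤ (countIn (S j) g).toReal ∧
      (countIn (S j) g).toReal ≤ (1 + ε) * (1 + ε) * primExpect (S j) := by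
  classical
  obtain ⟨r, hr⟩ : ∃ r : ℝ, r = 1 + ε := ⟨_, rfl⟩
  have hr1 : 1 < r := by linarith
  obtain ⟨V, hVdef⟩ : ∃ V : ℕ → ℝ, V = fun j => primExpect (S j) := ⟨_, rfl⟩
  simp only [← hr]
  have hVj : ∀ j, primExpect (S j) = V j := fun j => by rw [hVdef]
  simp only [hVj] at hV ⊢
  obtain ⟨cl, hcl⟩ : ∃ cl : ℕ → ℕ, cl = fun j => ⌊Real.logb r (V j)⌋₊ := ⟨_, rfl⟩
  have hclb : ∀ j, 1 ≤ V j → r ^ cl j ≤ V j ∧ V j < r ^ (cl j + 1) := fun j hj => by
    have hpos : 0 < V j := one_pos.trans_le hj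
    have h0 : 0 ≤ Real.logb r (V j) := Real.logb_nonneg hr1 hj
    rw [hcl]
    constructor
    · rw [← Real.rpow_natCast, ← Real.le_logb_iff_rpow_le hr1 hpos]
      exact Nat.floor_le h0
    · rw [← Real.rpow_natCast, ← Real.logb_lt_iff_lt_rpow hr1 hpos]
      push_cast
      exact Nat.lt_floor_add_one _
  obtain ⟨first, hfirst⟩ : ∃ first : ℕ → Prop,
      first = fun j => ∀ i, cl i = cl j → 1 ≤ V i → j ≤ i := ⟨_, rfl⟩
  obtain ⟨last, hlast⟩ : ∃ last : ℕ → Prop,
      last = fun j => ∀ i, cl i = cl j → 1 ≤ V i → i ≤ j := ⟨_, rfl⟩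
  obtain ⟨I, hI⟩ : ∃ I : Set ℕ, I = {j | 1 ≤ V j ∧ (first j ∨ last j)} := ⟨_, rfl⟩
  -- the deviations along `I` are summable
  have hsum : ∑' j : I, (μ.restrict D)
      {g | ε * V j ≤ |(countIn (S j) g).toReal - V j|} ≠ ∞ := by
    have hle : ∀ j : I, (μ.restrict D) {g | ε * V j ≤ |(countIn (S j) g).toReal - V j|} ≤
        μ D * ENNReal.ofReal (2 / ε ^ 2) * ENNReal.ofReal r⁻¹ ^ cl j := by
      intro j
      have hj : (j : ℕ) ∈ {j | 1 ≤ V j ∧ (first j ∨ last j)} := hI ▸ j.2
      have h := measure_deviation_le hD hDf (hm j) (hfin j) hε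
        (by rw [hVj]; exact one_pos.trans_le hj.1)
      simp only [hVj] at h
      refine h.trans ?_
      rw [mul_assoc, ← ENNReal.ofReal_pow (by positivity), ← ENNReal.ofReal_mul (by positivity),
        ← div_div, inv_pow]
      gcongr μ D * ENNReal.ofReal ?_
      rw [div_eq_mul_inv (2 / ε ^ 2)]
      gcongr
      exact (hclb j hj.1).1
    have hinj : Function.Injective fun j : I => (cl j, decide (first j)) := by
      intro a b hab
      simp only [Prod.mk.injEq, decide_eq_decide] at hab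
      have ha : (a : ℕ) ∈ {j | 1 ≤ V j ∧ (first j ∨ last j)} := hI ▸ a.2
      have hb : (b : ℕ) ∈ {j | 1 ≤ V j ∧ (first j ∨ last j)} := hI ▸ b.2
      refine Subtype.ext ?_
      by_cases hf : first a
      · have hf' := hab.2.1 hf
        rw [hfirst] at hf hf'
        exact le_antisymm (hf _ hab.1.symm hb.1) (hf' _ hab.1 ha.1)
      · have hf' : ¬first b := fun h => hf (hab.2.2 h)
        have hla := ha.2.resolve_left hf
        have hlb := hb.2.resolve_left hf'
        rw [hlast] at hla hlb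
        exact le_antisymm (hlb _ hab.1 ha.1) (hla _ hab.1.symm hb.1)
    refine ne_top_of_le_ne_top ?_ ((ENNReal.tsum_le_tsum hle).trans
      (ENNReal.tsum_comp_le_tsum_of_injective hinj
        fun p : ℕ × Bool => μ D * ENNReal.ofReal (2 / ε ^ 2) * ENNReal.ofReal r⁻¹ ^ p.1))
    simp only [ENNReal.tsum_prod', tsum_bool, ← two_mul, ENNReal.tsum_mul_left,
      ENNReal.tsum_geometric]
    refine ne_of_lt ?_
    have hfi : (1 - ENNReal.ofReal r⁻¹)⁻¹ ≠ ∞ := ENNReal.inv_ne_top.2 ?_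
    · simp only [lt_top_iff_ne_top, ne_eq, ENNReal.mul_eq_top, not_or, not_and_or]
      have h1 : μ D * ENNReal.ofReal (2 / ε ^ 2) ≠ ∞ := ENNReal.mul_ne_top hDf ENNReal.ofReal_ne_top
      simp_all
    exact (tsub_pos_iff_lt.2 (ENNReal.ofReal_lt_one.2 (inv_lt_one_of_one_lt₀ hr1))).ne'
  have htop : ∀ᵐ g ∂μ.restrict D, ∀ j, countIn (S j) g < ∞ := ae_all_iff.2 fun j =>
    ae_lt_top (measurable_countIn (hm j)) (by
      rw [lintegral_countIn hD (hm j) (hfin j)]
      exact ENNReal.mul_ne_top hDf ENNReal.ofReal_ne_top)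
  filter_upwards [ae_finite_setOfPred_mem hsum, htop] with g hg hgtop
  obtain ⟨M, hM⟩ : ∃ M, ∀ j : I, ε * V j ≤ |(countIn (S j) g).toReal - V j| → V j < M := by
    obtain ⟨M, hM⟩ := (hg.image fun j : I => V j).bddAbove
    exact ⟨M + 1, fun j hj => (hM ⟨j, hj, rfl⟩).trans_lt (lt_add_one M)⟩
  filter_upwards [hV.eventually_ge_atTop 1, hV.eventually_ge_atTop (r * max M 0)] with j hj1 hjM
  have hfinC : {i | cl i = cl j ∧ 1 ≤ V i}.Finite := by
    obtain ⟨N, hN⟩ := eventually_atTop.1 (hV.eventually_ge_atTop (r ^ (cl j + 1)))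
    refine (Set.finite_lt_nat N).subset fun i hi => ?_
    by_contra hc
    exact absurd (hN i (not_lt.1 hc)) (not_le.2 (hi.1 ▸ (hclb i hi.2).2))
  have hne : hfinC.toFinset.Nonempty := ⟨j, hfinC.mem_toFinset.2 ⟨rfl, hj1⟩⟩
  obtain ⟨a, ha⟩ : ∃ a, a = hfinC.toFinset.min' hne := ⟨_, rfl⟩
  obtain ⟨b, hb⟩ : ∃ b, b = hfinC.toFinset.max' hne := ⟨_, rfl⟩
  obtain ⟨hca, hVa⟩ : cl a = cl j ∧ 1 ≤ V a :=
    hfinC.mem_toFinset.1 (ha ▸ Finset.min'_mem _ hne)
  obtain ⟨hcb, hVb⟩ : cl b = cl j ∧ 1 ≤ V b :=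
    hfinC.mem_toFinset.1 (hb ▸ Finset.max'_mem _ hne)
  have haI : a ∈ I := by
    rw [hI]
    refine ⟨hVa, Or.inl ?_⟩
    rw [hfirst]
    exact fun i hi hi1 =>
      ha ▸ Finset.min'_le _ i (hfinC.mem_toFinset.2 ⟨hi.trans hca, hi1⟩)
  have hbI : b ∈ I := by
    rw [hI]
    refine ⟨hVb, Or.inr ?_⟩
    rw [hlast]
    exact fun i hi hi1 =>
      hb ▸ Finset.le_max' _ i (hfinC.mem_toFinset.2 ⟨hi.trans hcb, hi1⟩)
  have haj : a ≤ j := ha ▸ Finset.min'_le _ j (hfinC.mem_toFinset.2 ⟨rfl, hj1⟩)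
  have hjb : j ≤ b := hb ▸ Finset.le_max' _ j (hfinC.mem_toFinset.2 ⟨rfl, hj1⟩)
  have hr0 : 0 < r := one_pos.trans hr1
  obtain ⟨hj2, hj3⟩ := hclb j hj1
  obtain ⟨ha2, ha3⟩ := hclb a hVa
  obtain ⟨hb2, hb3⟩ := hclb b hVb
  rw [hca] at ha2 ha3
  rw [hcb] at hb2 hb3
  rw [pow_succ] at hj3 ha3 hb3
  have hMa : M ≤ r ^ cl j := by
    have h1 := hjM.trans hj3.le
    rw [mul_comm r] at h1
    exact (le_max_left M 0).trans (le_of_mul_le_mul_right h1 hr0)
  have hgood : ∀ i ∈ I, r ^ cl j ≤ V i → |(countIn (S i) g).toReal - V i| < ε * V i :=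
    fun i hi hiV => not_le.1 fun h => absurd (hM ⟨i, hi⟩ h) (not_lt.2 (hMa.trans hiV))
  obtain ⟨hga, -⟩ := abs_lt.1 (hgood a haI ha2)
  obtain ⟨-, hgb⟩ := abs_lt.1 (hgood b hbI hb2)
  have hta := ENNReal.toReal_mono (hgtop j).ne (countIn_mono (hmono haj) g)
  have htb := ENNReal.toReal_mono (hgtop b).ne (countIn_mono (hmono hjb) g)
  constructor
  · rcases le_or_gt 1 ε with h | h
    · exact (mul_nonpos_of_nonpos_of_nonneg
        (div_nonpos_of_nonpos_of_nonneg (by linarith) hr0.le) (by linarith)).trans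
          ENNReal.toReal_nonneg
    · rw [div_mul_eq_mul_div, div_le_iff₀ hr0]
      nlinarith [mul_le_mul_of_nonneg_left hj3.le (show (0 : ℝ) ≤ 1 - ε by linarith),
        mul_le_mul_of_nonneg_left ha2 (show (0 : ℝ) ≤ (1 - ε) * r by nlinarith),
        mul_le_mul_of_nonneg_right hta hr0.le]
  · nlinarith [mul_le_mul_of_nonneg_left hj2 (show (0 : ℝ) ≤ r * r by positivity),
      mul_le_mul_of_nonneg_left hb3.le hr0.le]

/-- Transfer to the whole group. -/
theorem ae_of_invariant (hD : IsFundamentalDomain (Gamma (q + 3)) D μ) {p : SLR (q + 3) → Prop}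
    (hinv : ∀ (γ : Gamma (q + 3)) g, p (γ • g) ↔ p g) (h : ∀ᵐ g ∂μ.restrict D, p g) :
    ∀ᵐ g ∂μ, p g := by
  rw [ae_iff] at h ⊢
  rw [Measure.restrict_apply₀' hD.nullMeasurableSet] at h
  refine hD.measure_zero_of_invariant _ (fun γ => ?_) h
  ext g
  rw [Set.mem_smul_set_iff_inv_smul_mem, Set.mem_ofPred_eq, Set.mem_ofPred_eq, hinv]

/-- **Schmidt's theorem.** -/
theorem ae_tendsto_countIn (μ : Measure (SLR (q + 3))) [μ.IsHaarMeasure]
    {S : ℕ → Set (Fin (q + 3) → ℝ)} (hm : ∀ j, MeasurableSet (S j)) (hmono : Monotone S)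
    (hfin : ∀ j, volume (S j) ≠ ∞) (hV : Tendsto (fun j => (volume (S j)).toReal) atTop atTop) :
    ∀ᵐ g ∂μ, Tendsto (fun j => ((primPoints (S j) g).ncard : ℝ) / (volume (S j)).toReal) atTop
      (𝓝 (zetaVal (q + 3))⁻¹) := by
  have hz := zetaVal_pos (m := q + 2) (by omega)
  obtain ⟨D, -, hD, -, hDlt⟩ := exists_fundamentalDomain_finite μ
  have hV' : Tendsto (fun j => primExpect (S j)) atTop atTop := hV.atTop_div_const hz
  have hall : ∀ᵐ g ∂μ.restrict D, ∀ i : ℕ, ∀ᶠ j in atTop,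
      (1 - 1 / ((i : ℝ) + 1)) / (1 + 1 / ((i : ℝ) + 1)) * primExpect (S j) ≤
          (countIn (S j) g).toReal ∧
        (countIn (S j) g).toReal ≤
          (1 + 1 / ((i : ℝ) + 1)) * (1 + 1 / ((i : ℝ) + 1)) * primExpect (S j) :=
    ae_all_iff.2 fun i => ae_eventually_close hD hDlt.ne hm hmono hfin hV' (by positivity)
  refine (ae_of_invariant hD (fun γ g => by simp only [countIn_smul]) hall).mono fun g hg => ?_
  have h0 := tendsto_one_div_add_atTop_nhds_zero_nat (𝕜 := ℝ)
  have hlo : Tendsto (fun i : ℕ => (1 - 1 / ((i : ℝ) + 1)) / (1 + 1 / ((i : ℝ) + 1))) atTop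
      (𝓝 1) := by
    simpa [Pi.div_def] using ((tendsto_const_nhds (x := (1 : ℝ))).sub h0).div
      ((tendsto_const_nhds (x := (1 : ℝ))).add h0) (by norm_num)
  have hhi : Tendsto (fun i : ℕ => (1 + 1 / ((i : ℝ) + 1)) * (1 + 1 / ((i : ℝ) + 1))) atTop
      (𝓝 1) := by
    simpa using ((tendsto_const_nhds (x := (1 : ℝ))).add h0).mul
      ((tendsto_const_nhds (x := (1 : ℝ))).add h0)
  have h1 : Tendsto (fun j => (countIn (S j) g).toReal / primExpect (S j)) atTop (𝓝 1) := by
    rw [tendsto_order]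
    constructor
    · intro a ha
      obtain ⟨i, hi⟩ := (hlo.eventually_const_lt ha).exists
      filter_upwards [hg i, hV'.eventually_gt_atTop 0] with j hj hpos
      exact hi.trans_le ((le_div_iff₀ hpos).2 hj.1)
    · intro a ha
      obtain ⟨i, hi⟩ := (hhi.eventually_lt_const ha).exists
      filter_upwards [hg i, hV'.eventually_gt_atTop 0] with j hj hpos
      exact ((div_le_iff₀ hpos).2 hj.2).trans_lt hi
  have h2 := h1.mul_const (zetaVal (q + 3))⁻¹
  rw [one_mul] at h2
  refine h2.congr' ?_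
  filter_upwards [hV.eventually_gt_atTop 0] with j hj
  rw [countIn_toReal, primExpect]
  field_simp

/-- **Sets of infinite volume.** -/
theorem ae_infinite_primPoints (μ : Measure (SLR (q + 3))) [μ.IsHaarMeasure]
    {S : Set (Fin (q + 3) → ℝ)} (hS : MeasurableSet S) (hvol : volume S = ∞) :
    ∀ᵐ g ∂μ, (primPoints S g).Infinite := by
  obtain ⟨T, hT⟩ : ∃ T : ℕ → Set (Fin (q + 3) → ℝ),
      T = fun (j : ℕ) => S ∩ Metric.closedBall 0 (j : ℝ) := ⟨_, rfl⟩
  have hTm : ∀ j, MeasurableSet (T j) := fun j =>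
    hT ▸ hS.inter Metric.isClosed_closedBall.measurableSet
  have hTmono : Monotone T := fun a b h => by
    rw [hT]
    exact Set.inter_subset_inter_right _ (Metric.closedBall_subset_closedBall (Nat.cast_le.2 h))
  have hTfin : ∀ j, volume (T j) ≠ ∞ := fun j => by
    rw [hT]
    exact ((measure_mono Set.inter_subset_right).trans_lt
      (isCompact_closedBall _ _).measure_lt_top).ne
  have hTU : ⋃ j, T j = S := by
    rw [hT, ← Set.inter_iUnion, Metric.iUnion_closedBall_nat, Set.inter_univ]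
  have hTV : Tendsto (fun j => (volume (T j)).toReal) atTop atTop := by
    have h := tendsto_measure_iUnion_atTop (μ := volume) hTmono
    rw [hTU, hvol, ENNReal.tendsto_nhds_top_iff_nnreal] at h
    refine tendsto_atTop.2 fun R => ?_
    filter_upwards [h R.toNNReal] with j hj
    refine (Real.le_coe_toNNReal R).trans ?_
    rw [← ENNReal.coe_toReal]
    exact ENNReal.toReal_mono (hTfin j) hj.le
  filter_upwards [ae_tendsto_countIn μ hTm hTmono hTfin hTV] with g hg
  by_contra hfin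
  rw [Set.not_infinite] at hfin
  have hbd : ∀ j, ((primPoints (T j) g).ncard : ℝ) ≤ (primPoints S g).ncard := fun j =>
    Nat.cast_le.2 (Set.ncard_le_ncard (fun v hv => ⟨hv.1, (hT ▸ hv.2 : _ ∈ S ∩ _).1⟩) hfin)
  have h0 : Tendsto (fun j => ((primPoints (T j) g).ncard : ℝ) / (volume (T j)).toReal) atTop
      (𝓝 0) := by
    refine tendsto_of_tendsto_of_tendsto_of_le_of_le tendsto_const_nhds
      ((tendsto_const_nhds (x := ((primPoints S g).ncard : ℝ))).div_atTop hTV)
      (fun j => by positivity) fun j => ?_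
    exact div_le_div_of_nonneg_right (hbd j) ENNReal.toReal_nonneg
  exact (inv_pos.2 (zetaVal_pos (m := q + 2) (by omega))).ne' (tendsto_nhds_unique hg h0)

end FA.SiegelMean

end
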