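import Fermat.Agent.SiegelMean.Transform
import Mathlib.Analysis.SpecialFunctions.Pow.Real

/-!
# Integrability of lattice point counts

A reduced lattice with diagonal `x` has at most `∏ (2 n R / x j j + 1)` points in the cube of
radius `R`, so the normalised counts are dominated by a function whose powers below the `n`th are
integrable over the Siegel set, since `(∏ max 1 (1 / x j j)) ^ r` grows more slowly than the
pieces shrink for `r < n`.
-/

set_option autoImplicit false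

noncomputable section

open MeasureTheory Matrix Set
open scoped ENNReal RealInnerProductSpace
open FA.SLnLattice FA.SLnVolume
open FA.MinkowskiHlawka (castVec)

namespace FA.SiegelMean

/-- Integral vectors with small coordinates in a triangular system. -/
theorem ncard_triangular_le : ∀ (m : ℕ) (x : Fin m → Fin m → ℝ), (∀ i j, i < j → x i j = 0) →
    (∀ i, 0 < x i i) → ∀ R : ℝ, 0 ≤ R →
      {v : Fin m → ℤ | ∀ j, |∑ i, (v i : ℝ) * x i j| ≤ R}.Finite ∧
      ({v : Fin m → ℤ | ∀ j, |∑ i, (v i : ℝ) * x i j| ≤ R}.ncard : ℝ) ≤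
        ∏ j, (2 * R / x j j + 1)
  | 0, x, _, _, R, _ => by
    refine ⟨Set.toFinite _, ?_⟩
    rw [Fin.prod_univ_zero]
    exact_mod_cast Set.ncard_le_one_of_subsingleton _
  | m + 1, x, htri, hpos, R, hR => by
    classical
    obtain ⟨hfin, hle⟩ := ncard_triangular_le m (fun i j => x i.succ j.succ)
      (fun i j h => htri _ _ (Fin.succ_lt_succ_iff.2 h)) (fun i => hpos _) R hR
    obtain ⟨fib, hfib⟩ : ∃ fib : (Fin m → ℤ) → Finset (Fin (m + 1) → ℤ),
      fib = fun (u : Fin m → ℤ) =>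
        (Finset.Icc ⌈(-R - ∑ i, (u i : ℝ) * x i.succ 0) / x 0 0⌉
          ⌊(R - ∑ i, (u i : ℝ) * x i.succ 0) / x 0 0⌋).image
            fun a : ℤ => (Fin.cons a u : Fin (m + 1) → ℤ) := ⟨_, rfl⟩
    have hsub : {v : Fin (m + 1) → ℤ | ∀ j, |∑ i, (v i : ℝ) * x i j| ≤ R} ⊆
        ↑(hfin.toFinset.biUnion fib) := by
      intro v hv
      simp only [Finset.coe_biUnion, Set.mem_iUnion₂]
      refine ⟨fun i => v i.succ, (Set.Finite.mem_toFinset _).2 fun j => ?_, ?_⟩
      · have h := hv j.succ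
        rwa [Fin.sum_univ_succ, htri 0 j.succ (Fin.succ_pos j), mul_zero, zero_add] at h
      · rw [hfib, Finset.mem_coe, Finset.mem_image]
        refine ⟨v 0, Finset.mem_Icc.2 ⟨Int.ceil_le.2 ?_, Int.le_floor.2 ?_⟩, Fin.cons_self_tail v⟩
        · have h := hv 0
          rw [Fin.sum_univ_succ, abs_le] at h
          rw [div_le_iff₀ (hpos 0)]
          linarith [h.1]
        · have h := hv 0
          rw [Fin.sum_univ_succ, abs_le] at h
          rw [le_div_iff₀ (hpos 0)]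
          linarith [h.2]
    refine ⟨(Finset.finite_toSet _).subset hsub, ?_⟩
    have hcard : ∀ u, ((fib u).card : ℝ) ≤ 2 * R / x 0 0 + 1 := by
      intro u
      rw [hfib]
      refine (Nat.cast_le.2 Finset.card_image_le).trans ?_
      rw [Int.card_Icc]
      obtain ⟨a, ha⟩ : ∃ a, a = (-R - ∑ i, (u i : ℝ) * x i.succ 0) / x 0 0 := ⟨_, rfl⟩
      obtain ⟨b, hb⟩ : ∃ b, b = (R - ∑ i, (u i : ℝ) * x i.succ 0) / x 0 0 := ⟨_, rfl⟩
      rw [← ha, ← hb]
      have hba : b - a = 2 * R / x 0 0 := by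
        rw [ha, hb]
        field_simp
        ring
      rcases le_or_gt (⌊b⌋ + 1 - ⌈a⌉) 0 with h | h
      · rw [Int.toNat_eq_zero.2 h, Nat.cast_zero]
        have := hpos 0
        positivity
      · rw [← Int.cast_natCast, Int.toNat_of_nonneg h.le]
        push_cast
        linarith [Int.floor_le b, Int.le_ceil a]
    calc ({v : Fin (m + 1) → ℤ | ∀ j, |∑ i, (v i : ℝ) * x i j| ≤ R}.ncard : ℝ)
        ≤ ((hfin.toFinset.biUnion fib).card : ℝ) := by
          rw [← Set.ncard_coe_finset]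
          exact Nat.cast_le.2 (Set.ncard_le_ncard hsub (Finset.finite_toSet _))
      _ ≤ ∑ u ∈ hfin.toFinset, ((fib u).card : ℝ) := by
          rw [← Nat.cast_sum]
          exact Nat.cast_le.2 Finset.card_biUnion_le
      _ ≤ (hfin.toFinset.card : ℝ) * (2 * R / x 0 0 + 1) := by
          refine (Finset.sum_le_sum fun u _ => hcard u).trans_eq ?_
          rw [Finset.sum_const, nsmul_eq_mul]
      _ ≤ (∏ j : Fin m, (2 * R / x j.succ j.succ + 1)) * (2 * R / x 0 0 + 1) := by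
          refine mul_le_mul_of_nonneg_right ?_ (by have := hpos 0; positivity)
          rwa [← Set.ncard_eq_toFinset_card _ hfin]
      _ = _ := by rw [Fin.prod_univ_succ, mul_comm]

variable {n : ℕ}

theorem ncard_frame_le {e : Tuple n n} {x : Fin n → Fin n → ℝ} {g : SLR n}
    (hf : Frame e x (euclRows fun i j => g i j)) {R : ℝ} (hR : 0 ≤ R) :
    {v : Fin n → ℤ | ‖castVec v ᵥ* g.1‖ ≤ R}.Finite ∧
      ({v : Fin n → ℤ | ‖castVec v ᵥ* g.1‖ ≤ R}.ncard : ℝ) ≤ ∏ j, (2 * (n * R) / x j j + 1) := by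
  obtain ⟨heo, htri, hdiag, hrow⟩ := hf
  obtain ⟨hfin, hle⟩ := ncard_triangular_le n x htri hdiag (n * R) (by positivity)
  have hsub : {v : Fin n → ℤ | ‖castVec v ᵥ* g.1‖ ≤ R} ⊆
      {v : Fin n → ℤ | ∀ j, |∑ i, (v i : ℝ) * x i j| ≤ n * R} := by
    intro v hv j
    have h1 : ⟪e j, ∑ i, (v i : ℝ) • euclRows (fun a b => g a b) i⟫ =
        ∑ i, (v i : ℝ) * x i j := by
      rw [inner_sum]
      refine Finset.sum_congr rfl fun i _ => ?_
      rw [real_inner_smul_right, hrow i, heo.inner_right_fintype]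
    rw [← h1, PiLp.inner_apply]
    refine (Finset.abs_sum_le_sum_abs _ _).trans ((Finset.sum_le_card_nsmul _ _ R
      fun l _ => ?_).trans_eq (by rw [Finset.card_univ, Fintype.card_fin, nsmul_eq_mul]))
    have h2 : (∑ i, (v i : ℝ) • euclRows (fun a b => g a b) i : EuclideanSpace ℝ (Fin n)) l =
        (castVec v ᵥ* g.1) l := by
      simp [euclRows, castVec, Matrix.vecMul, dotProduct]
    rw [RCLike.inner_apply, conj_trivial, h2, abs_mul]
    have he1 : |e j l| ≤ 1 := by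
      rw [← Real.norm_eq_abs, ← heo.norm_eq_one j]
      exact PiLp.norm_apply_le _ l
    refine (mul_le_of_le_one_right (abs_nonneg _) he1).trans ?_
    rw [← Real.norm_eq_abs]
    exact (norm_le_pi_norm _ l).trans hv
  exact ⟨hfin.subset hsub, (Nat.cast_le.2 (Set.ncard_le_ncard hsub hfin)).trans hle⟩

/-- The nonzero lattice vectors in the cube of radius `N`. -/
def boxCount (N : ℕ) (g : SLR n) : ℝ≥0∞ :=
  theta (nonzeroVecs n) ((Metric.closedBall (0 : Fin n → ℝ) N).indicator 1) g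

theorem tsum_indicator_eq_ncard {P : Set (Fin n → ℤ)} {A : Set (Fin n → ℝ)} (g : SLR n)
    (hfin : {v | v ∈ P ∧ castVec v ᵥ* g.1 ∈ A}.Finite) :
    theta P (A.indicator 1) g = ({v | v ∈ P ∧ castVec v ᵥ* g.1 ∈ A}.ncard : ℝ≥0∞) := by
  classical
  obtain ⟨S, hS⟩ : ∃ S : Finset P, ∀ v : P, v ∈ S ↔ castVec (v : Fin n → ℤ) ᵥ* g.1 ∈ A := by
    refine ⟨(hfin.preimage Subtype.val_injective.injOn).toFinset, fun v => ?_⟩
    simp
  rw [theta, tsum_eq_sum (s := S) fun v hv =>
    Set.indicator_of_notMem (fun h => hv ((hS v).2 h)) _, Finset.sum_congr rfl fun v hv =>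
    Set.indicator_of_mem ((hS v).1 hv) _, Set.ncard_eq_toFinset_card _ hfin]
  simp only [Pi.one_apply, Finset.sum_const, nsmul_one]
  refine congrArg _ (Finset.card_bij (fun v _ => (v : Fin n → ℤ)) (fun v hv => ?_)
    (fun _ _ _ _ h => Subtype.ext h) fun v hv => ?_)
  · exact (Set.Finite.mem_toFinset _).2 ⟨v.2, (hS v).1 hv⟩
  · rw [Set.Finite.mem_toFinset] at hv
    exact ⟨⟨v, hv.1⟩, (hS _).2 hv.2, rfl⟩

/-- The majorant of the normalised counts. -/
def maxCount (g : SLR n) : ℝ≥0∞ :=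
  ⨆ N : ℕ, boxCount (N + 1) g * (((N + 1 : ℕ) : ℝ≥0∞) ^ n)⁻¹

/-- The weight of a dyadic piece. -/
def pieceWeight (k : Fin n → ℤ) : ℝ≥0∞ := ENNReal.ofReal (∏ j, (2 : ℝ) ^ max 0 (1 - k j))

/-- The majorant on matrices. -/
def siegelMajorant (n r : ℕ) (X : Rows n) : ℝ≥0∞ :=
  ∑' k : goodSizes n, pieceWeight k.1 ^ r *
    (euclRows ⁻¹' piece n fun j => (2 : ℝ) ^ k.1 j).indicator 1 X

theorem maxCount_pow_proj_le [NeZero n] (r : ℕ) {X : Rows n}
    (hX : X ∈ cone {g : SLR n | IsReduced g}) :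
    maxCount (proj X) ^ r ≤ ENNReal.ofReal ((2 * n + 1) ^ n) ^ r * siegelMajorant n r X := by
  obtain ⟨k, hk⟩ := Set.mem_iUnion.1 (cone_reduced_subset hX)
  obtain ⟨t, ⟨ht, ht'⟩, g, hg, rfl⟩ := hX
  rw [proj_smul ht]
  have hle : pieceWeight k.1 ^ r ≤ siegelMajorant n r fun i j => t * g i j := by
    refine le_trans (le_of_eq ?_) (ENNReal.le_tsum k)
    rw [Set.indicator_of_mem hk, Pi.one_apply, mul_one]
  refine le_trans ?_ (mul_le_mul' le_rfl hle)
  rw [← mul_pow]
  refine pow_le_pow_left₀ zero_le ?_ r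
  obtain ⟨⟨e, y⟩, hp, hy⟩ := hk
  obtain ⟨heo, htri, -, hdiag'⟩ := frame_of_params (fun i => zpow_pos two_pos (k.1 i)) hp
  have hf : Frame e (fun i j => y i j / t) (euclRows fun i j => g i j) := by
    refine ⟨heo, fun i j h => by simp [show y i j = 0 from hp.2.1 i j h], fun i =>
      div_pos ((half_pos (zpow_pos two_pos _)).trans_le (hp.2.2.2 i)) ht, fun i => ?_⟩
    have e1 : euclRows (fun a b => g a b) i = t⁻¹ • euclRows (fun a b => t * g a b) i := by
      ext a
      simp [euclRows, ht.ne']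
    rw [e1, ← congrFun hy i, Finset.smul_sum]
    simp [smul_smul, div_eq_inv_mul]
  refine iSup_le fun N => ?_
  have hN : (0 : ℝ) < ((N + 1 : ℕ) : ℝ) := by positivity
  obtain ⟨hfin, hcnt⟩ := ncard_frame_le hf hN.le
  have hsub : {v | v ∈ nonzeroVecs n ∧
      castVec v ᵥ* g.1 ∈ Metric.closedBall (0 : Fin n → ℝ) ((N + 1 : ℕ) : ℝ)} ⊆
      {v : Fin n → ℤ | ‖castVec v ᵥ* g.1‖ ≤ ((N + 1 : ℕ) : ℝ)} := fun v hv => by
    simpa using hv.2
  rw [boxCount, tsum_indicator_eq_ncard g (hfin.subset hsub), ← div_eq_mul_inv]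
  refine ENNReal.div_le_of_le_mul ?_
  rw [pieceWeight, ← ENNReal.ofReal_mul (by positivity), ← ENNReal.ofReal_natCast,
    ← ENNReal.ofReal_natCast (N + 1), ← ENNReal.ofReal_pow hN.le,
    ← ENNReal.ofReal_mul (by positivity)]
  refine ENNReal.ofReal_le_ofReal (((Nat.cast_le.2 (Set.ncard_le_ncard hsub hfin)).trans
    hcnt).trans ?_)
  calc ∏ j, (2 * (n * ((N + 1 : ℕ) : ℝ)) / (y j j / t) + 1)
      ≤ ∏ j : Fin n, ((2 * n + 1) * ((N + 1 : ℕ) : ℝ) * (2 : ℝ) ^ max 0 (1 - k.1 j)) := by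
        refine Finset.prod_le_prod (fun j _ => ?_) fun j _ => ?_
        · have := (hf.2.2.1 j).le
          positivity
        · have h1 : (2 : ℝ) ^ (k.1 j - 1) ≤ y j j / t := by
            rw [zpow_sub_one₀ two_ne_zero]
            have h2 : (2 : ℝ) ^ k.1 j / 2 ≤ y j j := hp.2.2.2 j
            refine h2.trans ((le_div_iff₀ ht).2 ?_)
            exact mul_le_of_le_one_right ((half_pos (zpow_pos two_pos _)).le.trans h2) ht'
          obtain ⟨w, hw⟩ : ∃ w, w = (2 : ℝ) ^ max 0 (1 - k.1 j) := ⟨_, rfl⟩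
          have hw1 : 1 ≤ w := hw ▸ one_le_zpow₀ one_le_two (le_max_left _ _)
          have hw2 : (y j j / t)⁻¹ ≤ w := by
            refine (inv_anti₀ (zpow_pos two_pos _) h1).trans ?_
            rw [← _root_.zpow_neg, hw]
            exact zpow_le_zpow_right₀ one_le_two (le_max_of_le_right (by omega))
          have hN1 : (1 : ℝ) ≤ ((N + 1 : ℕ) : ℝ) := by
            push_cast
            linarith [(N.cast_nonneg : (0 : ℝ) ≤ N)]
          rw [← hw, div_eq_mul_inv]
          nlinarith [mul_le_mul_of_nonneg_left hw2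
            (show (0 : ℝ) ≤ 2 * (n * ((N + 1 : ℕ) : ℝ)) by positivity),
            mul_le_mul hN1 hw1 zero_le_one hN.le]
    _ = (2 * n + 1) ^ n * (∏ j, (2 : ℝ) ^ max 0 (1 - k.1 j)) * ((N + 1 : ℕ) : ℝ) ^ n := by
        rw [Finset.prod_mul_distrib, Finset.prod_mul_distrib, Finset.prod_const, Finset.prod_const,
          Finset.card_univ, Fintype.card_fin]
        ring

/-- The diagonal expansion of one coordinate. -/
theorem coord_eq (m : ℕ) (k : Fin (m + 1) → ℤ) (i : Fin (m + 1)) :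
    (m + 1 : ℤ) * k i - ∑ l, k l = ∑ j : Fin m,
      (if (j : ℕ) < i then ((j : ℤ) + 1) else -((m : ℤ) - j)) * (k j.succ - k j.castSucc) := by
  induction i using Fin.induction with
  | zero =>
    simp only [Fin.val_zero, Nat.not_lt_zero, if_false, mul_sub (-((m : ℤ) - _)),
      Finset.sum_sub_distrib]
    have e1 : ∑ j : Fin m, -((m : ℤ) - j) * k j.succ =
        ∑ l : Fin (m + 1), -((m + 1 : ℤ) - l) * k l + (m + 1) * k 0 := by
      rw [Fin.sum_univ_succ (n := m)]
      simp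
      ring
    have e2 : ∑ j : Fin m, -((m : ℤ) - j) * k j.castSucc =
        ∑ l : Fin (m + 1), -((m : ℤ) - l) * k l := by
      rw [Fin.sum_univ_castSucc (n := m)]
      simp
    rw [e1, e2, sub_eq_add_neg _ (∑ l : Fin (m + 1), -((m : ℤ) - l) * k l),
      ← Finset.sum_neg_distrib,
      add_right_comm, ← Finset.sum_add_distrib]
    have e3 : ∀ l : Fin (m + 1), -((m + 1 : ℤ) - l) * k l + -(-((m : ℤ) - l) * k l) = -k l :=
      fun l => by ring
    rw [Finset.sum_congr rfl fun l _ => e3 l, Finset.sum_neg_distrib]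
    ring
  | succ i ih =>
    have e : ∀ j : Fin m,
        (if (j : ℕ) < (i.succ : Fin (m + 1)) then ((j : ℤ) + 1) else -((m : ℤ) - j)) *
          (k j.succ - k j.castSucc) =
        (if (j : ℕ) < (i.castSucc : Fin (m + 1)) then ((j : ℤ) + 1) else -((m : ℤ) - j)) *
          (k j.succ - k j.castSucc) +
        if j = i then (m + 1 : ℤ) * (k j.succ - k j.castSucc) else 0 := by
      intro j
      simp only [Fin.val_succ, Fin.val_castSucc]
      rcases lt_trichotomy (j : ℕ) i with h | h | h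
      · rw [if_pos (by omega), if_pos h, if_neg (fun e => by rw [e] at h; omega), add_zero]
      · rw [if_pos (by omega), if_neg (by omega), if_pos (Fin.ext h)]
        ring
      · rw [if_neg (by omega), if_neg (by omega), if_neg (fun e => by rw [e] at h; omega),
          add_zero]
    rw [Finset.sum_congr rfl fun j _ => e j, Finset.sum_add_distrib, ← ih, Finset.sum_ite_eq',
      if_pos (Finset.mem_univ i)]
    ring

theorem neg_sum_le (m : ℕ) {k : Fin (m + 1) → ℤ} (hk : k ∈ goodSizes (m + 1))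
    (S : Finset (Fin (m + 1))) :
    (m + 1 : ℤ) * (∑ i ∈ S, -k i) ≤ (m + 1) * ((m + 1 : ℤ) - ∑ l, k l) +
      ∑ j : Fin m, ((j : ℤ) + 1) * ((m : ℤ) - j) * (k j.succ - k j.castSucc + 2) := by
  obtain ⟨c, hc⟩ : ∃ c : Fin m → Fin (m + 1) → ℤ,
      c = fun (j : Fin m) (i : Fin (m + 1)) =>
        if (j : ℕ) < i then ((j : ℤ) + 1) else -((m : ℤ) - j) := ⟨_, rfl⟩
  have h1 : (m + 1 : ℤ) * (∑ i ∈ S, -k i) = (S.card : ℤ) * (-∑ l, k l) +
      ∑ j : Fin m, (-∑ i ∈ S, c j i) * (k j.succ - k j.castSucc) := by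
    rw [Finset.mul_sum, Finset.sum_congr rfl fun i _ => show (m + 1 : ℤ) * -k i =
      -(∑ l, k l) + ∑ j : Fin m, -(c j i * (k j.succ - k j.castSucc)) by
        rw [Finset.sum_neg_distrib, hc, ← coord_eq m k i]; ring,
      Finset.sum_add_distrib, Finset.sum_const, nsmul_eq_mul, Finset.sum_comm]
    simp only [← Finset.sum_neg_distrib, Finset.sum_mul, neg_mul]
  have hbound : ∀ j : Fin m, |∑ i ∈ S, c j i| ≤ ((j : ℤ) + 1) * ((m : ℤ) - j) := by
    intro j
    obtain ⟨P, hP⟩ : ∃ P, P = S.filter fun i : Fin (m + 1) => (j : ℕ) < i := ⟨_, rfl⟩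
    obtain ⟨Q, hQ⟩ : ∃ Q, Q = S.filter fun i : Fin (m + 1) => ¬(j : ℕ) < i := ⟨_, rfl⟩
    have hPc : P.card ≤ m - j := by
      refine le_trans (Finset.card_le_card_of_injOn (fun i : Fin (m + 1) => (i : ℕ))
        (t := Finset.Icc ((j : ℕ) + 1) m) (fun i hi => ?_) fun a _ b _ h => Fin.ext h) ?_
      · rw [hP] at hi
        have := (Finset.mem_filter.1 (Finset.mem_coe.1 hi)).2
        have := i.isLt
        exact Finset.mem_Icc.2 (by beta_reduce; omega)
      · rw [Nat.card_Icc]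
        omega
    have hQc : Q.card ≤ j + 1 := by
      refine le_trans (Finset.card_le_card_of_injOn (fun i : Fin (m + 1) => (i : ℕ))
        (t := Finset.range ((j : ℕ) + 1)) (fun i hi => ?_) fun a _ b _ h => Fin.ext h) ?_
      · rw [hQ] at hi
        have := (Finset.mem_filter.1 (Finset.mem_coe.1 hi)).2
        exact Finset.mem_range.2 (by beta_reduce; omega)
      · rw [Finset.card_range]
    have e : ∑ i ∈ S, c j i = (P.card : ℤ) * ((j : ℤ) + 1) - (Q.card : ℤ) * ((m : ℤ) - j) := by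
      rw [hc, Finset.sum_ite, ← hP, ← hQ, Finset.sum_const, Finset.sum_const, nsmul_eq_mul,
        nsmul_eq_mul]
      ring
    have hj := j.isLt
    have a1 : (P.card : ℤ) ≤ (m : ℤ) - j := by omega
    have a2 : (Q.card : ℤ) ≤ (j : ℤ) + 1 := by omega
    rw [e, abs_le]
    constructor <;> nlinarith
  have h2 : ∀ j : Fin m, (-∑ i ∈ S, c j i) * (k j.succ - k j.castSucc) ≤
      ((j : ℤ) + 1) * ((m : ℤ) - j) * (k j.succ - k j.castSucc + 2) := by
    intro j
    have hd := hk.2 j.castSucc j.succ (by simp)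
    obtain ⟨ha, hb⟩ := abs_le.1 (hbound j)
    nlinarith
  have h3 : (S.card : ℤ) * (-∑ l, k l) ≤ (m + 1) * ((m + 1 : ℤ) - ∑ l, k l) := by
    have hS : (S.card : ℤ) ≤ m + 1 := by
      have := S.card_le_univ
      rw [Fintype.card_fin] at this
      omega
    have hs : 0 ≤ (m + 1 : ℤ) - ∑ l, k l := by have := hk.1; push_cast at this; linarith
    nlinarith [Nat.cast_nonneg (α := ℤ) S.card]
  rw [h1]
  exact add_le_add h3 (Finset.sum_le_sum fun j _ => h2 j)

theorem weight_exponent_le {m r : ℕ} (hr : r ≤ m) : ∃ L : ℤ, ∀ k ∈ goodSizes (m + 1),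
    (m + 1 : ℤ) * ((m + 1 : ℤ) * (m + 1) +
        (∑ j : Fin (m + 1), k j * (2 * ((m + 1 : ℤ) - j) - 1)) +
        r * ∑ i, max 0 (1 - k i)) ≤ (m + 1) * L - ∑ i, (gaps k i : ℤ) := by
  have hr' : (r : ℤ) ≤ m := Int.ofNat_le.2 hr
  refine ⟨(2 + r) * (m + 1) * (m + 1) + 4 * ∑ j : Fin m, ((j : ℤ) + 1) * ((m : ℤ) - j),
    fun k hk => ?_⟩
  obtain ⟨S, hS⟩ : ∃ S, S = Finset.univ.filter fun i => k i ≤ 0 := ⟨_, rfl⟩
  have hmax : ∑ i, max 0 (1 - k i) = (S.card : ℤ) + ∑ i ∈ S, -k i := by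
    rw [hS, Finset.card_filter, Nat.cast_sum, Finset.sum_filter, ← Finset.sum_add_distrib]
    refine Finset.sum_congr rfl fun i _ => ?_
    split_ifs <;> push_cast <;> omega
  have h1 := neg_sum_le m hk S
  have hs : 0 ≤ (m + 1 : ℤ) - ∑ l, k l := by have := hk.1; push_cast at this; linarith
  have hg : ∑ i, (gaps k i : ℤ) = ((m + 1 : ℤ) - ∑ l, k l) +
      ∑ j : Fin m, (k j.succ - k j.castSucc + 1) := by
    rw [Fin.sum_univ_succ]
    simp only [gaps, Fin.cons_zero, Fin.cons_succ]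
    rw [Int.toNat_of_nonneg hs]
    refine congrArg _ (Finset.sum_congr rfl fun j _ => Int.toNat_of_nonneg ?_)
    have := hk.2 j.castSucc j.succ (by simp)
    omega
  have hd : ∀ j : Fin m, (k j.succ - k j.castSucc + 1) ≤
      ((m + 1 : ℤ) - r) * (((j : ℤ) + 1) * ((m : ℤ) - j)) * (k j.succ - k j.castSucc + 1) := by
    intro j
    have h2 := hk.2 j.castSucc j.succ (by simp)
    have hj := j.isLt
    refine le_mul_of_one_le_left (by omega) ?_
    exact one_le_mul_of_one_le_of_one_le (by linarith)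
      (mul_pos (show (0 : ℤ) < (j : ℤ) + 1 by omega) (show (0 : ℤ) < (m : ℤ) - j by omega))
  obtain ⟨A, hA⟩ : ∃ A, A = ∑ j : Fin m, ((j : ℤ) + 1) * ((m : ℤ) - j) := ⟨_, rfl⟩
  obtain ⟨D, hD⟩ : ∃ D, D = ∑ j : Fin m,
      ((j : ℤ) + 1) * ((m : ℤ) - j) * (k j.succ - k j.castSucc) := ⟨_, rfl⟩
  have hA0 : 0 ≤ A := hA ▸ Finset.sum_nonneg fun j _ => mul_nonneg (by omega)
    (by have := j.isLt; omega)
  have hsum := Finset.sum_le_sum fun j (_ : j ∈ Finset.univ) => hd j
  simp only [mul_assoc, ← Finset.mul_sum] at hsum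
  have e1 : ∑ j : Fin m, ((j : ℤ) + 1) * (((m : ℤ) - j) * (k j.succ - k j.castSucc + 1)) =
      D + A := by
    rw [hD, hA, ← Finset.sum_add_distrib]
    exact Finset.sum_congr rfl fun j _ => by ring
  rw [e1] at hsum
  have e2 : ∑ j : Fin m, ((j : ℤ) + 1) * ((m : ℤ) - j) * (k j.succ - k j.castSucc + 2) =
      D + 2 * A := by
    rw [hD, hA, Finset.mul_sum, ← Finset.sum_add_distrib]
    exact Finset.sum_congr rfl fun j _ => by ring
  rw [e2] at h1
  have hS' : (S.card : ℤ) ≤ m + 1 := by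
    have := S.card_le_univ
    rw [Fintype.card_fin] at this
    omega
  rw [sum_exponent, hmax, ← hD, hg, ← hA]
  have hn0 : (0 : ℤ) ≤ m + 1 := by omega
  nlinarith [mul_le_mul_of_nonneg_left hS' (mul_nonneg (Int.natCast_nonneg r) hn0),
    mul_le_mul_of_nonneg_left h1 (Int.natCast_nonneg r),
    mul_nonneg (show (0 : ℤ) ≤ (m + 1) * (m + 1) - r * (m + 1) - 1 by nlinarith) hs,
    mul_nonneg hn0 hA0, mul_nonneg (show (0 : ℤ) ≤ m + 1 - r by linarith) hA0,
    mul_nonneg (mul_nonneg (Int.natCast_nonneg r) (mul_nonneg hn0 hn0)) (Int.natCast_nonneg m)]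

theorem tsum_pow_pi (q : ℝ≥0∞) : ∀ d : ℕ,
    ∑' f : Fin d → ℕ, q ^ (∑ i, f i) = (1 - q)⁻¹ ^ d
  | 0 => by rw [tsum_eq_single default fun f hf => absurd (Subsingleton.elim f default) hf]; simp
  | d + 1 => by
    rw [← (Fin.consEquiv fun _ : Fin (d + 1) => ℕ).tsum_eq, ENNReal.tsum_prod']
    simp only [Fin.consEquiv_apply, Fin.sum_univ_succ, Fin.cons_zero, Fin.cons_succ, pow_add,
      ENNReal.tsum_mul_left, tsum_pow_pi q d, ENNReal.tsum_mul_right, ENNReal.tsum_geometric,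
      pow_succ]
    ring

theorem real_piece_le (m r : ℕ) (k : Fin (m + 1) → ℤ) (L : ℤ) {q : ℝ} (hq0 : 0 < q)
    (hqn : q ^ (m + 1) = 2⁻¹)
    (h : (m + 1 : ℤ) * ((m + 1 : ℤ) * (m + 1) +
        (∑ j : Fin (m + 1), k j * (2 * ((m + 1 : ℤ) - j) - 1)) +
        r * ∑ i, max 0 (1 - k i)) ≤ (m + 1) * L - ∑ i, (gaps k i : ℤ)) :
    (∏ j, (2 : ℝ) ^ max 0 (1 - k j)) ^ r * ((2 : ℝ) ^ ((m + 1) * (m + 1)) *
        ∏ j : Fin (m + 1), ((2 : ℝ) ^ k j) ^ (m + 1 - 1 - (j : ℕ) + (m + 1 - (j : ℕ)))) ≤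
      (2 : ℝ) ^ L * q ^ ∑ i, gaps k i := by
  rw [← zpow_natCast (2 : ℝ) ((m + 1) * (m + 1))]
  simp only [← zpow_natCast, ← _root_.zpow_mul]
  rw [zpow_sum, zpow_sum, ← _root_.zpow_mul, ← zpow_add₀ two_ne_zero, ← zpow_add₀ two_ne_zero,
    zpow_natCast]
  refine le_of_pow_le_pow_left₀ (Nat.succ_ne_zero m) (by positivity) ?_
  rw [mul_pow, ← pow_mul, mul_comm (∑ i, gaps k i) (m + 1), pow_mul, hqn, inv_pow,
    ← zpow_natCast _ (m + 1), ← _root_.zpow_mul, ← zpow_natCast _ (m + 1), ← _root_.zpow_mul,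
    ← zpow_natCast (2 : ℝ) (∑ i, gaps k i), ← _root_.zpow_neg, ← zpow_add₀ two_ne_zero]
  refine zpow_le_zpow_right₀ one_le_two ?_
  have e2 : ∑ j : Fin (m + 1), k j * ((m + 1 - 1 - (j : ℕ) + (m + 1 - (j : ℕ)) : ℕ) : ℤ) =
      ∑ j : Fin (m + 1), k j * (2 * ((m + 1 : ℤ) - j) - 1) := by
    refine Finset.sum_congr rfl fun j _ => ?_
    congr 1
    have := j.isLt
    omega
  rw [e2]
  push_cast
  linarith

theorem lintegral_majorant_lt_top {r : ℕ} (hr : r < n) :
    ∫⁻ X, siegelMajorant n r X < ∞ := by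
  obtain ⟨m, rfl⟩ : ∃ m, n = m + 1 := ⟨n - 1, by omega⟩
  have hmp : MeasurePreserving (euclRows : Rows (m + 1) → Tuple (m + 1) (m + 1)) volume volume :=
    volume_preserving_pi (f := fun _ => WithLp.toLp 2) fun _ => PiLp.volume_preserving_toLp _
  have hpm : ∀ k : Fin (m + 1) → ℤ, MeasurableSet
      (euclRows ⁻¹' piece (m + 1) fun j => (2 : ℝ) ^ k j) := fun k =>
    hmp.measurable (isCompact_piece _).measurableSet
  have hind : ∀ k : goodSizes (m + 1), Measurable
      ((euclRows ⁻¹' piece (m + 1) fun j => (2 : ℝ) ^ k.1 j).indicator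
        (1 : Rows (m + 1) → ℝ≥0∞)) := fun k =>
    (measurable_one (α := ℝ≥0∞) (β := Rows (m + 1))).indicator (hpm k.1)
  have hf : ∀ k : goodSizes (m + 1), Measurable fun X : Rows (m + 1) => pieceWeight k.1 ^ r *
      (euclRows ⁻¹' piece (m + 1) fun j => (2 : ℝ) ^ k.1 j).indicator 1 X :=
    fun k => (hind k).const_mul _
  unfold siegelMajorant
  rw [lintegral_tsum fun k => (hf k).aemeasurable]
  obtain ⟨L, hL⟩ := weight_exponent_le (m := m) (r := r) (by omega)
  obtain ⟨q, hq⟩ : ∃ q : ℝ, q = (2 : ℝ) ^ (-(1 : ℝ) / ((m + 1 : ℕ) : ℝ)) := ⟨_, rfl⟩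
  have hq0 : 0 < q := hq ▸ Real.rpow_pos_of_pos two_pos _
  have hq1 : q < 1 := by
    rw [hq]
    exact Real.rpow_lt_one_of_one_lt_of_neg one_lt_two
      (div_neg_of_neg_of_pos (by norm_num) (by positivity))
  have hqn : q ^ (m + 1) = 2⁻¹ := by
    rw [hq, ← Real.rpow_natCast, ← Real.rpow_mul two_pos.le, div_mul_cancel₀ _ (by positivity),
      Real.rpow_neg_one]
  have key : ∀ k : goodSizes (m + 1), ∫⁻ X : Rows (m + 1), pieceWeight k.1 ^ r *
      (euclRows ⁻¹' piece (m + 1) fun j => (2 : ℝ) ^ k.1 j).indicator 1 X ≤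
      ENNReal.ofReal ((2 : ℝ) ^ L) * ENNReal.ofReal q ^ ∑ i, gaps k.1 i := by
    intro k
    rw [lintegral_const_mul _ (hind k), lintegral_indicator_one (hpm k.1),
      hmp.measure_preimage (isCompact_piece _).measurableSet.nullMeasurableSet]
    have hv := volume_piece_le (m + 1) 0 (fun j => (2 : ℝ) ^ k.1 j) fun j => zpow_pos two_pos _
    simp only [Nat.add_zero] at hv
    refine (mul_le_mul' le_rfl hv).trans ?_
    rw [pieceWeight, ← ENNReal.ofReal_pow (Finset.prod_nonneg fun _ _ => zpow_nonneg two_pos.le _),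
      ← ENNReal.ofReal_mul (pow_nonneg (Finset.prod_nonneg fun _ _ => zpow_nonneg two_pos.le _) _),
      ← ENNReal.ofReal_pow hq0.le, ← ENNReal.ofReal_mul (zpow_nonneg two_pos.le _)]
    exact ENNReal.ofReal_le_ofReal (real_piece_le m r k.1 L hq0 hqn (hL k.1 k.2))
  refine lt_of_le_of_lt (ENNReal.tsum_le_tsum key) ?_
  rw [ENNReal.tsum_mul_left]
  refine ENNReal.mul_lt_top ENNReal.ofReal_lt_top (lt_of_le_of_lt
    (ENNReal.tsum_comp_le_tsum_of_injective (fun a b h => Subtype.ext (gaps_injOn m a.2 b.2 h))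
      fun f : Fin (m + 1) → ℕ => ENNReal.ofReal q ^ ∑ i, f i) ?_)
  rw [tsum_pow_pi]
  refine ENNReal.pow_lt_top (ENNReal.inv_lt_top.2 (tsub_pos_iff_lt.2 ?_))
  exact ENNReal.ofReal_lt_one.2 hq1

variable [MeasurableSpace (SLR n)] [BorelSpace (SLR n)]

theorem measurable_boxCount (N : ℕ) : Measurable (boxCount (n := n) N) :=
  measurable_theta _ (measurable_one.indicator Metric.isClosed_closedBall.measurableSet)

theorem measurable_maxCount : Measurable (maxCount (n := n)) :=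
  Measurable.iSup fun N => (measurable_boxCount (N + 1)).mul_const _

theorem maxCount_smul (γ : Gamma n) (g : SLR n) : maxCount (γ • g) = maxCount g := by
  simp only [maxCount, boxCount, theta_smul isStable_nonzero]

/-- **The powers below the `n`th of the majorant are integrable over every fundamental domain.** -/
theorem lintegral_maxCount_pow_lt_top {r : ℕ} (hr : r < n) {E : Set (SLR n)}
    (hEm : MeasurableSet E) (hE : IsTransversal E) :
    ∫⁻ g in E, maxCount g ^ r ∂coneMeasure n < ∞ := by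
  haveI : NeZero n := ⟨by omega⟩
  obtain ⟨T, hT⟩ : ∃ T, T = {g : SLR n | IsReduced g} := ⟨_, rfl⟩
  have hTm : MeasurableSet T := hT ▸ isClosed_setOf_isReduced.measurableSet
  have h1 : ∫⁻ g in E, maxCount g ^ r ∂coneMeasure n ≤
      ∫⁻ g in T, maxCount g ^ r ∂coneMeasure n := by
    rw [(isFundamentalDomain_of_transversal hEm hE (coneMeasure n)).setLIntegral_eq_tsum' _ T]
    simp only [maxCount_smul]
    refine (lintegral_mono_set ?_).trans (lintegral_iUnion_le _ _)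
    intro x hx
    obtain ⟨γ, hγ⟩ := exists_smul_reduced x
    exact Set.mem_iUnion.2 ⟨γ⁻¹, ⟨_, hT ▸ hγ, inv_smul_smul γ x⟩, hx⟩
  refine h1.trans_lt ?_
  rw [coneMeasure, setLIntegral_map hTm (measurable_maxCount.pow_const r) measurable_proj,
    Measure.restrict_restrict (measurable_proj hTm), ← cone_eq]
  refine lt_of_le_of_lt (setLIntegral_mono' (hT ▸ measurableSet_cone (hT ▸ hTm))
    fun X hX => maxCount_pow_proj_le r (hT ▸ hX)) ?_
  rw [lintegral_const_mul' _ _ (ENNReal.pow_ne_top ENNReal.ofReal_ne_top)]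
  exact ENNReal.mul_lt_top (ENNReal.pow_lt_top ENNReal.ofReal_lt_top)
    ((setLIntegral_le_lintegral _ _).trans_lt (lintegral_majorant_lt_top hr))

/-- **The majorant is integrable over every fundamental domain.** -/
theorem lintegral_maxCount_lt_top (hn : 2 ≤ n) {E : Set (SLR n)} (hEm : MeasurableSet E)
    (hE : IsTransversal E) : ∫⁻ g in E, maxCount g ∂coneMeasure n < ∞ := by
  simpa only [pow_one] using lintegral_maxCount_pow_lt_top (r := 1) (by omega) hEm hE

end FA.SiegelMean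

end
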