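import Fermat.Agent.SLnLattice.Cone
import Mathlib.LinearAlgebra.Matrix.Block
import Mathlib.LinearAlgebra.Matrix.Transvection
import Mathlib.MeasureTheory.Constructions.BorelSpace.Order
import Mathlib.MeasureTheory.Measure.Prod

/-!
# Invariant measures on `ℝ ^ n`

A measure on `ℝ ^ (m + 1)`, `m ≥ 1`, which is finite on compact sets, invariant under `SL (m + 1)`
and has no atom at the origin, is a multiple of Lebesgue measure: in the coordinates `x 0` and
`x j / x 0` shears translate the second and diagonal matrices scale the first.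
-/

set_option autoImplicit false

noncomputable section

open MeasureTheory Matrix Set Filter
open scoped ENNReal NNReal Pointwise
open FA.SLnLattice

namespace FA.SiegelMean

variable {m : ℕ}

/-- Right multiplication of a vector by a matrix of determinant one. -/
def vmul (h : SLR (m + 1)) (x : Fin (m + 1) → ℝ) : Fin (m + 1) → ℝ := x ᵥ* h.1

theorem continuous_vmul (h : SLR (m + 1)) : Continuous (vmul h) := by
  refine continuous_pi fun i => ?_
  simp only [vmul, Matrix.vecMul, dotProduct]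
  fun_prop

/-- Invariance under `SL (m + 1)`. -/
def IsSLInvariant (ν : Measure (Fin (m + 1) → ℝ)) : Prop :=
  ∀ h : SLR (m + 1), ν.map (vmul h) = ν

/-- The quotients by the first coordinate. -/
def ratio (x : Fin (m + 1) → ℝ) : Fin m → ℝ := fun j => x j.succ / x 0

theorem measurable_ratio : Measurable (ratio (m := m)) :=
  measurable_pi_lambda _ fun j => (measurable_pi_apply _).div (measurable_pi_apply _)

/-- The vectors with first coordinate in `B` and quotients in `U`. -/
def slab (B : Set ℝ) (U : Set (Fin m → ℝ)) : Set (Fin (m + 1) → ℝ) :=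
  {x | x 0 ∈ B ∧ ratio x ∈ U}

theorem measurableSet_slab {B : Set ℝ} {U : Set (Fin m → ℝ)} (hB : MeasurableSet B)
    (hU : MeasurableSet U) : MeasurableSet (slab B U) :=
  (measurable_pi_apply 0 hB).inter (measurable_ratio hU)

/-- The unit cube. -/
def unitCube (m : ℕ) : Set (Fin m → ℝ) := Icc 0 1

theorem volume_unitCube : volume (unitCube m) = 1 := by
  rw [unitCube, Real.volume_Icc_pi]
  simp

theorem vmul_preimage (h : SLR (m + 1)) {ν : Measure (Fin (m + 1) → ℝ)} (hν : IsSLInvariant ν)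
    {A : Set (Fin (m + 1) → ℝ)} (hA : MeasurableSet A) : ν (vmul h ⁻¹' A) = ν A := by
  conv_rhs => rw [← hν h, Measure.map_apply (continuous_vmul h).measurable hA]

theorem slab_subset_box {k R : ℝ} (hk : 0 ≤ k) (hR : 0 ≤ R) :
    slab (Ioc (0 : ℝ) k) (Metric.closedBall (0 : Fin m → ℝ) R) ⊆
      Metric.closedBall 0 (max k (R * k)) := by
  rintro x ⟨⟨h0, hk'⟩, hx⟩
  rw [mem_closedBall_zero_iff] at hx ⊢
  refine (pi_norm_le_iff_of_nonneg (le_max_of_le_left hk)).2 fun i => ?_
  induction i using Fin.cases with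
  | zero =>
    rw [Real.norm_eq_abs, abs_of_pos h0]
    exact hk'.trans (le_max_left _ _)
  | succ j =>
    have h1 := (norm_le_pi_norm (ratio x) j).trans hx
    rw [ratio, Real.norm_eq_abs, abs_div, abs_of_pos h0, div_le_iff₀ h0] at h1
    rw [Real.norm_eq_abs]
    exact (h1.trans (mul_le_mul_of_nonneg_left hk' hR)).trans (le_max_right _ _)

/-- The shear by `b`. -/
def shearMat (b : Fin m → ℝ) : Matrix (Fin (m + 1)) (Fin (m + 1)) ℝ :=
  Matrix.of fun i j => if i = j then 1 else if i = 0 then (Fin.cons 0 b : Fin (m + 1) → ℝ) j else 0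

theorem det_shearMat (b : Fin m → ℝ) : (shearMat b).det = 1 := by
  rw [Matrix.det_of_isUpperTriangular (fun i j hij => ?_)]
  · simp [shearMat]
  · have hij' : j < i := hij
    have hi : i ≠ 0 := fun h => absurd hij' (by rw [h]; exact Fin.not_lt_zero j)
    simp [shearMat, hij'.ne', hi]

theorem vmul_shear (b : Fin m → ℝ) (x : Fin (m + 1) → ℝ) :
    vmul ⟨shearMat b, det_shearMat b⟩ x = Fin.cons (x 0) fun j => x j.succ + x 0 * b j := by
  funext i
  simp only [vmul, Matrix.vecMul, dotProduct]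
  induction i using Fin.cases with
  | zero => simp [shearMat, Fin.sum_univ_succ]
  | succ j =>
    rw [Fin.sum_univ_succ, Finset.sum_eq_single j]
    · simp [shearMat, (Fin.succ_ne_zero j).symm, add_comm]
    · intro l _ hl
      simp [shearMat, hl]
    · exact fun h => absurd (Finset.mem_univ _) h

variable {ν : Measure (Fin (m + 1) → ℝ)} [IsFiniteMeasureOnCompacts ν]

theorem slab_eq_mul_of_bounded (hν : IsSLInvariant ν) {k : ℝ} {B : Set ℝ} (hB : MeasurableSet B)
    (hBk : B ⊆ Ioc (0 : ℝ) k) {U : Set (Fin m → ℝ)} (hU : MeasurableSet U) :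
    ν (slab B U) = ν (slab B (unitCube m)) * volume U := by
  obtain ⟨ρ, hρ⟩ : ∃ ρ : Measure (Fin m → ℝ),
      ρ = (ν.restrict ((fun x => x 0) ⁻¹' B)).map ratio := ⟨_, rfl⟩
  have hρa : ∀ A, MeasurableSet A → ρ A = ν (slab B A) := fun A hA => by
    rw [hρ, Measure.map_apply measurable_ratio hA, Measure.restrict_apply (measurable_ratio hA),
      inter_comm]
    rfl
  haveI : IsFiniteMeasureOnCompacts ρ := ⟨fun K hK => by
    obtain ⟨R, hR⟩ := hK.isBounded.subset_closedBall 0
    rw [hρa K hK.measurableSet]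
    refine lt_of_le_of_lt (measure_mono ?_)
      (isCompact_closedBall (0 : Fin (m + 1) → ℝ)
        (max (max k 0) (max R 0 * max k 0))).measure_lt_top
    refine Subset.trans ?_ (slab_subset_box (le_max_right _ _) (le_max_right _ _))
    exact fun x hx => ⟨Ioc_subset_Ioc_right (le_max_left _ _) (hBk hx.1),
      Metric.closedBall_subset_closedBall (le_max_left _ _) (hR hx.2)⟩⟩
  haveI : ρ.IsAddLeftInvariant := ⟨fun b => by
    refine Measure.ext fun A hA => ?_
    have hA' : MeasurableSet ((b + ·) ⁻¹' A) := (measurable_const_add b) hA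
    rw [Measure.map_apply (measurable_const_add b) hA, hρa _ hA', hρa _ hA,
      ← vmul_preimage ⟨shearMat b, det_shearMat b⟩ hν (measurableSet_slab hB hA)]
    congr 1
    ext x
    simp only [slab, Set.mem_setOf_eq, Set.mem_preimage, vmul_shear, Fin.cons_zero]
    refine and_congr_right fun hx => ?_
    have h0 : x 0 ≠ 0 := (hBk hx).1.ne'
    have e : ratio (Fin.cons (x 0) fun j => x j.succ + x 0 * b j) = b + ratio x := by
      funext j
      simp [ratio, add_div, h0, add_comm]
    rw [e]⟩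
  have h := Measure.isAddLeftInvariant_eq_smul ρ (volume : Measure (Fin m → ℝ))
  have h1 := congrArg (fun μ : Measure _ => μ (unitCube m)) h
  simp only [Measure.smul_apply, volume_unitCube, ENNReal.smul_def, smul_eq_mul, mul_one] at h1
  have hQ : MeasurableSet (unitCube m) := measurableSet_Icc
  rw [← hρa U hU, ← hρa _ hQ, h1]
  conv_lhs => rw [h, Measure.smul_apply, ENNReal.smul_def, smul_eq_mul]

theorem slab_eq_mul (hν : IsSLInvariant ν) {B : Set ℝ} (hB : MeasurableSet B) (hB0 : B ⊆ Ioi 0)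
    {U : Set (Fin m → ℝ)} (hU : MeasurableSet U) :
    ν (slab B U) = ν (slab B (unitCube m)) * volume U := by
  have hmono : ∀ A : Set (Fin m → ℝ), Monotone fun k : ℕ => slab (B ∩ Ioc (0 : ℝ) k) A :=
    fun A a b hab x hx => ⟨⟨hx.1.1, hx.1.2.1, hx.1.2.2.trans (Nat.cast_le.2 hab)⟩, hx.2⟩
  have hun : ∀ A : Set (Fin m → ℝ), slab B A = ⋃ k : ℕ, slab (B ∩ Ioc (0 : ℝ) k) A := by
    intro A
    ext x
    simp only [slab, Set.mem_setOf_eq, Set.mem_iUnion, Set.mem_inter_iff, Set.mem_Ioc]
    refine ⟨fun ⟨h, hA⟩ => ?_, fun ⟨k, h, hA⟩ => ⟨h.1, hA⟩⟩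
    obtain ⟨k, hk⟩ := exists_nat_ge (x 0)
    exact ⟨k, ⟨h, hB0 h, hk⟩, hA⟩
  rw [hun, hun, (hmono U).measure_iUnion, (hmono _).measure_iUnion, ENNReal.iSup_mul]
  exact iSup_congr fun k => slab_eq_mul_of_bounded hν (hB.inter measurableSet_Ioc)
    Set.inter_subset_right hU

/-- The diagonal matrix scaling the first coordinate by `t`. -/
def scaleMat (m : ℕ) (t : ℝ) : Matrix (Fin (m + 1)) (Fin (m + 1)) ℝ :=
  Matrix.diagonal (Fin.cons t fun _ => t ^ (-(m : ℝ)⁻¹))

theorem det_scaleMat (hm : 1 ≤ m) {t : ℝ} (ht : 0 < t) : (scaleMat m t).det = 1 := by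
  rw [scaleMat, Matrix.det_diagonal, Fin.prod_univ_succ, Fin.cons_zero]
  simp only [Fin.cons_succ, Finset.prod_const, Finset.card_univ, Fintype.card_fin]
  rw [← Real.rpow_natCast, ← Real.rpow_mul ht.le, neg_mul,
    inv_mul_cancel₀ (Nat.cast_ne_zero.2 (by omega)), Real.rpow_neg_one, mul_inv_cancel₀ ht.ne']

theorem slab_Ioc (hν : IsSLInvariant ν) (hm : 1 ≤ m) {t : ℝ} (ht : 0 < t) :
    ν (slab (Ioc (0 : ℝ) t) (unitCube m)) =
      ENNReal.ofReal (t ^ (m + 1)) * ν (slab (Ioc (0 : ℝ) 1) (unitCube m)) := by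
  obtain ⟨s, hs⟩ : ∃ s : ℝ, s = t ^ (-(m : ℝ)⁻¹) / t := ⟨_, rfl⟩
  have hs0 : 0 < s := hs ▸ div_pos (Real.rpow_pos_of_pos ht _) ht
  have hQ : MeasurableSet (unitCube m) := measurableSet_Icc
  rw [← vmul_preimage ⟨scaleMat m t, det_scaleMat hm ht⟩ hν
    (measurableSet_slab measurableSet_Ioc hQ)]
  have e : vmul ⟨scaleMat m t, det_scaleMat hm ht⟩ ⁻¹' slab (Ioc (0 : ℝ) t) (unitCube m) =
      slab (Ioc (0 : ℝ) 1) ((fun u : Fin m → ℝ => s • u) ⁻¹' unitCube m) := by
    ext x
    have e0 : vmul ⟨scaleMat m t, det_scaleMat hm ht⟩ x 0 = x 0 * t := by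
      simp [vmul, scaleMat, Matrix.vecMul_diagonal]
    have e1 : ratio (vmul ⟨scaleMat m t, det_scaleMat hm ht⟩ x) = s • ratio x := by
      funext j
      simp only [ratio, Pi.smul_apply, smul_eq_mul, hs, vmul, scaleMat, Matrix.vecMul_diagonal,
        Fin.cons_zero, Fin.cons_succ]
      ring
    simp only [slab, Set.mem_preimage, Set.mem_setOf_eq, Set.mem_Ioc, e0, e1,
      mul_pos_iff_of_pos_right ht, mul_le_iff_le_one_left ht]
  rw [e, slab_eq_mul hν measurableSet_Ioc Ioc_subset_Ioi_self ((measurable_const_smul s) hQ),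
    Measure.addHaar_preimage_smul volume hs0.ne', volume_unitCube, mul_one, mul_comm]
  congr 2
  rw [Module.finrank_pi, Fintype.card_fin, abs_of_pos (by positivity), hs, div_pow, inv_div,
    ← Real.rpow_natCast (t ^ (-(m : ℝ)⁻¹)), ← Real.rpow_mul ht.le, neg_mul,
    inv_mul_cancel₀ (Nat.cast_ne_zero.2 (by omega)), Real.rpow_neg_one, div_inv_eq_mul, pow_succ]

/-- The first coordinates of the unit slab. -/
def radial (ν : Measure (Fin (m + 1) → ℝ)) : Measure ℝ :=
  (ν.restrict (slab (Ioi 0) (unitCube m))).map fun x => x 0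

theorem radial_apply {B : Set ℝ} (hB : MeasurableSet B) :
    radial ν B = ν (slab (B ∩ Ioi 0) (unitCube m)) := by
  rw [radial, Measure.map_apply (measurable_pi_apply 0) hB,
    Measure.restrict_apply (measurable_pi_apply 0 hB)]
  congr 1
  ext x
  simp [slab, and_assoc]

instance : IsFiniteMeasureOnCompacts (radial ν) :=
  ⟨fun K hK => by
    obtain ⟨R, hR⟩ := hK.isBounded.subset_closedBall 0
    rw [radial_apply hK.measurableSet]
    refine lt_of_le_of_lt (measure_mono ?_)
      (isCompact_closedBall (0 : Fin (m + 1) → ℝ) (max (max R 0) (1 * max R 0))).measure_lt_top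
    refine Subset.trans ?_ (slab_subset_box (le_max_right _ _) zero_le_one)
    rintro x ⟨⟨hK', h0⟩, hu⟩
    refine ⟨⟨h0, ?_⟩, ?_⟩
    · have := hR hK'
      rw [mem_closedBall_zero_iff, Real.norm_eq_abs] at this
      exact ((le_abs_self _).trans this).trans (le_max_left _ _)
    · rw [mem_closedBall_zero_iff]
      refine (pi_norm_le_iff_of_nonneg zero_le_one).2 fun j => ?_
      rw [Real.norm_eq_abs, abs_of_nonneg (hu.1 j)]
      exact hu.2 j⟩

theorem radial_Ioc (hν : IsSLInvariant ν) (hm : 1 ≤ m) {b : ℝ} (hb : 0 ≤ b) :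
    radial ν (Ioc 0 b) =
      ENNReal.ofReal (b ^ (m + 1)) * ν (slab (Ioc (0 : ℝ) 1) (unitCube m)) := by
  rw [radial_apply measurableSet_Ioc, inter_eq_left.2 Ioc_subset_Ioi_self]
  rcases hb.eq_or_lt with rfl | hb'
  · simp [slab, zero_pow]
  · exact slab_Ioc hν hm hb'

theorem radial_eq (hν : IsSLInvariant ν) (hm : 1 ≤ m) {ν' : Measure (Fin (m + 1) → ℝ)}
    [IsFiniteMeasureOnCompacts ν'] (hν' : IsSLInvariant ν') {k : ℝ≥0}
    (hk : ν (slab (Ioc (0 : ℝ) 1) (unitCube m)) = k * ν' (slab (Ioc (0 : ℝ) 1) (unitCube m))) :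
    radial ν = k • radial ν' := by
  have hneg : ∀ (τ : Measure (Fin (m + 1) → ℝ)) [IsFiniteMeasureOnCompacts τ] (a b : ℝ),
      radial τ (Ioc a b) = radial τ (Ioc (max a 0) (max b 0)) := fun τ _ a b => by
    rw [radial_apply measurableSet_Ioc, radial_apply measurableSet_Ioc]
    congr 2
    ext x
    simp only [Set.mem_inter_iff, Set.mem_Ioc, Set.mem_Ioi, max_lt_iff, le_max_iff]
    constructor
    · rintro ⟨⟨h1, h2⟩, h3⟩
      exact ⟨⟨⟨h1, h3⟩, Or.inl h2⟩, h3⟩
    · rintro ⟨⟨⟨h1, -⟩, h2⟩, h3⟩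
      exact ⟨⟨h1, h2.resolve_right (not_le.2 h3)⟩, h3⟩
  refine Measure.ext_of_Ioc _ _ fun a b hab => ?_
  rw [Measure.smul_apply, hneg ν, hneg ν', ENNReal.smul_def, smul_eq_mul]
  obtain ⟨a', ha'⟩ : ∃ a', a' = max a 0 := ⟨_, rfl⟩
  obtain ⟨b', hb'⟩ : ∃ b', b' = max b 0 := ⟨_, rfl⟩
  have ha0 : 0 ≤ a' := ha' ▸ le_max_right _ _
  have hab' : a' ≤ b' := ha' ▸ hb' ▸ max_le_max hab.le le_rfl
  rw [← ha', ← hb']
  have hsplit : ∀ τ : Measure ℝ, τ (Ioc 0 a') + τ (Ioc a' b') = τ (Ioc 0 b') := fun τ => by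
    rw [← measure_union (Set.Ioc_disjoint_Ioc_of_le le_rfl) measurableSet_Ioc,
      Set.Ioc_union_Ioc_eq_Ioc ha0 hab']
  have e1 : ∀ c : ℝ, 0 ≤ c → radial ν (Ioc 0 c) = k * radial ν' (Ioc 0 c) := fun c hc => by
    rw [radial_Ioc hν hm hc, radial_Ioc hν' hm hc, hk]
    ring
  have h1 := hsplit (radial ν)
  rw [e1 a' ha0, e1 b' (ha0.trans hab'), ← hsplit (radial ν'), mul_add] at h1
  exact (ENNReal.add_right_inj (ENNReal.mul_ne_top ENNReal.coe_ne_top
    measure_Ioc_lt_top.ne)).1 h1

/-- The coordinates `(x 0, x j / x 0)`. -/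
def chart (x : Fin (m + 1) → ℝ) : ℝ × (Fin m → ℝ) := (x 0, ratio x)

theorem measurable_chart : Measurable (chart (m := m)) :=
  (measurable_pi_apply 0).prodMk measurable_ratio

theorem map_chart (hν : IsSLInvariant ν) :
    (ν.restrict {x | 0 < x 0}).map chart = (radial ν).prod volume := by
  refine (Measure.prod_eq fun B U hB hU => ?_).symm
  rw [Measure.map_apply measurable_chart (hB.prod hU),
    Measure.restrict_apply (measurable_chart (hB.prod hU)), radial_apply hB,
    ← slab_eq_mul hν (hB.inter measurableSet_Ioi) Set.inter_subset_right hU]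
  congr 1
  ext x
  simp only [chart, slab, Set.mem_inter_iff, Set.mem_preimage, Set.mem_prod, Set.mem_setOf_eq,
    Set.mem_Ioi]
  tauto

theorem restrict_pos_eq (hν : IsSLInvariant ν) (hm : 1 ≤ m) {ν' : Measure (Fin (m + 1) → ℝ)}
    [IsFiniteMeasureOnCompacts ν'] (hν' : IsSLInvariant ν') {k : ℝ≥0}
    (hk : ν (slab (Ioc (0 : ℝ) 1) (unitCube m)) = k * ν' (slab (Ioc (0 : ℝ) 1) (unitCube m))) :
    ν.restrict {x | 0 < x 0} = k • ν'.restrict {x | 0 < x 0} := by
  obtain ⟨Φ, hΦ⟩ : ∃ Φ : ℝ × (Fin m → ℝ) → Fin (m + 1) → ℝ,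
      Φ = fun p => Fin.cons p.1 fun j => p.1 * p.2 j := ⟨_, rfl⟩
  have hΦm : Measurable Φ := by
    rw [hΦ]
    refine measurable_pi_lambda _ fun i => ?_
    induction i using Fin.cases <;> simp <;> fun_prop
  have hback : ∀ τ : Measure (Fin (m + 1) → ℝ), ((τ.restrict {x | 0 < x 0}).map chart).map Φ =
      τ.restrict {x | 0 < x 0} := fun τ => by
    rw [Measure.map_map hΦm measurable_chart]
    refine (Measure.map_congr (g := id) ?_).trans Measure.map_id
    filter_upwards [ae_restrict_mem (measurableSet_lt measurable_const (measurable_pi_apply 0))]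
      with x hx
    have hx0 : x 0 ≠ 0 := ne_of_gt hx
    funext i
    induction i using Fin.cases with
    | zero => simp [hΦ, chart]
    | succ j => simp [hΦ, chart, ratio, mul_div_cancel₀ _ hx0]
  rw [← hback ν, ← hback ν', map_chart hν, map_chart hν', radial_eq hν hm hν' hk,
    Measure.prod_smul_left, Measure.map_smul]

/-- The sign change of the first two coordinates. -/
def flipMat (m : ℕ) : Matrix (Fin (m + 1)) (Fin (m + 1)) ℝ :=
  Matrix.diagonal fun i => if (i : ℕ) ≤ 1 then -1 else 1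

theorem det_flipMat (hm : 1 ≤ m) : (flipMat m).det = 1 := by
  obtain ⟨p, rfl⟩ : ∃ p, m = p + 1 := ⟨m - 1, by omega⟩
  rw [flipMat, Matrix.det_diagonal, Fin.prod_univ_succ, Fin.prod_univ_succ]
  simp

theorem restrict_neg_eq (hν : IsSLInvariant ν) (hm : 1 ≤ m) :
    ν.restrict {x | x 0 < 0} = (ν.restrict {x | 0 < x 0}).map
      (vmul ⟨flipMat m, det_flipMat hm⟩) := by
  conv_lhs => rw [← hν ⟨flipMat m, det_flipMat hm⟩]
  rw [Measure.restrict_map (continuous_vmul _).measurable
    (measurableSet_lt (measurable_pi_apply 0) measurable_const)]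
  congr 2
  ext x
  simp [vmul, flipMat, Matrix.vecMul_diagonal]

theorem hyperplane_null (hν : IsSLInvariant ν) (h0 : ν {0} = 0) : ν {x | x 0 = 0} = 0 := by
  obtain ⟨A, hA⟩ : ∃ A : Fin m → ℕ → Set (Fin (m + 1) → ℝ),
      A = fun (j : Fin m) (k : ℕ) => {x : Fin (m + 1) → ℝ |
        x 0 = 0 ∧ ((k : ℝ) + 1)⁻¹ ≤ |x j.succ| ∧ ‖x‖ ≤ k} := ⟨_, rfl⟩
  have hAm : ∀ j k, MeasurableSet (A j k) := fun j k => by
    rw [hA]
    exact (IsClosed.inter (isClosed_eq (continuous_apply 0) continuous_const)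
      ((isClosed_le continuous_const (continuous_apply j.succ).abs).inter
        (isClosed_le (continuous_norm (E := Fin (m + 1) → ℝ)) continuous_const))).measurableSet
  have hnull : ∀ j k, ν (A j k) = 0 := by
    intro j k
    obtain ⟨T, hT⟩ : ∃ T : ℝ → SLR (m + 1), ∀ a x, vmul (T a) x = x + Pi.single 0 (a * x j.succ) :=
      ⟨fun a => ⟨Matrix.transvection j.succ 0 a,
        Matrix.det_transvection_of_ne _ _ (Fin.succ_ne_zero j) a⟩, fun a x => by
        funext i
        rw [vmul]
        simp only [Matrix.transvection, Matrix.vecMul_add, Matrix.vecMul_one, Pi.add_apply]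
        induction i using Fin.cases with
        | zero => simp [Matrix.vecMul, dotProduct, Matrix.single_apply, mul_comm]
        | succ l => simp [Matrix.vecMul, dotProduct, Matrix.single_apply, Pi.single_apply,
            Fin.succ_ne_zero, (Fin.succ_ne_zero l).symm]⟩
    have hcount : ∀ N : ℕ, (N : ℝ≥0∞) * ν (A j k) ≤
        ν (Metric.closedBall 0 ((k : ℝ) + k)) := by
      intro N
      have hdisj : (↑(Finset.range N) : Set ℕ).PairwiseDisjoint
          fun i : ℕ => vmul (T (-((i : ℝ) + 1)⁻¹)) ⁻¹' A j k := by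
        intro a _ b _ hab
        refine Set.disjoint_left.2 fun x hx hx' => hab ?_
        simp only [hA, Set.mem_preimage, Set.mem_setOf_eq, hT, Pi.add_apply, Pi.single_eq_same,
          Pi.single_eq_of_ne (Fin.succ_ne_zero j), add_zero] at hx hx'
        have hne : x j.succ ≠ 0 := fun h => by
          have := hx.2.1
          rw [h, abs_zero] at this
          exact absurd this (not_le.2 (by positivity))
        have h1 : ((a : ℝ) + 1)⁻¹ = ((b : ℝ) + 1)⁻¹ :=
          mul_right_cancel₀ hne (by linarith [hx.1, hx'.1])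
        rw [_root_.inv_inj] at h1
        exact_mod_cast add_right_cancel h1
      calc (N : ℝ≥0∞) * ν (A j k)
          = ∑ i ∈ Finset.range N, ν (vmul (T (-((i : ℝ) + 1)⁻¹)) ⁻¹' A j k) := by
            simp [vmul_preimage _ hν (hAm j k)]
        _ = ν (⋃ i ∈ Finset.range N, vmul (T (-((i : ℝ) + 1)⁻¹)) ⁻¹' A j k) :=
            (measure_biUnion_finset hdisj
              fun i _ => (continuous_vmul _).measurable (hAm j k)).symm
        _ ≤ _ := by
            refine measure_mono (Set.iUnion₂_subset fun i _ x hx => ?_)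
            simp only [hA, Set.mem_preimage, Set.mem_setOf_eq, hT] at hx
            obtain ⟨hx0, -, hxn⟩ := hx
            rw [mem_closedBall_zero_iff]
            refine (pi_norm_le_iff_of_nonneg (by positivity)).2 fun l => ?_
            have hl := (norm_le_pi_norm _ l).trans hxn
            induction l using Fin.cases with
            | succ l =>
              rw [Pi.add_apply, Pi.single_eq_of_ne (Fin.succ_ne_zero l), add_zero] at hl
              linarith [Nat.cast_nonneg (α := ℝ) k]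
            | zero =>
              have hj := (norm_le_pi_norm _ j.succ).trans hxn
              rw [Pi.add_apply, Pi.single_eq_of_ne (Fin.succ_ne_zero j), add_zero,
                Real.norm_eq_abs] at hj
              rw [Pi.add_apply, Pi.single_eq_same] at hx0
              rw [Real.norm_eq_abs, show x 0 = -(-((i : ℝ) + 1)⁻¹ * x j.succ) by linarith, abs_neg,
                abs_mul, abs_neg, abs_of_pos (by positivity)]
              refine (mul_le_of_le_one_left (abs_nonneg _) (inv_le_one_of_one_le₀ ?_)).trans ?_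
              · linarith [Nat.cast_nonneg (α := ℝ) i]
              · linarith [Nat.cast_nonneg (α := ℝ) k]
    by_contra hne
    have hfin := (isCompact_closedBall (0 : Fin (m + 1) → ℝ) ((k : ℝ) + k)).measure_lt_top (μ := ν)
    obtain ⟨N, hN⟩ := ENNReal.exists_nat_mul_gt hne hfin.ne
    exact absurd (hcount N) (not_le.2 hN)
  refine measure_mono_null (t := {0} ∪ ⋃ j, ⋃ k, A j k) (fun x hx => ?_)
    (measure_union_null h0 (measure_iUnion_null fun j => measure_iUnion_null (hnull j)))
  rcases eq_or_ne x 0 with h | h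
  · exact Or.inl h
  · obtain ⟨i, hi⟩ := Function.ne_iff.1 h
    induction i using Fin.cases with
    | zero => exact absurd hx hi
    | succ j =>
      have hpos : 0 < |x j.succ| := abs_pos.2 hi
      obtain ⟨k, hk⟩ := exists_nat_ge (max |x j.succ|⁻¹ ‖x‖)
      refine Or.inr (Set.mem_iUnion₂.2 ⟨j, k, ?_⟩)
      rw [hA]
      refine ⟨hx, inv_le_of_inv_le₀ hpos ?_, (le_max_right _ _).trans hk⟩
      linarith [le_max_left |x j.succ|⁻¹ ‖x‖]

theorem isSLInvariant_volume : IsSLInvariant (volume : Measure (Fin (m + 1) → ℝ)) := fun h => by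
  have e : vmul h = Matrix.toLin' h.1ᵀ := by
    funext x
    rw [Matrix.toLin'_apply, Matrix.mulVec_transpose]
    rfl
  have hd : h.1ᵀ.det = 1 := by rw [Matrix.det_transpose, h.2]
  rw [e, Real.map_matrix_volume_pi_eq_smul_volume_pi (by rw [hd]; exact one_ne_zero), hd, inv_one,
    abs_one, ENNReal.ofReal_one, one_smul]

/-- **Uniqueness of invariant measures.** -/
theorem eq_smul_volume (hν : IsSLInvariant ν) (hm : 1 ≤ m) (h0 : ν {0} = 0) :
    ∃ c : ℝ≥0, ν = c • volume := by
  have hQ : MeasurableSet (slab (Ioc (0 : ℝ) 1) (unitCube m)) :=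
    measurableSet_slab measurableSet_Ioc measurableSet_Icc
  have hsub : slab (Ioc (0 : ℝ) 1) (unitCube m) ⊆
      Metric.closedBall (0 : Fin (m + 1) → ℝ) (max 1 (1 * 1)) := by
    refine Subset.trans ?_ (slab_subset_box zero_le_one zero_le_one)
    refine fun x hx => ⟨hx.1, ?_⟩
    rw [mem_closedBall_zero_iff]
    refine (pi_norm_le_iff_of_nonneg zero_le_one).2 fun j => ?_
    rw [Real.norm_eq_abs, abs_of_nonneg (hx.2.1 j)]
    exact hx.2.2 j
  have hfin : ∀ τ : Measure (Fin (m + 1) → ℝ), [IsFiniteMeasureOnCompacts τ] →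
      τ (slab (Ioc (0 : ℝ) 1) (unitCube m)) ≠ ∞ := fun τ _ =>
    ((measure_mono hsub).trans_lt (isCompact_closedBall _ _).measure_lt_top).ne
  have hpos : volume (slab (Ioc (0 : ℝ) 1) (unitCube m)) ≠ 0 := by
    have ho : IsOpen (Set.univ.pi fun i : Fin (m + 1) =>
        if i = 0 then Set.Ioo (1 / 2 : ℝ) 1 else Set.Ioo (0 : ℝ) (1 / 2)) :=
      isOpen_set_pi Set.finite_univ fun i _ => by split_ifs <;> exact isOpen_Ioo
    refine (lt_of_lt_of_le (ho.measure_pos volume ⟨fun i => if i = 0 then 3 / 4 else 1 / 4,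
      fun i _ => by dsimp only; split_ifs <;> norm_num⟩) (measure_mono fun x hx => ?_)).ne'
    have h00 : x 0 ∈ Set.Ioo (1 / 2 : ℝ) 1 := by simpa using hx 0 trivial
    refine ⟨⟨by linarith [h00.1], h00.2.le⟩, fun j => ?_, fun j => ?_⟩ <;>
    · have hj : x j.succ ∈ Set.Ioo (0 : ℝ) (1 / 2) := by
        simpa [Fin.succ_ne_zero] using hx j.succ trivial
      simp only [ratio, Pi.zero_apply, Pi.one_apply]
      first
        | exact div_nonneg hj.1.le (by linarith [h00.1])
        | exact (div_le_one (by linarith [h00.1])).2 (by linarith [h00.1, hj.2])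
  obtain ⟨k, hk⟩ : ∃ k : ℝ≥0, ν (slab (Ioc (0 : ℝ) 1) (unitCube m)) =
      k * volume (slab (Ioc (0 : ℝ) 1) (unitCube m)) := by
    refine ⟨(ν (slab (Ioc (0 : ℝ) 1) (unitCube m)) /
      volume (slab (Ioc (0 : ℝ) 1) (unitCube m))).toNNReal, ?_⟩
    rw [ENNReal.coe_toNNReal (ENNReal.div_ne_top (hfin ν) hpos),
      ENNReal.div_mul_cancel hpos (hfin volume)]
  refine ⟨k, ?_⟩
  have hP : MeasurableSet {x : Fin (m + 1) → ℝ | 0 < x 0} :=
    measurableSet_lt measurable_const (measurable_pi_apply 0)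
  have hN : MeasurableSet {x : Fin (m + 1) → ℝ | x 0 < 0} :=
    measurableSet_lt (measurable_pi_apply 0) measurable_const
  have hsplit : ∀ τ : Measure (Fin (m + 1) → ℝ), τ {x | x 0 = 0} = 0 →
      τ = τ.restrict {x | 0 < x 0} + τ.restrict {x | x 0 < 0} := fun τ hτ => by
    have hd : Disjoint {x : Fin (m + 1) → ℝ | 0 < x 0} {x | x 0 < 0} :=
      Set.disjoint_left.2 fun x hx hx' => lt_asymm (show 0 < x 0 from hx) hx'
    rw [← Measure.restrict_union hd hN]
    refine (Measure.restrict_eq_self_of_ae_mem ?_).symm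
    rw [ae_iff]
    refine measure_mono_null (fun x hx => ?_) hτ
    simp only [Set.mem_setOf_eq, Set.mem_union, not_or, not_lt] at hx
    exact le_antisymm hx.1 hx.2
  have hv0 : (volume : Measure (Fin (m + 1) → ℝ)) {0} = 0 := measure_singleton 0
  rw [hsplit ν (hyperplane_null hν h0), restrict_neg_eq hν hm,
    restrict_pos_eq hν hm isSLInvariant_volume hk, Measure.map_smul,
    ← restrict_neg_eq isSLInvariant_volume hm, ← smul_add,
    ← hsplit volume (hyperplane_null isSLInvariant_volume hv0)]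

end FA.SiegelMean

end
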