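import Fermat.Agent.SiegelMean.Integrable
import Fermat.Agent.SiegelMean.Unique
import Mathlib.Analysis.Convex.Measure
import Mathlib.MeasureTheory.Measure.Lebesgue.VolumeOfBalls

/-!
# Siegel's mean value theorem

The mean of `∑_{v ≠ 0} f (v g)` over the space of lattices is `∫ f`, that over primitive vectors
is `∫ f / ζ(n)`.
-/

set_option autoImplicit false

noncomputable section

open MeasureTheory Matrix Set Filter Topology
open scoped ENNReal NNReal
open FA.SLnLattice FA.SLnVolume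
open FA.MinkowskiHlawka (castVec content dvd_content_iff content_eq_zero card_inter_smul_span)

namespace FA.SiegelMean

variable {n m : ℕ}

theorem prim_subset_nonzero : primVecs n ⊆ nonzeroVecs n := fun v hv h => by
  have h1 : content v = 0 := content_eq_zero.2 h
  rw [show content v = 1 from hv] at h1
  exact one_ne_zero h1

theorem tendsto_boxCount (g : SLR (m + 1)) :
    Tendsto (fun N : ℕ => boxCount (N + 1) g * (((N + 1 : ℕ) : ℝ≥0∞) ^ (m + 1))⁻¹) atTop
      (𝓝 (ENNReal.ofReal (2 ^ (m + 1)))) := by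
  classical
  obtain ⟨S, hS⟩ : ∃ S : Set (Fin (m + 1) → ℝ), S = vmul g ⁻¹' Metric.closedBall 0 1 := ⟨_, rfl⟩
  have hSc : IsClosed S := hS ▸ Metric.isClosed_closedBall.preimage (continuous_vmul g)
  have hinv : ∀ (h : SLR (m + 1)) (x : Fin (m + 1) → ℝ), vmul h⁻¹ (vmul h x) = x := fun h x => by
    rw [vmul, vmul, Matrix.vecMul_vecMul, ← Matrix.SpecialLinearGroup.coe_mul, mul_inv_cancel,
      Matrix.SpecialLinearGroup.coe_one, Matrix.vecMul_one]
  have hSb : Bornology.IsBounded S := by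
    refine (((isCompact_closedBall (0 : Fin (m + 1) → ℝ) 1).image
      (continuous_vmul g⁻¹)).isBounded).subset fun x hx => ⟨vmul g x, ?_, hinv g x⟩
    rw [hS] at hx
    exact hx
  have hSconv : Convex ℝ S := by
    have e : S = (Matrix.vecMulLinear g.1) ⁻¹' Metric.closedBall 0 1 := hS
    rw [e]
    exact (convex_closedBall _ _).linear_preimage _
  have hvol : volume.real S = 2 ^ (m + 1) := by
    rw [Measure.real, hS, vmul_preimage g isSLInvariant_volume
      Metric.isClosed_closedBall.measurableSet, Real.volume_pi_closedBall _ zero_le_one,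
      ENNReal.toReal_ofReal (by positivity)]
    simp
  have h := tendsto_card_div_pow_atTop_volume S hSb hSc.measurableSet
    (Convex.addHaar_frontier volume hSconv)
  rw [hvol, Fintype.card_fin] at h
  have h0 : Tendsto (fun N : ℕ => (1 : ℝ) / (N : ℝ) ^ (m + 1)) atTop (𝓝 0) := by
    refine Tendsto.div_atTop tendsto_const_nhds ?_
    exact (tendsto_pow_atTop (Nat.succ_ne_zero m)).comp tendsto_natCast_atTop_atTop
  have h1 := (ENNReal.continuous_ofReal.tendsto _).comp
    ((h.sub h0).comp (tendsto_add_atTop_nat 1))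
  rw [sub_zero] at h1
  refine h1.congr fun N => ?_
  rw [Function.comp_apply, Function.comp_apply]
  have hN : (0 : ℝ) < ((N + 1 : ℕ) : ℝ) := by positivity
  have hset : {z : Fin (m + 1) → ℤ | (((N + 1 : ℕ) : ℝ))⁻¹ • castVec z ∈ S} =
      insert 0 {v | v ∈ nonzeroVecs (m + 1) ∧
        castVec v ᵥ* g.1 ∈ Metric.closedBall (0 : Fin (m + 1) → ℝ) ((N + 1 : ℕ) : ℝ)} := by
    ext v
    rcases eq_or_ne v 0 with rfl | hv
    · simp [hS, vmul, show castVec (0 : Fin (m + 1) → ℤ) = 0 from funext fun i => by simp [castVec]]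
    · obtain ⟨r, hr⟩ : ∃ r : ℝ, r = ((N + 1 : ℕ) : ℝ) := ⟨_, rfl⟩
      rw [← hr] at hN ⊢
      simp [hS, vmul, nonzeroVecs, hv, Matrix.smul_vecMul, norm_smul, inv_mul_le_iff₀ hN,
        abs_of_pos hN]
  have hfin : {v | v ∈ nonzeroVecs (m + 1) ∧
      castVec v ᵥ* g.1 ∈ Metric.closedBall (0 : Fin (m + 1) → ℝ) ((N + 1 : ℕ) : ℝ)}.Finite := by
    obtain ⟨γ, e, x, hf, -⟩ := exists_reduced_SL g
    obtain ⟨hfin, -⟩ := ncard_frame_le hf hN.le
    refine Set.Finite.subset (hfin.image fun v => v ᵥ* γ.1) fun v hv => ⟨v ᵥ* (γ⁻¹).1, ?_, ?_⟩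
    · show ‖castVec _ ᵥ* (castSL γ * g).1‖ ≤ _
      rw [Matrix.SpecialLinearGroup.coe_mul, ← Matrix.vecMul_vecMul, ← castVec_vecMul]
      have e' : v ᵥ* (γ⁻¹).1 ᵥ* γ.1 = v := by simpa using vecMul_inv_cancel v γ⁻¹
      rw [e']
      simpa using hv.2
    · show v ᵥ* (γ⁻¹).1 ᵥ* γ.1 = v
      simpa using vecMul_inv_cancel v γ⁻¹
  rw [boxCount, tsum_indicator_eq_ncard g hfin, Nat.cast_add_one, ← Nat.cast_add_one,
    card_inter_smul_span S hN, hset, Set.ncard_insert_of_notMem (fun h => h.1 rfl) hfin,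
    Nat.cast_add_one ({v | v ∈ nonzeroVecs (m + 1) ∧ castVec v ᵥ* g.1 ∈
      Metric.closedBall (0 : Fin (m + 1) → ℝ) ((N + 1 : ℕ) : ℝ)}.ncard), ← sub_div,
    add_sub_cancel_right, ENNReal.ofReal_div_of_pos (by positivity), ENNReal.ofReal_natCast,
    ENNReal.ofReal_pow hN.le, ENNReal.ofReal_natCast, div_eq_mul_inv]

variable [MeasurableSpace (SLR n)] [BorelSpace (SLR n)]
  [MeasurableSpace (SLR (m + 1))] [BorelSpace (SLR (m + 1))]

theorem isFinite_meanMeasure (hm : 1 ≤ m) {P : Set (Fin (m + 1) → ℤ)}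
    (hP : P ⊆ nonzeroVecs (m + 1)) {E : Set (SLR (m + 1))} (hEm : MeasurableSet E)
    (hE : IsTransversal E) :
    IsFiniteMeasureOnCompacts (meanMeasure P (coneMeasure (m + 1)) E) := by
  refine ⟨fun K hK => ?_⟩
  obtain ⟨R, hR⟩ := hK.isBounded.subset_closedBall 0
  obtain ⟨N, hN⟩ := exists_nat_ge R
  refine lt_of_le_of_lt (measure_mono (hR.trans (Metric.closedBall_subset_closedBall
    (hN.trans (Nat.cast_le.2 (Nat.le_succ N)))))) ?_
  rw [meanMeasure_apply _ _ _ Metric.isClosed_closedBall.measurableSet]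
  have hpt : ∀ g,
      theta P ((Metric.closedBall (0 : Fin (m + 1) → ℝ) ((N + 1 : ℕ) : ℝ)).indicator 1) g
      ≤ ((N + 1 : ℕ) : ℝ≥0∞) ^ (m + 1) * maxCount g := by
    intro g
    refine le_trans (ENNReal.tsum_mono_subtype
      (fun v => (Metric.closedBall (0 : Fin (m + 1) → ℝ) ((N + 1 : ℕ) : ℝ)).indicator 1
        (castVec v ᵥ* g.1)) hP) ?_
    have h1 : boxCount (N + 1) g * (((N + 1 : ℕ) : ℝ≥0∞) ^ (m + 1))⁻¹ ≤ maxCount g :=
      le_iSup (fun N : ℕ => boxCount (N + 1) g * (((N + 1 : ℕ) : ℝ≥0∞) ^ (m + 1))⁻¹) N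
    refine le_trans (le_of_eq ?_) (mul_le_mul' le_rfl h1)
    rw [mul_comm (boxCount _ _), ← mul_assoc, ENNReal.mul_inv_cancel (by positivity)
      (ENNReal.pow_ne_top (ENNReal.natCast_ne_top _)), one_mul]
    rfl
  refine lt_of_le_of_lt (lintegral_mono hpt) ?_
  rw [lintegral_const_mul _ measurable_maxCount]
  exact ENNReal.mul_lt_top (ENNReal.pow_lt_top (ENNReal.natCast_lt_top _))
    (lintegral_maxCount_lt_top (by omega) hEm hE)

theorem exists_const (hm : 1 ≤ m) {P : Set (Fin (m + 1) → ℤ)} (hP : P ⊆ nonzeroVecs (m + 1))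
    (hs : IsStable P) {E : Set (SLR (m + 1))} (hEm : MeasurableSet E) (hE : IsTransversal E) :
    ∃ c : ℝ≥0, meanMeasure P (coneMeasure (m + 1)) E = c • volume := by
  haveI := isFinite_meanMeasure hm hP hEm hE
  exact eq_smul_volume (fun h => map_meanMeasure hs _ hEm hE h) hm (meanMeasure_zero hP _ _)

theorem meanMeasure_nonzero (hm : 1 ≤ m) {E : Set (SLR (m + 1))} (hEm : MeasurableSet E)
    (hE : IsTransversal E) :
    meanMeasure (nonzeroVecs (m + 1)) (coneMeasure (m + 1)) E =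
      coneMeasure (m + 1) E • volume := by
  obtain ⟨c, hc⟩ := exists_const hm subset_rfl isStable_nonzero hEm hE
  have hlim := tendsto_lintegral_filter_of_dominated_convergence
    (μ := (coneMeasure (m + 1)).restrict E)
    (F := fun (N : ℕ) g => boxCount (N + 1) g * (((N + 1 : ℕ) : ℝ≥0∞) ^ (m + 1))⁻¹)
    (f := fun _ => ENNReal.ofReal (2 ^ (m + 1))) (l := atTop) maxCount
    (Eventually.of_forall fun N => (measurable_boxCount (N + 1)).mul_const _)
    (Eventually.of_forall fun N => ae_of_all _ fun g =>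
      le_iSup (fun N : ℕ => boxCount (N + 1) g * (((N + 1 : ℕ) : ℝ≥0∞) ^ (m + 1))⁻¹) N)
    (lintegral_maxCount_lt_top (by omega) hEm hE).ne (ae_of_all _ tendsto_boxCount)
  rw [setLIntegral_const] at hlim
  have hconst : ∀ N : ℕ, ∫⁻ g in E, boxCount (N + 1) g * (((N + 1 : ℕ) : ℝ≥0∞) ^ (m + 1))⁻¹
      ∂coneMeasure (m + 1) = (c : ℝ≥0∞) * ENNReal.ofReal (2 ^ (m + 1)) := by
    intro N
    have hN : (0 : ℝ) < ((N + 1 : ℕ) : ℝ) := by positivity
    rw [lintegral_mul_const _ (measurable_boxCount _)]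
    unfold boxCount
    rw [← meanMeasure_apply _ _ _ Metric.isClosed_closedBall.measurableSet, hc, Measure.smul_apply,
      ENNReal.smul_def, smul_eq_mul, Real.volume_pi_closedBall _ hN.le, mul_assoc,
      Fintype.card_fin, mul_pow, ENNReal.ofReal_mul (by positivity),
      ENNReal.ofReal_pow hN.le, ENNReal.ofReal_natCast, mul_assoc,
      ENNReal.mul_inv_cancel (by positivity) (ENNReal.pow_ne_top (ENNReal.natCast_ne_top _)),
      mul_one]
  simp only [hconst] at hlim
  have h := tendsto_nhds_unique tendsto_const_nhds hlim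
  rw [mul_comm (ENNReal.ofReal _)] at h
  rw [hc, ← (ENNReal.mul_left_inj (by simp) ENNReal.ofReal_ne_top).1 h]
  rfl

theorem exists_mul_prim {v : Fin (m + 1) → ℤ} (hv : v ≠ 0) :
    ∃ (e : ℕ) (w : primVecs (m + 1)), ((e + 1 : ℕ) : ℤ) • (w : Fin (m + 1) → ℤ) = v := by
  have hc : content v ≠ 0 := fun h => hv (content_eq_zero.1 h)
  have hcZ : (content v : ℤ) ≠ 0 := Int.natCast_ne_zero.2 hc
  choose w hw using dvd_content_iff.1 (dvd_refl (content v))
  refine ⟨content v - 1, ⟨w, ?_⟩, ?_⟩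
  · have h : content v * content w ∣ content v := dvd_content_iff.2 fun i => by
      rw [hw i, Nat.cast_mul]
      exact mul_dvd_mul_left _ (dvd_content_iff.1 dvd_rfl i)
    exact Nat.dvd_one.1 ((Nat.mul_dvd_mul_iff_left (Nat.pos_of_ne_zero hc)).1 (by rwa [mul_one]))
  · funext i
    rw [Pi.smul_apply, smul_eq_mul, hw i, Nat.sub_add_cancel (Nat.one_le_iff_ne_zero.2 hc)]

theorem content_smul_prim (e : ℕ) {w : Fin (m + 1) → ℤ} (hw : content w = 1) :
    content ((e : ℤ) • w) = e := by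
  refine Nat.dvd_antisymm ?_ (dvd_content_iff.2 fun i => by simp)
  rcases Nat.eq_zero_or_pos e with rfl | he
  · simp
  · obtain ⟨c, hc⟩ : e ∣ content ((e : ℤ) • w) := dvd_content_iff.2 fun i => by simp
    have hd : c ∣ content w := dvd_content_iff.2 fun i => by
      have h := dvd_content_iff.1 (dvd_refl (content ((e : ℤ) • w))) i
      rw [Pi.smul_apply, smul_eq_mul, hc, Nat.cast_mul] at h
      exact (mul_dvd_mul_iff_left (Int.natCast_ne_zero.2 he.ne')).1 h
    rw [hw, Nat.dvd_one] at hd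
    rw [hc, hd, mul_one]

theorem theta_nonzero_eq (f : (Fin (m + 1) → ℝ) → ℝ≥0∞) (g : SLR (m + 1)) :
    theta (nonzeroVecs (m + 1)) f g =
      ∑' e : ℕ, theta (primVecs (m + 1)) (fun x => f (((e + 1 : ℕ) : ℝ) • x)) g := by
  obtain ⟨Φ, hΦ⟩ : ∃ Φ : ℕ × primVecs (m + 1) → nonzeroVecs (m + 1),
      ∀ p, (Φ p : Fin (m + 1) → ℤ) = ((p.1 + 1 : ℕ) : ℤ) • (p.2 : Fin (m + 1) → ℤ) := by
    refine ⟨fun p => ⟨_, fun h => ?_⟩, fun _ => rfl⟩
    have := content_smul_prim (p.1 + 1) p.2.2
    rw [show ((p.1 + 1 : ℕ) : ℤ) • (p.2 : Fin (m + 1) → ℤ) = 0 from h,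
      content_eq_zero.2 rfl] at this
    omega
  have hbij : Function.Bijective Φ := by
    refine ⟨fun p q h => ?_, fun v => ?_⟩
    · have h' := congrArg Subtype.val h
      rw [hΦ, hΦ] at h'
      have hc := congrArg content h'
      rw [content_smul_prim _ p.2.2, content_smul_prim _ q.2.2] at hc
      have he : p.1 = q.1 := by omega
      refine Prod.ext he (Subtype.ext (funext fun i => ?_))
      have h'' := congrFun h' i
      rw [he, Pi.smul_apply, Pi.smul_apply, smul_eq_mul, smul_eq_mul] at h''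
      exact mul_left_cancel₀ (by positivity) h''
    · obtain ⟨e, w, hw⟩ := exists_mul_prim v.2
      exact ⟨(e, w), Subtype.ext ((hΦ _).trans hw)⟩
  rw [theta, ← (Equiv.ofBijective Φ hbij).tsum_eq, ENNReal.tsum_prod']
  refine tsum_congr fun e => tsum_congr fun w => congrArg f ?_
  rw [Equiv.ofBijective_apply, hΦ, ← Matrix.smul_vecMul]
  congr 1
  funext i
  simp [castVec]

/-- The zeta value. -/
def zetaVal (k : ℕ) : ℝ := (riemannZeta k).re

theorem tsum_succ_inv_pow (hm : 1 ≤ m) :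
    ∑' e : ℕ, ENNReal.ofReal (1 / ((e + 1 : ℕ) : ℝ) ^ (m + 1)) =
      ENNReal.ofReal (zetaVal (m + 1)) := by
  have hs : Summable fun e : ℕ => 1 / (e : ℝ) ^ (m + 1) :=
    Real.summable_one_div_nat_pow.2 (by omega)
  rw [← ENNReal.ofReal_tsum_of_nonneg (fun e => by positivity)
    ((summable_nat_add_iff 1).2 hs), zetaVal, ← tsum_eq_zeta (by omega : 2 ≤ m + 1),
    hs.tsum_eq_zero_add]
  simp

theorem zetaVal_pos (hm : 1 ≤ m) : 0 < zetaVal (m + 1) := by
  rw [zetaVal, ← tsum_eq_zeta (by omega : 2 ≤ m + 1)]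
  exact (Real.summable_one_div_nat_pow.2 (by omega)).tsum_pos (fun e => by positivity) 1 (by simp)

theorem meanMeasure_prim (hm : 1 ≤ m) {E : Set (SLR (m + 1))} (hEm : MeasurableSet E)
    (hE : IsTransversal E) :
    ENNReal.ofReal (zetaVal (m + 1)) • meanMeasure (primVecs (m + 1)) (coneMeasure (m + 1)) E =
      coneMeasure (m + 1) E • volume := by
  obtain ⟨c, hc⟩ := exists_const hm prim_subset_nonzero isStable_prim hEm hE
  have hball : ∀ r : ℝ, MeasurableSet (Metric.closedBall (0 : Fin (m + 1) → ℝ) r) := fun r =>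
    Metric.isClosed_closedBall.measurableSet
  have h : coneMeasure (m + 1) E * ENNReal.ofReal (2 ^ (m + 1)) =
      ((c : ℝ≥0∞) * ENNReal.ofReal (zetaVal (m + 1))) * ENNReal.ofReal (2 ^ (m + 1)) := by
    have h1 := meanMeasure_apply (nonzeroVecs (m + 1)) (coneMeasure (m + 1)) E (hball 1)
    rw [meanMeasure_nonzero hm hEm hE, Measure.smul_apply, smul_eq_mul,
      Real.volume_pi_closedBall _ zero_le_one, mul_one, Fintype.card_fin] at h1
    rw [h1]
    simp only [theta_nonzero_eq]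
    have hpre : ∀ e : ℕ, (fun x : Fin (m + 1) → ℝ =>
        (Metric.closedBall (0 : Fin (m + 1) → ℝ) 1).indicator (1 : (Fin (m + 1) → ℝ) → ℝ≥0∞)
          (((e + 1 : ℕ) : ℝ) • x)) =
        (Metric.closedBall (0 : Fin (m + 1) → ℝ) (1 / ((e + 1 : ℕ) : ℝ))).indicator 1 := by
      intro e
      funext x
      have he : (0 : ℝ) < ((e + 1 : ℕ) : ℝ) := by positivity
      by_cases hx : ‖x‖ ≤ 1 / ((e + 1 : ℕ) : ℝ)
      · rw [Set.indicator_of_mem, Set.indicator_of_mem (mem_closedBall_zero_iff.2 hx)]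
        · rfl
        · rw [mem_closedBall_zero_iff, norm_smul, Real.norm_eq_abs, abs_of_pos he]
          rwa [le_div_iff₀' he] at hx
      · rw [Set.indicator_of_notMem, Set.indicator_of_notMem
          (fun h => hx (mem_closedBall_zero_iff.1 h))]
        rw [mem_closedBall_zero_iff, norm_smul, Real.norm_eq_abs, abs_of_pos he]
        rwa [le_div_iff₀' he] at hx
    simp only [hpre]
    rw [lintegral_tsum fun e => (measurable_theta _
      ((measurable_one (α := ℝ≥0∞)).indicator (hball _))).aemeasurable]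
    simp only [← meanMeasure_apply _ _ _ (hball _), hc, Measure.smul_apply, ENNReal.smul_def,
      smul_eq_mul]
    rw [ENNReal.tsum_mul_left, ← tsum_succ_inv_pow hm, mul_assoc, ← ENNReal.tsum_mul_right]
    refine congrArg _ (tsum_congr fun e => ?_)
    rw [Real.volume_pi_closedBall _ (by positivity), Fintype.card_fin, mul_pow, div_pow, one_pow,
      ← ENNReal.ofReal_mul (by positivity)]
    congr 1
    ring
  rw [hc, (ENNReal.mul_left_inj (by simp) ENNReal.ofReal_ne_top).1 h,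
    show (c • volume : Measure (Fin (m + 1) → ℝ)) = (c : ℝ≥0∞) • volume from rfl, smul_smul,
    mul_comm]

/-- **Siegel's mean value theorem.** -/
theorem siegel_mean (hn : 2 ≤ n) (μ : Measure (SLR n)) [μ.IsHaarMeasure] {E : Set (SLR n)}
    (hE : IsFundamentalDomain (Gamma n) E μ) {f : (Fin n → ℝ) → ℝ≥0∞} (hf : Measurable f) :
    ∫⁻ g in E, theta (nonzeroVecs n) f g ∂μ = μ E * ∫⁻ x, f x ∧
      ENNReal.ofReal (zetaVal n) * ∫⁻ g in E, theta (primVecs n) f g ∂μ = μ E * ∫⁻ x, f x := by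
  obtain ⟨m, rfl⟩ : ∃ m, n = m + 1 := ⟨n - 1, by omega⟩
  obtain ⟨T, hTm, hT⟩ := exists_fundamentalDomain (n := m + 1)
  obtain ⟨c, -, hc⟩ := exists_eq_smul_coneMeasure μ
  have hT' := isFundamentalDomain_of_transversal hTm hT μ
  rw [hE.measure_eq hT', hE.setLIntegral_eq hT' _ (theta_smul isStable_nonzero f),
    hE.setLIntegral_eq hT' _ (theta_smul isStable_prim f), hc, Measure.restrict_smul,
    lintegral_smul_measure, lintegral_smul_measure, Measure.smul_apply,
    ← lintegral_meanMeasure _ _ _ hf, ← lintegral_meanMeasure _ _ _ hf,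
    meanMeasure_nonzero (by omega) hTm hT, lintegral_smul_measure]
  simp only [ENNReal.smul_def, smul_eq_mul]
  refine ⟨(mul_assoc _ _ _).symm, ?_⟩
  have h := congrArg (fun τ : Measure (Fin (m + 1) → ℝ) => ∫⁻ x, f x ∂τ)
    (meanMeasure_prim (by omega) hTm hT)
  simp only [lintegral_smul_measure, smul_eq_mul] at h
  rw [mul_left_comm, h, mul_assoc]

/-- **The theorem of Minkowski and Hlawka for arbitrary sets.** -/
theorem exists_avoiding (hn : 2 ≤ n) {S : Set (Fin n → ℝ)}
    (hS : volume S < ENNReal.ofReal (zetaVal n)) :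
    ∃ g : SLR n, ∀ v ∈ primVecs n, castVec v ᵥ* g.1 ∉ S := by
  haveI : NeZero n := ⟨by omega⟩
  by_contra hcon
  simp only [not_exists, not_forall, not_not] at hcon
  obtain ⟨E, -, hE, hpos, hfin⟩ := exists_fundamentalDomain_finite (coneMeasure n)
  obtain ⟨A, hA⟩ : ∃ A, A = toMeasurable (volume : Measure (Fin n → ℝ)) S := ⟨_, rfl⟩
  have h1 := (siegel_mean hn (coneMeasure n) hE
    ((measurable_one (α := ℝ≥0∞)).indicator (hA ▸ measurableSet_toMeasurable volume S :
      MeasurableSet A))).2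
  rw [lintegral_indicator_one (hA ▸ measurableSet_toMeasurable volume S : MeasurableSet A), hA,
    measure_toMeasurable, ← hA] at h1
  have h2 : coneMeasure n E ≤ ∫⁻ g in E, theta (primVecs n) (A.indicator 1) g ∂coneMeasure n := by
    rw [← setLIntegral_one]
    refine lintegral_mono fun g => ?_
    obtain ⟨v, hv, hvS⟩ := hcon g
    refine le_trans (le_of_eq ?_) (ENNReal.le_tsum (⟨v, hv⟩ : primVecs n))
    rw [Set.indicator_of_mem (hA ▸ subset_toMeasurable volume S hvS)]
    rfl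
  have h3 : ENNReal.ofReal (zetaVal n) * coneMeasure n E ≤ coneMeasure n E * volume S :=
    (mul_le_mul' le_rfl h2).trans_eq h1
  rw [mul_comm] at h3
  exact absurd ((ENNReal.mul_le_mul_iff_right hpos.ne' hfin.ne).1 h3) (not_le.2 hS)

/-- **The symmetric case.** -/
theorem exists_avoiding_symm (hn : 2 ≤ n) {S : Set (Fin n → ℝ)}
    (hstar : ∀ x ∈ S, ∀ r : ℝ, 0 < r → r ≤ 1 → r • x ∈ S) (hsymm : ∀ x ∈ S, -x ∈ S)
    (hS : volume S < 2 * ENNReal.ofReal (zetaVal n)) :
    ∃ g : SLR n, ∀ v : Fin n → ℤ, v ≠ 0 → castVec v ᵥ* g.1 ∉ S := by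
  haveI : NeZero n := ⟨by omega⟩
  obtain ⟨m, rfl⟩ : ∃ m, n = m + 1 := ⟨n - 1, by omega⟩
  by_contra hcon
  simp only [not_exists, not_forall, not_not, exists_prop] at hcon
  obtain ⟨E, -, hE, hpos, hfin⟩ := exists_fundamentalDomain_finite (coneMeasure (m + 1))
  obtain ⟨A, hA⟩ : ∃ A, A = toMeasurable (volume : Measure (Fin (m + 1) → ℝ)) S := ⟨_, rfl⟩
  have hAm : MeasurableSet A := hA ▸ measurableSet_toMeasurable volume S
  have h1 := (siegel_mean hn (coneMeasure (m + 1)) hE
    ((measurable_one (α := ℝ≥0∞)).indicator hAm)).2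
  rw [lintegral_indicator_one hAm, hA, measure_toMeasurable, ← hA] at h1
  have h2 : 2 * coneMeasure (m + 1) E ≤
      ∫⁻ g in E, theta (primVecs (m + 1)) (A.indicator 1) g ∂coneMeasure (m + 1) := by
    rw [← setLIntegral_const]
    refine lintegral_mono fun g => ?_
    classical
    obtain ⟨v, hv0, hvS⟩ := hcon g
    obtain ⟨e, ⟨w, hw⟩, rfl⟩ := exists_mul_prim hv0
    have hwS : castVec w ᵥ* g.1 ∈ S := by
      have h := hstar _ hvS (((e + 1 : ℕ) : ℝ)⁻¹) (by positivity)
        (inv_le_one_of_one_le₀ (by push_cast; linarith [(e.cast_nonneg : (0 : ℝ) ≤ e)]))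
      have e1 : castVec (((e + 1 : ℕ) : ℤ) • w) = ((e + 1 : ℕ) : ℝ) • castVec w :=
        funext fun i => by simp [castVec]
      rwa [e1, Matrix.smul_vecMul, inv_smul_smul₀ (by positivity)] at h
    have hnw : content (-w) = 1 := by
      rw [show content (-w) = content w by simp [content, Int.natAbs_neg]]
      exact hw
    have hwS' : castVec (-w) ᵥ* g.1 ∈ S := by
      have e1 : castVec (-w) = -castVec w := funext fun i => by simp [castVec]
      rw [e1, Matrix.neg_vecMul]
      exact hsymm _ hwS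
    have hne : (⟨w, hw⟩ : primVecs (m + 1)) ≠ ⟨-w, hnw⟩ := fun h => by
      have h' := congrArg Subtype.val h
      have hw0 : w = 0 := funext fun i => by
        have := congrFun h' i
        simp at this
        simp
        omega
      rw [hw0, primVecs, Set.mem_setOf_eq, content_eq_zero.2 rfl] at hw
      exact zero_ne_one hw
    refine le_trans (le_of_eq ?_) (ENNReal.sum_le_tsum {⟨w, hw⟩, ⟨-w, hnw⟩})
    rw [Finset.sum_pair hne, Set.indicator_of_mem (hA ▸ subset_toMeasurable volume S hwS),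
      Set.indicator_of_mem (hA ▸ subset_toMeasurable volume S hwS')]
    exact one_add_one_eq_two.symm
  have h3 : ENNReal.ofReal (zetaVal (m + 1)) * (2 * coneMeasure (m + 1) E) ≤
      coneMeasure (m + 1) E * volume S := (mul_le_mul' le_rfl h2).trans_eq h1
  rw [← mul_assoc, mul_comm _ (coneMeasure (m + 1) E), mul_comm (ENNReal.ofReal _) 2] at h3
  exact absurd ((ENNReal.mul_le_mul_iff_right hpos.ne' hfin.ne).1 h3) (not_le.2 hS)

end FA.SiegelMean

end
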