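import Fermat.Agent.SiegelMean.Unique
import Mathlib.LinearAlgebra.Matrix.ToLinearEquiv
import Mathlib.MeasureTheory.Measure.Lebesgue.EqHaar

/-!
# Invariant measures on pairs of vectors

For `n ≥ 3` a measure on `ℝ ^ n × ℝ ^ n` which is finite on compact sets, invariant under `SL n ℝ`
and null on the dependent pairs is a multiple of Lebesgue measure: appending `n - 2` rows with
Lebesgue measure gives a measure on square matrices which is invariant under right translations
and homogeneous in the last row, hence splits into a power of the determinant and the Haar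
measure of `SL n ℝ`.
-/

set_option autoImplicit false

noncomputable section

open MeasureTheory Matrix Set Filter
open scoped ENNReal NNReal Pointwise
open FA.SLnLattice

namespace FA.SiegelMean

variable {q : ℕ}

/-- The pairs of vectors in dimension `q + 3`. -/
abbrev Pairs (q : ℕ) := (Fin (q + 3) → ℝ) × (Fin (q + 3) → ℝ)

/-- Invariance of a measure on pairs. -/
def IsPairInvariant (M : Measure (Pairs q)) : Prop :=
  ∀ h : SLR (q + 3), M.map (Prod.map (fun x => x ᵥ* h.1) fun x => x ᵥ* h.1) = M

/-- The linearly independent pairs. -/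
def indepPairs (q : ℕ) : Set (Pairs q) := {p | LinearIndependent ℝ ![p.1, p.2]}

/-- The matrix with a given pair as first rows. -/
def appendRows (p : Pairs q × (Fin (q + 1) → Fin (q + 3) → ℝ)) : Rows (q + 3) :=
  Fin.cons p.1.1 (Fin.cons p.1.2 p.2)

theorem measurable_appendRows : Measurable (appendRows (q := q)) := by
  refine measurable_pi_lambda _ fun i => ?_
  induction i using Fin.cases with
  | zero => exact measurable_fst.fst
  | succ i =>
    induction i using Fin.cases with
    | zero => exact measurable_fst.snd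
    | succ i => exact (measurable_pi_apply i).comp measurable_snd

theorem measurePreserving_appendRows :
    MeasurePreserving (appendRows (q := q)) volume volume := by
  refine ⟨measurable_appendRows, ?_⟩
  have h1 := (volume_preserving_piFinSuccAbove
    (fun _ : Fin (q + 2) => Fin (q + 3) → ℝ) 0).symm
  have h2 := (volume_preserving_piFinSuccAbove
    (fun _ : Fin (q + 3) => Fin (q + 3) → ℝ) 0).symm
  have h := h2.comp (((MeasurePreserving.id _).prod h1).comp
    (measurePreserving_prodAssoc (volume : Measure (Fin (q + 3) → ℝ))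
      (volume : Measure (Fin (q + 3) → ℝ)) (volume : Measure (Fin (q + 1) → Fin (q + 3) → ℝ))))
  refine (congrArg (fun f => Measure.map f volume) ?_).trans h.map_eq
  funext p i
  simp [appendRows, MeasurableEquiv.piFinSuccAbove_symm_apply, Fin.insertNthEquiv,
    MeasurableEquiv.prodAssoc]

/-- Random vectors extend an independent family to a larger one. -/
theorem ae_linearIndependent_append {n : ℕ} : ∀ (l k : ℕ) (a : Fin k → Fin n → ℝ),
    LinearIndependent ℝ a → k + l ≤ n →
      ∀ᵐ R : Fin l → Fin n → ℝ, LinearIndependent ℝ (Fin.append a R)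
  | 0, k, a, ha, _ => Eventually.of_forall fun R => by
    rw [Subsingleton.elim R Fin.elim0, Fin.append_elim0]
    exact ha.comp _ (Fin.cast_injective _)
  | l + 1, k, a, ha, h => by
    suffices hp : ∀ᵐ p : (Fin n → ℝ) × (Fin l → Fin n → ℝ),
        LinearIndependent ℝ (Fin.append a (Fin.cons p.1 p.2 : Fin (l + 1) → Fin n → ℝ)) by
      filter_upwards [(volume_preserving_piFinSuccAbove
        (fun _ : Fin (l + 1) => Fin n → ℝ) 0).quasiMeasurePreserving.ae hp] with R hR
      simpa [Fin.removeNth, Fin.cons_self_tail, MeasurableEquiv.piFinSuccAbove, Fin.insertNthEquiv]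
        using hR
    have hcont : Continuous fun p : (Fin n → ℝ) × (Fin l → Fin n → ℝ) =>
        Fin.append a (Fin.cons p.1 p.2 : Fin (l + 1) → Fin n → ℝ) := by
      refine continuous_pi fun i => ?_
      induction i using Fin.addCases with
      | left j => simpa using continuous_const
      | right j =>
        induction j using Fin.cases with
        | zero => simpa using continuous_fst
        | succ j =>
          simp only [Fin.append_right, Fin.cons_succ]
          exact (continuous_apply j).comp continuous_snd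
    rw [Measure.volume_eq_prod]
    refine (Measure.ae_prod_iff_ae_ae
      (isOpen_setOfPred_linearIndependent.preimage hcont).measurableSet).2 ?_
    have hW : Submodule.span ℝ (Set.range a) ≠ ⊤ := fun e => by
      have h1 := finrank_span_eq_card ha
      rw [e, finrank_top, Module.finrank_pi, Fintype.card_fin, Fintype.card_fin] at h1
      omega
    have hr : ∀ᵐ r : Fin n → ℝ, r ∉ Submodule.span ℝ (Set.range a) := by
      rw [ae_iff]
      simp only [not_not]
      exact Measure.addHaar_submodule volume _ hW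
    filter_upwards [hr] with r hr
    filter_upwards [ae_linearIndependent_append l (k + 1) (Fin.snoc a r)
      (linearIndependent_finSnoc.2 ⟨ha, hr⟩) (by omega)] with R hR
    rw [Fin.append_right_cons]
    exact hR.comp _ (Fin.cast_injective _)

theorem rdet_ne_zero_of_linearIndependent {n : ℕ} {X : Rows n} (h : LinearIndependent ℝ X) :
    rdet X ≠ 0 :=
  ((Matrix.isUnit_iff_isUnit_det _).1
    ((Matrix.linearIndependent_rows_iff_isUnit (A := Matrix.of X)).1 h)).ne_zero

theorem null_appendRows {p : Pairs q} (hp : p ∈ indepPairs q) :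
    volume {R : Fin (q + 1) → Fin (q + 3) → ℝ | rdet (appendRows (p, R)) = 0} = 0 := by
  have hae : volume {R : Fin (q + 1) → Fin (q + 3) → ℝ |
      ¬LinearIndependent ℝ (Fin.append ![p.1, p.2] R)} = 0 :=
    ae_iff.1 (ae_linearIndependent_append (q + 1) 2 ![p.1, p.2] hp (by omega))
  refine measure_mono_null ?_ hae
  intro R hR h
  refine rdet_ne_zero_of_linearIndependent ?_ hR
  have e : appendRows (p, R) = Fin.append ![p.1, p.2] R ∘ Fin.cast (by omega) := by
    funext i
    induction i using Fin.cases with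
    | zero => rfl
    | succ i =>
      induction i using Fin.cases with
      | zero => rfl
      | succ i =>
        have hc : Fin.cast (by omega : q + 3 = 2 + (q + 1)) i.succ.succ = Fin.natAdd 2 i := by
          ext
          simp
          omega
        rw [Function.comp_apply, hc, Fin.append_right]
        rfl
  rw [e]
  exact h.comp _ (Fin.cast_injective _)

section Matrices

variable {n : ℕ}

/-- Multiplication of the row `r` by `t`. -/
def scaleRow {m : ℕ} (r : Fin m) (t : ℝ) (X : Fin m → Fin n → ℝ) : Fin m → Fin n → ℝ :=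
  fun i j => (if i = r then t else 1) * X i j

theorem measurable_scaleRow {m : ℕ} (r : Fin m) (t : ℝ) :
    Measurable (scaleRow (n := n) r t) :=
  measurable_pi_lambda _ fun i => measurable_pi_lambda _ fun j => by
    show Measurable fun c : Fin m → Fin n → ℝ => (if i = r then t else 1) * c i j
    fun_prop

theorem rdet_scaleRow (r : Fin n) (t : ℝ) (X : Rows n) :
    rdet (scaleRow r t X) = t * rdet X := by
  have e : Matrix.of (scaleRow r t X) =
      Matrix.diagonal (fun i : Fin n => if i = r then t else 1) * Matrix.of X := by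
    ext i j
    simp [scaleRow, Matrix.diagonal_mul]
  rw [rdet, e, Matrix.det_mul, Matrix.det_diagonal, Fintype.prod_ite_eq', rdet]

/-- The matrices with determinant in `B` projecting into `A`. -/
def detSlab (B : Set ℝ) (A : Set (SLR n)) : Set (Rows n) := {X | rdet X ∈ B ∧ proj X ∈ A}

/-- Invariance under right translations and homogeneity in the last row. -/
structure IsHomogeneous (τ : Measure (Rows n)) (r : Fin n) : Prop where
  right : ∀ h : SLR n, τ.map (rmul h) = τ
  scale : ∀ t : ℝ, t ≠ 0 → τ.map (scaleRow r t) = (ENNReal.ofReal (|t| ^ n))⁻¹ • τ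

variable [MeasurableSpace (SLR n)] [BorelSpace (SLR n)] [NeZero n]
variable {τ : Measure (Rows n)} [IsFiniteMeasureOnCompacts τ] {r : Fin n}

theorem measurableSet_detSlab {B : Set ℝ} {A : Set (SLR n)} (hB : MeasurableSet B)
    (hA : MeasurableSet A) : MeasurableSet (detSlab B A) :=
  (continuous_rdet.measurable hB).inter (measurable_proj hA)

/-- Right invariant measures on `SL n ℝ`. -/
theorem exists_smul_of_right (ν : Measure (SLR n)) [ν.IsMulRightInvariant]
    [IsFiniteMeasureOnCompacts ν] : ∃ s : ℝ≥0, ν = s • coneMeasure n := by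
  have h1 := Measure.isMulLeftInvariant_eq_smul (coneMeasure n).inv (coneMeasure n)
  have h2 := Measure.isMulLeftInvariant_eq_smul ν.inv (coneMeasure n)
  refine ⟨Measure.haarScalarFactor ν.inv (coneMeasure n) *
    Measure.haarScalarFactor (coneMeasure n).inv (coneMeasure n), ?_⟩
  conv_lhs => rw [← Measure.inv_inv ν, h2]
  rw [Measure.inv_def, Measure.map_smul, ← Measure.inv_def]
  exact (congrArg (Measure.haarScalarFactor ν.inv (coneMeasure n) • ·) h1).trans
    (smul_smul _ _ _)

theorem exists_slab_eq (hτ : IsHomogeneous τ r) {b : ℝ} {B : Set ℝ} (hB : MeasurableSet B)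
    (hBb : B ⊆ Ioc 0 b) :
    ∃ s : ℝ≥0, ∀ A, MeasurableSet A → τ (detSlab B A) = s * coneMeasure n A := by
  obtain ⟨ν, hν⟩ : ∃ ν : Measure (SLR n), ν = (τ.restrict (rdet ⁻¹' B)).map proj := ⟨_, rfl⟩
  have hνa : ∀ A, MeasurableSet A → ν A = τ (detSlab B A) := fun A hA => by
    rw [hν, Measure.map_apply measurable_proj hA, Measure.restrict_apply (measurable_proj hA),
      inter_comm]
    rfl
  haveI : IsFiniteMeasureOnCompacts ν := ⟨fun K hK => by
    rw [hνa K hK.measurableSet]
    refine lt_of_le_of_lt (measure_mono ?_) ((isCompact_Icc (a := (0 : ℝ))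
      (b := b ^ ((n : ℝ)⁻¹))).prod hK |>.image
        (f := fun p : ℝ × SLR n => fun i j => p.1 * p.2 i j) (by fun_prop)).measure_lt_top
    rintro X ⟨hX, hXK⟩
    have h0 := hBb hX
    exact ⟨(rdet X ^ ((n : ℝ)⁻¹), proj X), ⟨⟨(Real.rpow_pos_of_pos h0.1 _).le,
      Real.rpow_le_rpow h0.1.le h0.2 (by positivity)⟩, hXK⟩, (eq_smul_proj h0.1).symm⟩⟩
  haveI : ν.IsMulRightInvariant := ⟨fun h => by
    refine Measure.ext fun A hA => ?_
    have hA' : MeasurableSet ((fun g => g * h) ⁻¹' A) := (continuous_mul_const h).measurable hA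
    rw [Measure.map_apply (continuous_mul_const h).measurable hA, hνa _ hA', hνa _ hA]
    conv_rhs => rw [← hτ.right h, Measure.map_apply (measurePreserving_rmul h).measurable
      (measurableSet_detSlab hB hA)]
    congr 1
    ext X
    simp only [detSlab, Set.mem_preimage, Set.mem_ofPred_eq, rdet_rmul]
    refine and_congr_right fun hX => ?_
    rw [proj_mul h (hBb hX).1]⟩
  obtain ⟨s, hs⟩ := exists_smul_of_right ν
  exact ⟨s, fun A hA => by
    rw [← hνa A hA, hs, Measure.smul_apply, ENNReal.smul_def, smul_eq_mul]⟩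

/-- A compact set of positive measure. -/
theorem exists_refSet : ∃ Q : Set (SLR n), IsCompact Q ∧ 0 < coneMeasure n Q := by
  obtain ⟨Q, hQ, hQ1⟩ := exists_compact_mem_nhds (1 : SLR n)
  exact ⟨Q, hQ, Measure.measure_pos_of_mem_nhds _ hQ1⟩

theorem slab_scale (hτ : IsHomogeneous τ r) {Q : Set (SLR n)} (hQ : MeasurableSet Q) {t : ℝ}
    (ht : 0 < t) :
    τ (detSlab (Ioc 0 t) Q) = ENNReal.ofReal (t ^ n) * τ (detSlab (Ioc 0 1) Q) := by
  obtain ⟨a, ha⟩ : ∃ a : SLR n,
      a = proj (scaleRow r t fun i j => (1 : Matrix (Fin n) (Fin n) ℝ) i j) := ⟨_, rfl⟩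
  have hone : rdet (fun i j => (1 : Matrix (Fin n) (Fin n) ℝ) i j) = 1 := Matrix.det_one
  have hcomm : ∀ X, 0 < rdet X → proj (scaleRow r t X) = a * proj X := fun X hX => by
    have hd : rdet (scaleRow r t fun i j => (1 : Matrix (Fin n) (Fin n) ℝ) i j) = t := by
      rw [rdet_scaleRow, hone, mul_one]
    have h2 : 0 < rdet (scaleRow r t X) := by rw [rdet_scaleRow]; positivity
    refine Subtype.ext ?_
    have h3 : 0 < rdet (scaleRow r t fun i j => (1 : Matrix (Fin n) (Fin n) ℝ) i j) :=
      hd.symm ▸ ht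
    rw [Matrix.SpecialLinearGroup.coe_mul, ha, coe_proj h2, coe_proj h3, coe_proj hX,
      rdet_scaleRow, hd, Matrix.smul_mul,
      Matrix.mul_smul, smul_smul, Real.mul_rpow ht.le hX.le]
    congr 1
    ext i j
    simp [scaleRow, Matrix.mul_apply, Matrix.one_apply]
  have hpre : scaleRow r t ⁻¹' detSlab (Ioc 0 t) Q =
      detSlab (Ioc 0 1) ((fun g => a * g) ⁻¹' Q) := by
    ext X
    simp only [detSlab, Set.mem_preimage, Set.mem_ofPred_eq, rdet_scaleRow, Set.mem_Ioc,
      mul_pos_iff_of_pos_left ht, mul_le_iff_le_one_right ht]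
    exact and_congr_right fun hX => by rw [hcomm X hX.1]
  obtain ⟨s, hs⟩ := exists_slab_eq hτ (b := 1) measurableSet_Ioc subset_rfl
  have h := congrArg (fun μ : Measure (Rows n) => μ (detSlab (Ioc 0 t) Q))
    (hτ.scale t ht.ne')
  simp only [Measure.map_apply (measurable_scaleRow r t)
      (measurableSet_detSlab measurableSet_Ioc hQ),
    hpre, Measure.smul_apply, smul_eq_mul, abs_of_pos ht] at h
  rw [hs _ ((continuous_const_mul a).measurable hQ), measure_preimage_mul, ← hs Q hQ] at h
  rw [h, ← mul_assoc, ENNReal.mul_inv_cancel (by simpa using pow_pos ht n) ENNReal.ofReal_ne_top,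
    one_mul]

theorem restrict_pos_eq_smul {τ' : Measure (Rows n)} [IsFiniteMeasureOnCompacts τ']
    (hτ : IsHomogeneous τ r) (hτ' : IsHomogeneous τ' r) {Q : Set (SLR n)} (hQc : IsCompact Q)
    (hQ0 : 0 < coneMeasure n Q) {k : ℝ≥0}
    (hk : τ (detSlab (Ioc 0 1) Q) = k * τ' (detSlab (Ioc 0 1) Q)) :
    τ.restrict {X | 0 < rdet X} = k • τ'.restrict {X | 0 < rdet X} := by
  have hQ : MeasurableSet Q := hQc.measurableSet
  have hc0 : coneMeasure n Q ≠ 0 := hQ0.ne'
  have hct : coneMeasure n Q ≠ ⊤ := hQc.measure_lt_top.ne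
  obtain ⟨rad, hrad⟩ : ∃ rad : Measure (Rows n) → Measure ℝ, rad = fun μ =>
      (μ.restrict {X | 0 < rdet X ∧ proj X ∈ Q}).map rdet := ⟨_, rfl⟩
  have hrada : ∀ (μ : Measure (Rows n)) B, MeasurableSet B →
      rad μ B = μ (detSlab (B ∩ Ioi 0) Q) := fun μ B hB => by
    rw [hrad]
    show (μ.restrict _).map rdet B = _
    rw [Measure.map_apply continuous_rdet.measurable hB,
      Measure.restrict_apply (continuous_rdet.measurable hB)]
    congr 1
    ext X
    simp [detSlab, and_assoc]
  have hfin : ∀ (μ : Measure (Rows n)) [IsFiniteMeasureOnCompacts μ], IsHomogeneous μ r →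
      ∀ a b, rad μ (Ioc a b) ≠ ⊤ := fun μ _ hμ a b => by
    obtain ⟨s, hs⟩ := exists_slab_eq hμ (b := b) (B := Ioc a b ∩ Ioi 0)
      (measurableSet_Ioc.inter measurableSet_Ioi) fun x hx => ⟨hx.2, hx.1.2⟩
    rw [hrada μ _ measurableSet_Ioc, hs Q hQ]
    exact ENNReal.mul_ne_top ENNReal.coe_ne_top hct
  have e1 : ∀ c : ℝ, 0 ≤ c → rad τ (Ioc 0 c) = k * rad τ' (Ioc 0 c) := fun c hc => by
    rcases hc.eq_or_lt with rfl | hc
    · simp
    · rw [hrada _ _ measurableSet_Ioc, hrada _ _ measurableSet_Ioc,
        inter_eq_left.2 Ioc_subset_Ioi_self, slab_scale hτ hQ hc, slab_scale hτ' hQ hc, hk]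
      ring
  haveI : IsLocallyFiniteMeasure (rad τ) := ⟨fun x => ⟨Ioc (x - 1) (x + 1),
    Ioc_mem_nhds (by linarith) (by linarith), (hfin τ hτ _ _).lt_top⟩⟩
  have heq : rad τ = k • rad τ' := by
    refine Measure.ext_of_Ioc _ _ fun a b hab => ?_
    rw [Measure.smul_apply, ENNReal.smul_def, smul_eq_mul]
    obtain ⟨a', ha'⟩ : ∃ a', a' = max a 0 := ⟨_, rfl⟩
    obtain ⟨b', hb'⟩ : ∃ b', b' = max b 0 := ⟨_, rfl⟩
    have hclip : ∀ μ, rad μ (Ioc a b) = rad μ (Ioc a' b') := fun μ => by
      rw [hrada μ _ measurableSet_Ioc, hrada μ _ measurableSet_Ioc]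
      congr 2
      ext x
      simp only [Set.mem_inter_iff, Set.mem_Ioc, Set.mem_Ioi, ha', hb', max_lt_iff, le_max_iff]
      constructor
      · rintro ⟨⟨h1, h2⟩, h3⟩
        exact ⟨⟨⟨h1, h3⟩, Or.inl h2⟩, h3⟩
      · rintro ⟨⟨⟨h1, -⟩, h2⟩, h3⟩
        exact ⟨⟨h1, h2.resolve_right (not_le.2 h3)⟩, h3⟩
    have ha0 : 0 ≤ a' := ha' ▸ le_max_right _ _
    have hab' : a' ≤ b' := ha' ▸ hb' ▸ max_le_max hab.le le_rfl
    have hsplit : ∀ μ, rad μ (Ioc 0 a') + rad μ (Ioc a' b') = rad μ (Ioc 0 b') := fun μ => by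
      rw [← measure_union (Set.Ioc_disjoint_Ioc_of_le le_rfl) measurableSet_Ioc,
        Set.Ioc_union_Ioc_eq_Ioc ha0 hab']
    rw [hclip, hclip]
    have h1 := hsplit τ
    rw [e1 a' ha0, e1 b' (ha0.trans hab'), ← hsplit τ', mul_add] at h1
    exact (ENNReal.add_right_inj (ENNReal.mul_ne_top ENNReal.coe_ne_top
      (hfin τ' hτ' 0 a'))).1 h1
  have hprop : ∀ (μ : Measure (Rows n)) [IsFiniteMeasureOnCompacts μ], IsHomogeneous μ r →
      ∀ (N : ℕ) B A, MeasurableSet B → MeasurableSet A →
        μ (detSlab (B ∩ Ioc 0 (N : ℝ)) A) =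
          rad μ (B ∩ Ioc 0 (N : ℝ)) * (coneMeasure n A * (coneMeasure n Q)⁻¹) := by
    intro μ _ hμ N B A hB hA
    obtain ⟨s, hs⟩ := exists_slab_eq hμ (hB.inter measurableSet_Ioc)
      (b := (N : ℝ)) Set.inter_subset_right
    rw [hs A hA, hrada μ _ (hB.inter measurableSet_Ioc),
      inter_eq_left.2 (Set.inter_subset_right.trans Ioc_subset_Ioi_self), hs Q hQ, mul_assoc,
      mul_left_comm (coneMeasure n Q), ENNReal.mul_inv_cancel hc0 hct, mul_one]
  obtain ⟨Φ, hΦ⟩ : ∃ Φ : ℝ × SLR n → Rows n,
      Φ = fun p i j => p.1 ^ ((n : ℝ)⁻¹) * p.2 i j := ⟨_, rfl⟩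
  obtain ⟨W, hW⟩ : ∃ W : ℕ → Set (Rows n), 
      W = fun (N : ℕ) => (rdet : Rows n → ℝ) ⁻¹' Ioc (0 : ℝ) (N : ℝ) := ⟨_, rfl⟩
  have hWm : ∀ N, MeasurableSet (W N) := fun N => hW ▸ continuous_rdet.measurable measurableSet_Ioc
  have hΦm : Measurable Φ := by
    rw [hΦ]
    refine measurable_pi_lambda _ fun i => measurable_pi_lambda _ fun j => ?_
    have hc : Continuous fun g : SLR n => g.1 i j := continuous_subtype_val.matrix_elem i j
    exact (measurable_fst.pow_const _).mul (hc.measurable.comp measurable_snd)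
  have hback : ∀ (μ : Measure (Rows n)) N,
      ((μ.restrict (W N)).map fun X => (rdet X, proj X)).map Φ = μ.restrict (W N) := fun μ N => by
    rw [Measure.map_map hΦm (continuous_rdet.measurable.prodMk measurable_proj)]
    refine (Measure.map_congr (g := id) ?_).trans Measure.map_id
    filter_upwards [ae_restrict_mem (hWm N)] with X hX
    rw [hW] at hX
    rw [Function.comp_apply, hΦ]
    exact (eq_smul_proj hX.1).symm
  have hN : ∀ N, τ.restrict (W N) = k • τ'.restrict (W N) := by
    intro N
    haveI : IsLocallyFiniteMeasure (rad τ') := ⟨fun x => ⟨Ioc (x - 1) (x + 1),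
      Ioc_mem_nhds (by linarith) (by linarith), (hfin τ' hτ' _ _).lt_top⟩⟩
    have hchart : ∀ (μ : Measure (Rows n)) [IsFiniteMeasureOnCompacts μ]
        [SFinite ((rad μ).restrict (Ioc 0 (N : ℝ)))], IsHomogeneous μ r →
        (μ.restrict (W N)).map (fun X => (rdet X, proj X)) =
          ((rad μ).restrict (Ioc 0 (N : ℝ))).prod
            (((coneMeasure n Q)⁻¹).toNNReal • coneMeasure n) := by
      intro μ _ _ hμ
      haveI : IsFiniteMeasure ((rad μ).restrict (Ioc 0 (N : ℝ))) :=
        isFiniteMeasure_restrict.2 (hfin μ hμ 0 N)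
      refine (Measure.prod_eq fun B A hB hA => ?_).symm
      rw [Measure.map_apply (continuous_rdet.measurable.prodMk measurable_proj) (hB.prod hA),
        Measure.restrict_apply ((continuous_rdet.measurable.prodMk measurable_proj) (hB.prod hA)),
        Measure.restrict_apply hB, Measure.smul_apply, ENNReal.smul_def,
        ENNReal.coe_toNNReal (ENNReal.inv_ne_top.2 hc0), smul_eq_mul,
        mul_comm ((coneMeasure n Q)⁻¹), ← hprop μ hμ N B A hB hA]
      congr 1
      ext X
      simp only [hW, detSlab, Set.mem_inter_iff, Set.mem_preimage, Set.mem_prod, Set.mem_ofPred_eq]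
      tauto
    rw [← hback τ N, ← hback τ' N, hchart τ hτ, hchart τ' hτ', heq, Measure.restrict_smul,
      Measure.prod_smul_left, Measure.map_smul]
  have hun : {X : Rows n | 0 < rdet X} = ⋃ N, W N := by
    ext X
    simp only [hW, Set.mem_ofPred_eq, Set.mem_iUnion, Set.mem_preimage, Set.mem_Ioc]
    exact ⟨fun h => (exists_nat_ge (rdet X)).imp fun N hN => ⟨h, hN⟩, fun ⟨N, h⟩ => h.1⟩
  rw [hun, ← Measure.restrict_smul, Measure.restrict_iUnion_congr]
  intro N
  rw [Measure.restrict_smul]
  exact hN N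

theorem restrict_neg_rows (hτ : IsHomogeneous τ r) :
    τ.restrict {X | rdet X < 0} =
      (τ.restrict {X | 0 < rdet X}).map (scaleRow r (-1)) := by
  have h := hτ.scale (-1) (by norm_num)
  rw [abs_neg, abs_one, one_pow, ENNReal.ofReal_one, inv_one, one_smul] at h
  conv_lhs => rw [← h]
  rw [Measure.restrict_map (measurable_scaleRow r _)
    (measurableSet_lt continuous_rdet.measurable measurable_const)]
  congr 2
  ext X
  simp [rdet_scaleRow]

/-- **Measures on matrices.** -/
theorem rows_eq_smul {τ' : Measure (Rows n)} [IsFiniteMeasureOnCompacts τ']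
    (hτ : IsHomogeneous τ r) (hτ' : IsHomogeneous τ' r) (h0 : τ {X | rdet X = 0} = 0)
    (h0' : τ' {X | rdet X = 0} = 0)
    (hpos : ∀ Q : Set (SLR n), IsCompact Q → 0 < coneMeasure n Q →
      τ' (detSlab (Ioc 0 1) Q) ≠ 0) :
    ∃ k : ℝ≥0, τ = k • τ' := by
  obtain ⟨Q, hQc, hQ0⟩ := exists_refSet (n := n)
  have hfin : ∀ (μ : Measure (Rows n)) [IsFiniteMeasureOnCompacts μ], IsHomogeneous μ r →
      μ (detSlab (Ioc 0 1) Q) ≠ ⊤ := fun μ _ hμ => by
    obtain ⟨s, hs⟩ := exists_slab_eq hμ (b := 1) measurableSet_Ioc subset_rfl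
    rw [hs Q hQc.measurableSet]
    exact ENNReal.mul_ne_top ENNReal.coe_ne_top hQc.measure_lt_top.ne
  refine ⟨(τ (detSlab (Ioc 0 1) Q) / τ' (detSlab (Ioc 0 1) Q)).toNNReal, ?_⟩
  obtain ⟨k, hk⟩ : ∃ k, k = (τ (detSlab (Ioc 0 1) Q) / τ' (detSlab (Ioc 0 1) Q)).toNNReal :=
    ⟨_, rfl⟩
  rw [← hk]
  have hk' : τ (detSlab (Ioc 0 1) Q) = k * τ' (detSlab (Ioc 0 1) Q) := by
    rw [hk, ENNReal.coe_toNNReal (ENNReal.div_ne_top (hfin τ hτ) (hpos Q hQc hQ0)),
      ENNReal.div_mul_cancel (hpos Q hQc hQ0) (hfin τ' hτ')]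
  have hsplit : ∀ μ : Measure (Rows n), μ {X | rdet X = 0} = 0 →
      μ = μ.restrict {X | 0 < rdet X} + μ.restrict {X | rdet X < 0} := fun μ hμ => by
    rw [← Measure.restrict_union (s := {X : Rows n | 0 < rdet X}) (t := {X | rdet X < 0})
      (Set.disjoint_left.2 fun X (hX : 0 < rdet X) (hX' : rdet X < 0) => lt_asymm hX hX')
      (measurableSet_lt continuous_rdet.measurable measurable_const)]
    refine (Measure.restrict_eq_self_of_ae_mem ?_).symm
    rw [ae_iff]
    refine measure_mono_null (fun X hX => ?_) hμ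
    simp only [Set.mem_ofPred_eq, Set.mem_union, not_or, not_lt] at hX
    exact le_antisymm hX.1 hX.2
  rw [hsplit τ h0, restrict_neg_rows hτ, restrict_pos_eq_smul hτ hτ' hQc hQ0 hk', Measure.map_smul,
    ← restrict_neg_rows hτ', ← smul_add, ← hsplit τ' h0']

end Matrices

/-- Scaling the last of the appended rows. -/
theorem map_scaleRow_last {n : ℕ} {t : ℝ} (ht : t ≠ 0) :
    (volume : Measure (Fin (q + 1) → Fin n → ℝ)).map (scaleRow (Fin.last q) t) =
      (ENNReal.ofReal (|t| ^ n))⁻¹ • volume := by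
  obtain ⟨e, he⟩ : ∃ e, e = MeasurableEquiv.piFinSuccAbove (fun _ : Fin (q + 1) => Fin n → ℝ)
      (Fin.last q) := ⟨_, rfl⟩
  have hmp : MeasurePreserving e volume volume :=
    he ▸ volume_preserving_piFinSuccAbove (fun _ : Fin (q + 1) => Fin n → ℝ) (Fin.last q)
  have hS : scaleRow (Fin.last q) t =
      e.symm ∘ Prod.map (fun v : Fin n → ℝ => t • v) id ∘ e := by
    funext R i x
    induction i using Fin.lastCases with
    | last => simp [he, scaleRow, MeasurableEquiv.piFinSuccAbove, Fin.insertNthEquiv]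
    | cast j =>
      simp [he, scaleRow, MeasurableEquiv.piFinSuccAbove, Fin.insertNthEquiv, Fin.init,
        (Fin.castSucc_lt_last j).ne]
  have hm : Measurable fun v : Fin n → ℝ => t • v := measurable_const_smul t
  rw [hS, ← Measure.map_map e.symm.measurable ((hm.prodMap measurable_id).comp e.measurable),
    ← Measure.map_map (hm.prodMap measurable_id) e.measurable, hmp.map_eq, Measure.volume_eq_prod,
    ← Measure.map_prod_map _ _ hm measurable_id, Measure.map_addHaar_smul _ ht, Measure.map_id,
    Measure.prod_smul_left, Measure.map_smul, ← Measure.volume_eq_prod, hmp.symm.map_eq,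
    Module.finrank_pi, Fintype.card_fin, abs_inv, abs_pow,
    ENNReal.ofReal_inv_of_pos (pow_pos (abs_pos.2 ht) n)]

theorem vecMul_pair_mp (h : SLR (q + 3)) :
    MeasurePreserving (fun x : Fin (q + 3) → ℝ => x ᵥ* h.1) volume volume :=
  ⟨(continuous_vmul h).measurable, isSLInvariant_volume h⟩

theorem rmul_appendRows (h : SLR (q + 3)) (z : Pairs q × (Fin (q + 1) → Fin (q + 3) → ℝ)) :
    rmul h (appendRows z) =
      appendRows ((z.1.1 ᵥ* h.1, z.1.2 ᵥ* h.1), fun i => z.2 i ᵥ* h.1) := by
  funext i
  induction i using Fin.cases with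
  | zero => rfl
  | succ i =>
    induction i using Fin.cases with
    | zero => rfl
    | succ i => rfl

theorem scaleRow_appendRows (t : ℝ) (z : Pairs q × (Fin (q + 1) → Fin (q + 3) → ℝ)) :
    scaleRow (Fin.last (q + 2)) t (appendRows z) =
      appendRows (z.1, scaleRow (Fin.last q) t z.2) := by
  funext i j
  induction i using Fin.cases with
  | zero => simp [scaleRow, appendRows, Fin.ext_iff]
  | succ i =>
    induction i using Fin.cases with
    | zero => simp [scaleRow, appendRows, Fin.ext_iff]
    | succ i => simp [scaleRow, appendRows, Fin.ext_iff]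

/-- The measure on matrices above a measure on pairs. -/
def liftPairs (M : Measure (Pairs q)) : Measure (Rows (q + 3)) :=
  (M.prod volume).map appendRows

theorem liftPairs_volume : liftPairs (volume : Measure (Pairs q)) = volume :=
  measurePreserving_appendRows.map_eq

variable {M : Measure (Pairs q)} [IsFiniteMeasureOnCompacts M]

theorem isFinite_liftPairs : IsFiniteMeasureOnCompacts (liftPairs M) := by
  refine ⟨fun K hK => ?_⟩
  obtain ⟨R, hR⟩ := hK.isBounded.subset_closedBall 0
  rw [liftPairs, Measure.map_apply measurable_appendRows hK.measurableSet]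
  refine lt_of_le_of_lt (measure_mono (t := Metric.closedBall (0 : Pairs q) (max R 0) ×ˢ
    Metric.closedBall 0 (max R 0)) fun z hz => ?_) ?_
  · have h : ‖appendRows z‖ ≤ max R 0 :=
      (mem_closedBall_zero_iff.1 (hR hz)).trans (le_max_left _ _)
    refine ⟨mem_closedBall_zero_iff.2 (norm_prod_le_iff.2
      ⟨(norm_le_pi_norm (appendRows z) 0).trans h, (norm_le_pi_norm (appendRows z) 1).trans h⟩),
      mem_closedBall_zero_iff.2 ((pi_norm_le_iff_of_nonneg (le_max_right _ _)).2 fun i =>
        (norm_le_pi_norm (appendRows z) i.succ.succ).trans h)⟩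
  · rw [Measure.prod_prod]
    exact ENNReal.mul_lt_top (isCompact_closedBall _ _).measure_lt_top
      (isCompact_closedBall _ _).measure_lt_top

theorem isHomogeneous_liftPairs (hM : IsPairInvariant M) :
    IsHomogeneous (liftPairs M) (Fin.last (q + 2)) := by
  constructor
  · intro h
    have hp : Measurable (Prod.map (fun x : Fin (q + 3) → ℝ => x ᵥ* h.1)
        fun x : Fin (q + 3) → ℝ => x ᵥ* h.1) :=
      (continuous_vmul h).measurable.prodMap (continuous_vmul h).measurable
    have hrows : MeasurePreserving (fun (R : Fin (q + 1) → Fin (q + 3) → ℝ) i => R i ᵥ* h.1)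
        volume volume := volume_preserving_pi fun _ => vecMul_pair_mp h
    rw [liftPairs, Measure.map_map (measurePreserving_rmul h).measurable measurable_appendRows]
    conv_rhs => rw [← hM h, ← hrows.map_eq, Measure.map_prod_map _ _ hp hrows.measurable,
      Measure.map_map measurable_appendRows (hp.prodMap hrows.measurable)]
    refine congrArg (fun f => Measure.map f (M.prod volume)) ?_
    funext z
    exact rmul_appendRows h z
  · intro t ht
    have hm := measurable_scaleRow (n := q + 3) (Fin.last q) t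
    rw [liftPairs, Measure.map_map (measurable_scaleRow _ t) measurable_appendRows,
      show scaleRow (Fin.last (q + 2)) t ∘ appendRows =
        appendRows ∘ Prod.map (id : Pairs q → Pairs q) (scaleRow (Fin.last q) t) from
          funext fun z => scaleRow_appendRows t z,
      ← Measure.map_map measurable_appendRows (measurable_id.prodMap hm),
      ← Measure.map_prod_map _ _ measurable_id hm, Measure.map_id, map_scaleRow_last ht,
      Measure.prod_smul_right, Measure.map_smul]

theorem liftPairs_det_null (h0 : M (indepPairs q)ᶜ = 0) :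
    liftPairs M {X | rdet X = 0} = 0 := by
  have hm : MeasurableSet {X : Rows (q + 3) | rdet X = 0} :=
    measurableSet_eq_fun continuous_rdet.measurable measurable_const
  rw [liftPairs, Measure.map_apply measurable_appendRows hm,
    Measure.measure_prod_null (measurable_appendRows hm)]
  filter_upwards [mem_ae_iff.2 h0] with p hp
  exact null_appendRows hp

/-- **Uniqueness of the invariant measure on pairs.** -/
theorem pairs_eq_smul_volume (hM : IsPairInvariant M) (h0 : M (indepPairs q)ᶜ = 0) :
    ∃ k : ℝ≥0, M = k • volume := by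
  letI : MeasurableSpace (SLR (q + 3)) := borel _
  haveI : BorelSpace (SLR (q + 3)) := ⟨rfl⟩
  haveI := isFinite_liftPairs (M := M)
  have hvol : IsPairInvariant (volume : Measure (Pairs q)) := fun h =>
    ((vecMul_pair_mp h).prod (vecMul_pair_mp h)).map_eq
  have hτ' := isHomogeneous_liftPairs hvol
  rw [liftPairs_volume] at hτ'
  have hv0 : (volume : Measure (Rows (q + 3))) {X | rdet X = 0} = 0 := by
    have hae : volume {X : Rows (q + 3) | ¬LinearIndependent ℝ (Fin.append Fin.elim0 X)} = 0 :=
      ae_iff.1 (ae_linearIndependent_append (n := q + 3) (q + 3) 0 Fin.elim0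
        linearIndependent_empty_type (by omega))
    refine measure_mono_null ?_ hae
    intro X hX h
    refine rdet_ne_zero_of_linearIndependent ?_ hX
    rw [Fin.elim0_append] at h
    have e : X = (X ∘ Fin.cast (Nat.zero_add _)) ∘ Fin.cast (Nat.zero_add _).symm := rfl
    rw [e]
    exact h.comp _ (Fin.cast_injective _)
  have hpos : ∀ Q : Set (SLR (q + 3)), IsCompact Q → 0 < coneMeasure (q + 3) Q →
      (volume : Measure (Rows (q + 3))) (detSlab (Ioc 0 1) Q) ≠ 0 := fun Q hQ h => by
    refine fun h' => h.ne' ?_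
    rw [coneMeasure_apply hQ.measurableSet, cone_eq, ← h']
    congr 1
    ext X
    simp only [detSlab, unitCone, Set.mem_inter_iff, Set.mem_preimage, Set.mem_ofPred_eq]
    tauto
  obtain ⟨k, hk⟩ := rows_eq_smul (isHomogeneous_liftPairs hM) hτ' (liftPairs_det_null h0) hv0 hpos
  refine ⟨k, Measure.ext fun A hA => ?_⟩
  obtain ⟨B, hB⟩ : ∃ B : Set (Fin (q + 1) → Fin (q + 3) → ℝ), B = Set.Icc 0 1 := ⟨_, rfl⟩
  have hBv : (volume : Measure (Fin (q + 1) → Fin (q + 3) → ℝ)) B = 1 := by
    rw [hB, ← Set.pi_univ_Icc, volume_pi_pi]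
    simp [Real.volume_Icc_pi]
  obtain ⟨S, hS⟩ : ∃ S : Set (Rows (q + 3)),
      S = {X | ((X 0, X 1) : Pairs q) ∈ A ∧ (fun i : Fin (q + 1) => X i.succ.succ) ∈ B} := ⟨_, rfl⟩
  have hSm : MeasurableSet S := by
    rw [hS]
    exact (((measurable_pi_apply 0).prodMk (measurable_pi_apply 1)) hA).inter
      ((measurable_pi_lambda _ fun i => measurable_pi_apply i.succ.succ)
        (hB ▸ measurableSet_Icc : MeasurableSet B))
  have hpre : appendRows ⁻¹' S = A ×ˢ B := by
    ext z
    rw [hS]
    rfl
  have h := congrArg (fun μ : Measure (Rows (q + 3)) => μ S) hk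
  rw [← liftPairs_volume] at h
  simp only [liftPairs, Measure.smul_apply, Measure.map_apply measurable_appendRows hSm, hpre,
    Measure.volume_eq_prod (Fin (q + 3) → ℝ), Measure.prod_prod, hBv, mul_one,
    ENNReal.smul_def, smul_eq_mul] at h ⊢
  exact h

end FA.SiegelMean

end
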