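import Fermat.Agent.SiegelMean.Main
import Fermat.Agent.SiegelMean.PairUnique

/-!
# Rogers' second moment formula

For `n ≥ 3` the mean of `∑ F (v g, w g)` over pairs of primitive vectors is
`(∫∫ F) / ζ(n) ^ 2 + ∫ (F (x, x) + F (x, -x)) / ζ(n)`: the independent pairs give an invariant
measure on pairs, hence Lebesgue measure, with constant found by letting one cube grow; dependent
primitive vectors are opposite or equal.
-/

set_option autoImplicit false

noncomputable section

open MeasureTheory Matrix Set Filter Topology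
open scoped ENNReal NNReal
open FA.SLnLattice FA.SLnVolume
open FA.MinkowskiHlawka (castVec content content_eq_zero)

namespace FA.SiegelMean

variable {n q : ℕ}

/-- The sum over pairs of lattice vectors. -/
def pairTheta (P : Set (Fin n → ℤ)) (F : (Fin n → ℝ) × (Fin n → ℝ) → ℝ≥0∞) (g : SLR n) : ℝ≥0∞ :=
  theta P (fun x => theta P (fun y => F (x, y)) g) g

theorem pairTheta_smul {P : Set (Fin n → ℤ)} (hP : IsStable P)
    (F : (Fin n → ℝ) × (Fin n → ℝ) → ℝ≥0∞) (γ : Gamma n) (g : SLR n) :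
    pairTheta P F (γ • g) = pairTheta P F g := by
  rw [pairTheta, theta_smul hP, pairTheta]
  simp only [theta_smul hP]

theorem pairTheta_eq_tsum (P : Set (Fin n → ℤ)) (F : (Fin n → ℝ) × (Fin n → ℝ) → ℝ≥0∞) (g : SLR n) :
    pairTheta P F g =
      ∑' z : P × P, F (castVec (z.1 : Fin n → ℤ) ᵥ* g.1, castVec (z.2 : Fin n → ℤ) ᵥ* g.1) :=
  (ENNReal.tsum_prod (f := fun v w : P =>
    F (castVec (v : Fin n → ℤ) ᵥ* g.1, castVec (w : Fin n → ℤ) ᵥ* g.1))).symm

theorem pairTheta_add (P : Set (Fin n → ℤ)) (F F' : (Fin n → ℝ) × (Fin n → ℝ) → ℝ≥0∞) (g : SLR n) :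
    pairTheta P (fun p => F p + F' p) g = pairTheta P F g + pairTheta P F' g := by
  simp only [pairTheta_eq_tsum, ENNReal.tsum_add]

theorem pairTheta_mul (P : Set (Fin n → ℤ)) (f f' : (Fin n → ℝ) → ℝ≥0∞) (g : SLR n) :
    pairTheta P (fun p => f p.1 * f' p.2) g = theta P f g * theta P f' g := by
  simp only [pairTheta, theta, ENNReal.tsum_mul_left, ENNReal.tsum_mul_right]

theorem pairTheta_split (P : Set (Fin n → ℤ)) (S : Set ((Fin n → ℝ) × (Fin n → ℝ)))
    (F : (Fin n → ℝ) × (Fin n → ℝ) → ℝ≥0∞) (g : SLR n) :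
    pairTheta P F g = pairTheta P (S.indicator F) g + pairTheta P (Sᶜ.indicator F) g := by
  rw [← pairTheta_add]
  simp only [Set.indicator_self_add_compl_apply]

theorem indepPairs_iff {p : Pairs q} :
    p ∈ indepPairs q ↔ ∀ s t : ℝ, s • p.1 + t • p.2 = 0 → s = 0 ∧ t = 0 :=
  LinearIndependent.pair_iff

theorem measurableSet_indepPairs : MeasurableSet (indepPairs q) :=
  (isOpen_setOfPred_linearIndependent.preimage (f := fun p : Pairs q => ![p.1, p.2])
    (continuous_pi fun i => by fin_cases i <;> simp <;> fun_prop)).measurableSet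

theorem smul_mem_indepPairs {a b : ℝ} (ha : a ≠ 0) (hb : b ≠ 0)
    (x y : Fin (q + 3) → ℝ) : (a • x, b • y) ∈ indepPairs q ↔ (x, y) ∈ indepPairs q := by
  simp only [indepPairs_iff]
  constructor
  · intro h s t hst
    have h1 := h (s / a) (t / b) (by
      rw [smul_smul, smul_smul, div_mul_cancel₀ _ ha, div_mul_cancel₀ _ hb]; exact hst)
    simpa [ha, hb] using h1
  · intro h s t hst
    rw [smul_smul, smul_smul] at hst
    simpa [ha, hb] using h _ _ hst

theorem vecMul_mem_indepPairs (h : SLR (q + 3)) (x y : Fin (q + 3) → ℝ) :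
    (x ᵥ* h.1, y ᵥ* h.1) ∈ indepPairs q ↔ (x, y) ∈ indepPairs q := by
  simp only [indepPairs_iff, ← Matrix.smul_vecMul, ← Matrix.add_vecMul]
  refine forall₂_congr fun s t => imp_congr_left ⟨fun h0 => ?_, fun h0 => ?_⟩
  · exact Matrix.eq_zero_of_vecMul_eq_zero (by rw [h.2]; exact one_ne_zero) h0
  · rw [h0, Matrix.zero_vecMul]

/-- Dependent vectors are proportional. -/
theorem exists_smul_of_dep {x y : Fin (q + 3) → ℝ} (h : (x, y) ∉ indepPairs q) (hx : x ≠ 0) :
    ∃ t : ℝ, y = t • x := by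
  simp only [indepPairs_iff, not_forall, not_and_or] at h
  obtain ⟨s, t, hst, hne⟩ := h
  have ht : t ≠ 0 := by
    rintro rfl
    rw [zero_smul, add_zero] at hst
    exact hne.elim (fun hs => hs ((smul_eq_zero.1 hst).resolve_right hx)) fun ht => ht rfl
  refine ⟨-(s / t), funext fun i => ?_⟩
  have h0 := congrFun hst i
  simp only [Pi.add_apply, Pi.smul_apply, Pi.zero_apply, smul_eq_mul] at h0 ⊢
  field_simp
  linarith

theorem vecMul_ne_zero {v : Fin n → ℤ} (hv : v ≠ 0) (g : SLR n) : castVec v ᵥ* g.1 ≠ 0 := fun h =>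
  hv (funext fun i => Int.cast_injective (α := ℝ) (by
    simpa [castVec] using congrFun
      (Matrix.eq_zero_of_vecMul_eq_zero (by rw [g.2]; exact one_ne_zero) h) i))

theorem castVec_dep {v w : Fin (q + 3) → ℤ} (hv : v ≠ 0) {g : SLR (q + 3)}
    (h : (castVec v ᵥ* g.1, castVec w ᵥ* g.1) ∉ indepPairs q) :
    ∃ t : ℝ, ∀ i, (w i : ℝ) = t * v i := by
  obtain ⟨t, ht⟩ := exists_smul_of_dep h (vecMul_ne_zero hv g)
  rw [← Matrix.smul_vecMul] at ht
  have hinj : Function.Injective fun x : Fin (q + 3) → ℝ => x ᵥ* g.1 := fun a b hab =>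
    sub_eq_zero.1 (Matrix.eq_zero_of_vecMul_eq_zero (by rw [g.2]; exact one_ne_zero)
      (by rw [Matrix.sub_vecMul]; exact sub_eq_zero.2 hab))
  exact ⟨t, fun i => congrFun (hinj ht) i⟩

/-- Proportional primitive vectors agree up to sign. -/
theorem prim_dep {v w : Fin (q + 3) → ℤ} (hv : content v = 1) (hw : content w = 1) {t : ℝ}
    (h : ∀ i, (w i : ℝ) = t * v i) : w = v ∨ w = -v := by
  have hcross : ∀ i j, (v i).natAbs * (w j).natAbs = (w i).natAbs * (v j).natAbs := by
    intro i j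
    have e : v i * w j = w i * v j := Int.cast_injective (α := ℝ) (by
      push_cast
      rw [h i, h j]
      ring)
    rw [← Int.natAbs_mul, ← Int.natAbs_mul, e]
  have habs : ∀ j, (w j).natAbs = (v j).natAbs := by
    intro j
    have h1 : (Finset.univ.gcd fun i => (v i).natAbs * (w j).natAbs) =
        Finset.univ.gcd fun i => (w i).natAbs * (v j).natAbs :=
      Finset.gcd_congr rfl fun i _ => hcross i j
    rw [Finset.gcd_mul_right, Finset.gcd_mul_right] at h1
    rw [show (Finset.univ.gcd fun i => (v i).natAbs) = 1 from hv,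
      show (Finset.univ.gcd fun i => (w i).natAbs) = 1 from hw] at h1
    simpa using h1
  have hv0 : v ≠ 0 := fun e => by
    rw [content_eq_zero.2 e] at hv
    exact zero_ne_one hv
  obtain ⟨i, hi⟩ := Function.ne_iff.1 hv0
  have hi' : (v i : ℝ) ≠ 0 := Int.cast_ne_zero.2 hi
  rcases Int.natAbs_eq_natAbs_iff.1 (habs i) with e | e
  · left
    have ht : t = 1 := by
      have h1 := h i
      rw [e] at h1
      exact mul_right_cancel₀ hi' (by linarith)
    exact funext fun j => Int.cast_injective (α := ℝ) (by rw [h j, ht, one_mul])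
  · right
    have ht : t = -1 := by
      have h1 := h i
      rw [e, Int.cast_neg] at h1
      exact mul_right_cancel₀ hi' (by linarith)
    exact funext fun j => Int.cast_injective (α := ℝ) (by rw [h j, ht]; simp)

/-- The dependent pairs of primitive vectors. -/
theorem pairTheta_prim_dep (F : Pairs q → ℝ≥0∞) (g : SLR (q + 3)) :
    pairTheta (primVecs (q + 3)) ((indepPairs q)ᶜ.indicator F) g =
      theta (primVecs (q + 3)) (fun x => F (x, x) + F (x, -x)) g := by
  classical
  refine tsum_congr fun v => ?_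
  have hv : content (v : Fin (q + 3) → ℤ) = 1 := v.2
  have hneg : content (-(v : Fin (q + 3) → ℤ)) = 1 := by
    simpa [content] using hv
  obtain ⟨u, hu⟩ : ∃ u : primVecs (q + 3), (u : Fin (q + 3) → ℤ) = -(v : Fin (q + 3) → ℤ) :=
    ⟨⟨_, hneg⟩, rfl⟩
  have hne : v ≠ u := fun e => by
    have e' : (v : Fin (q + 3) → ℤ) = -(v : Fin (q + 3) → ℤ) :=
      (congrArg Subtype.val e).trans hu
    have h0 : (v : Fin (q + 3) → ℤ) = 0 := funext fun i => by
      have := congrFun e' i
      simp only [Pi.neg_apply] at this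
      show _ = (0 : ℤ)
      omega
    rw [content_eq_zero.2 h0] at hv
    exact zero_ne_one hv
  have hmem : ∀ s : ℝ, (castVec (v : Fin (q + 3) → ℤ) ᵥ* g.1,
      s • (castVec (v : Fin (q + 3) → ℤ) ᵥ* g.1)) ∈ (indepPairs q)ᶜ := fun s h =>
    one_ne_zero ((indepPairs_iff.1 h (-s) 1 (by
      show (-s) • _ + (1 : ℝ) • (s • _) = 0
      rw [one_smul, neg_smul, neg_add_cancel])).2)
  have hun : castVec (u : Fin (q + 3) → ℤ) ᵥ* g.1 =
      (-1 : ℝ) • (castVec (v : Fin (q + 3) → ℤ) ᵥ* g.1) := by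
    rw [← Matrix.smul_vecMul]
    congr 1
    funext i
    simp [castVec, hu]
  show (∑' w : primVecs (q + 3), (indepPairs q)ᶜ.indicator F
    (castVec (v : Fin (q + 3) → ℤ) ᵥ* g.1, castVec (w : Fin (q + 3) → ℤ) ᵥ* g.1)) = _
  rw [tsum_eq_sum (s := {v, u}) fun w hw => ?_, Finset.sum_pair hne, hun]
  · have h1 := hmem 1
    rw [one_smul] at h1
    rw [Set.indicator_of_mem h1, Set.indicator_of_mem (hmem (-1)), neg_one_smul]
  · refine Set.indicator_of_notMem (fun h => hw ?_) _
    obtain ⟨t, ht⟩ := castVec_dep (g := g) (prim_subset_nonzero v.2) h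
    rcases prim_dep hv w.2 ht with e | e
    · exact Finset.mem_insert.2 (Or.inl (Subtype.ext e))
    · exact Finset.mem_insert.2 (Or.inr (Finset.mem_singleton.2 (Subtype.ext (e.trans hu.symm))))

theorem theta_tsum {ι : Type*} (P : Set (Fin n → ℤ)) (f : ι → (Fin n → ℝ) → ℝ≥0∞) (g : SLR n) :
    theta P (fun x => ∑' i, f i x) g = ∑' i, theta P (f i) g :=
  ENNReal.tsum_comm

variable [MeasurableSpace (SLR n)] [BorelSpace (SLR n)]
  [MeasurableSpace (SLR (q + 3))] [BorelSpace (SLR (q + 3))]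

/-- All pairs in terms of primitive pairs. -/
theorem pairTheta_nonzero_eq (F : Pairs q → ℝ≥0∞) (g : SLR (q + 3)) :
    pairTheta (nonzeroVecs (q + 3)) F g = ∑' e : ℕ, ∑' d : ℕ, pairTheta (primVecs (q + 3))
      (fun p => F (((e + 1 : ℕ) : ℝ) • p.1, ((d + 1 : ℕ) : ℝ) • p.2)) g := by
  rw [pairTheta, theta_nonzero_eq]
  refine tsum_congr fun e => ?_
  simp only [theta_nonzero_eq]
  rw [theta_tsum]
  rfl

theorem measurable_pairTheta (P : Set (Fin n → ℤ)) {F : (Fin n → ℝ) × (Fin n → ℝ) → ℝ≥0∞}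
    (hF : Measurable F) : Measurable (pairTheta P F) := by
  rw [funext (pairTheta_eq_tsum P F)]
  exact Measurable.ennreal_tsum fun z : P × P =>
    hF.comp ((measurable_orbit _).prodMk (measurable_orbit _))

/-- The measure `F ↦ ∫_E pairTheta F`. -/
def pairMeasure (P : Set (Fin n → ℤ)) (μ : Measure (SLR n)) (E : Set (SLR n)) :
    Measure ((Fin n → ℝ) × (Fin n → ℝ)) :=
  Measure.sum fun z : P × P => (μ.restrict E).map fun g =>
    (castVec (z.1 : Fin n → ℤ) ᵥ* g.1, castVec (z.2 : Fin n → ℤ) ᵥ* g.1)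

theorem lintegral_pairMeasure (P : Set (Fin n → ℤ)) (μ : Measure (SLR n)) (E : Set (SLR n))
    {F : (Fin n → ℝ) × (Fin n → ℝ) → ℝ≥0∞} (hF : Measurable F) :
    ∫⁻ p, F p ∂pairMeasure P μ E = ∫⁻ g in E, pairTheta P F g ∂μ := by
  rw [pairMeasure, lintegral_sum_measure]
  simp only [pairTheta_eq_tsum]
  refine (tsum_congr fun z => lintegral_map hF
    ((measurable_orbit _).prodMk (measurable_orbit _))).trans
      (lintegral_tsum fun z : P × P => ?_).symm
  exact (hF.comp ((measurable_orbit _).prodMk (measurable_orbit _))).aemeasurable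

/-- The mean of an invariant function is invariant. -/
theorem setLIntegral_mul_right (μ : Measure (SLR n)) [μ.IsMulLeftInvariant]
    [μ.IsMulRightInvariant] {E : Set (SLR n)} (hEm : MeasurableSet E) (hE : IsTransversal E)
    {φ : SLR n → ℝ≥0∞} (hφ : Measurable φ) (hinv : ∀ (γ : Gamma n) g, φ (γ • g) = φ g)
    (h : SLR n) : ∫⁻ g in E, φ (g * h) ∂μ = ∫⁻ g in E, φ g ∂μ := by
  obtain ⟨E', hE'⟩ : ∃ E', E' = (· * h⁻¹) ⁻¹' E := ⟨_, rfl⟩
  have hE'm : MeasurableSet E' := hE' ▸ (continuous_mul_const h⁻¹).measurable hEm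
  have hE't : IsTransversal E' := fun x => by
    obtain ⟨γ, hγ, huniq⟩ := hE (x * h⁻¹)
    have key : ∀ δ : Gamma n, δ • x ∈ E' ↔ δ • (x * h⁻¹) ∈ E := fun δ => by
      rw [hE', Set.mem_preimage]
      show (δ : SLR n) * x * h⁻¹ ∈ E ↔ (δ : SLR n) * (x * h⁻¹) ∈ E
      rw [mul_assoc]
    exact ⟨γ, (key γ).2 hγ, fun δ hδ => huniq δ ((key δ).1 hδ)⟩
  have hpre : (fun g : SLR n => g * h) ⁻¹' E' = E := by
    ext g
    simp [hE']
  conv_lhs => rw [← hpre]
  rw [(measurePreserving_mul_right μ h).setLIntegral_comp_preimage hE'm hφ]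
  exact (isFundamentalDomain_of_transversal hE'm hE't μ).setLIntegral_eq
    (isFundamentalDomain_of_transversal hEm hE μ) _ hinv

variable {E : Set (SLR (q + 3))}

/-- The measure of independent pairs. -/
def indepMeasure (P : Set (Fin (q + 3) → ℤ)) (E : Set (SLR (q + 3))) : Measure (Pairs q) :=
  (pairMeasure P (coneMeasure (q + 3)) E).restrict (indepPairs q)

theorem lintegral_indepMeasure (P : Set (Fin (q + 3) → ℤ)) (E : Set (SLR (q + 3)))
    {F : Pairs q → ℝ≥0∞} (hF : Measurable F) :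
    ∫⁻ p, F p ∂indepMeasure P E =
      ∫⁻ g in E, pairTheta P ((indepPairs q).indicator F) g ∂coneMeasure (q + 3) := by
  rw [indepMeasure, ← lintegral_indicator measurableSet_indepPairs,
    lintegral_pairMeasure _ _ _ (hF.indicator measurableSet_indepPairs)]

theorem isPairInvariant_indepMeasure {P : Set (Fin (q + 3) → ℤ)} (hP : IsStable P)
    (hEm : MeasurableSet E) (hE : IsTransversal E) : IsPairInvariant (indepMeasure P E) := by
  intro h
  have hm : Measurable (Prod.map (fun x : Fin (q + 3) → ℝ => x ᵥ* h.1)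
      fun x : Fin (q + 3) → ℝ => x ᵥ* h.1) :=
    (continuous_vmul h).measurable.prodMap (continuous_vmul h).measurable
  refine Measure.ext fun A hA => ?_
  rw [← lintegral_indicator_one hA, ← lintegral_indicator_one (μ := indepMeasure P E) hA,
    lintegral_map ((measurable_one (α := ℝ≥0∞) (β := Pairs q)).indicator hA) hm,
    lintegral_indepMeasure P E (F := fun p => A.indicator 1
      (Prod.map (fun x => x ᵥ* h.1) (fun x => x ᵥ* h.1) p))
      (((measurable_one (α := ℝ≥0∞) (β := Pairs q)).indicator hA).comp hm),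
    lintegral_indepMeasure _ _ ((measurable_one (α := ℝ≥0∞) (β := Pairs q)).indicator hA),
    ← setLIntegral_mul_right (coneMeasure (q + 3)) hEm hE
      (measurable_pairTheta P (((measurable_one (α := ℝ≥0∞) (β := Pairs q)).indicator hA).indicator
        measurableSet_indepPairs))
      (pairTheta_smul hP _) h]
  refine lintegral_congr fun g => tsum_congr fun v => tsum_congr fun w => ?_
  classical
  simp only [Set.indicator_apply, Matrix.SpecialLinearGroup.coe_mul, ← Matrix.vecMul_vecMul,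
    vecMul_mem_indepPairs, Prod.map_apply, Pi.one_apply]

theorem pairTheta_box_le {P : Set (Fin (q + 3) → ℤ)} (hP : P ⊆ nonzeroVecs (q + 3))
    (N : ℕ) (g : SLR (q + 3)) :
    theta P ((Metric.closedBall (0 : Fin (q + 3) → ℝ) ((N + 1 : ℕ) : ℝ)).indicator 1) g ≤
      ((N + 1 : ℕ) : ℝ≥0∞) ^ (q + 3) * maxCount g := by
  refine le_trans (ENNReal.tsum_mono_subtype
    (fun v => (Metric.closedBall (0 : Fin (q + 3) → ℝ) ((N + 1 : ℕ) : ℝ)).indicator 1
      (castVec v ᵥ* g.1)) hP) ?_
  have h1 : boxCount (N + 1) g * (((N + 1 : ℕ) : ℝ≥0∞) ^ (q + 3))⁻¹ ≤ maxCount g :=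
    le_iSup (fun N : ℕ => boxCount (N + 1) g * (((N + 1 : ℕ) : ℝ≥0∞) ^ (q + 3))⁻¹) N
  refine le_trans (le_of_eq ?_) (mul_le_mul' le_rfl h1)
  rw [mul_comm (boxCount _ _), ← mul_assoc, ENNReal.mul_inv_cancel (by positivity)
    (ENNReal.pow_ne_top (ENNReal.natCast_ne_top _)), one_mul]
  rfl

theorem isFinite_indepMeasure {P : Set (Fin (q + 3) → ℤ)} (hP : P ⊆ nonzeroVecs (q + 3))
    (hEm : MeasurableSet E) (hE : IsTransversal E) :
    IsFiniteMeasureOnCompacts (indepMeasure P E) := by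
  refine ⟨fun K hK => ?_⟩
  obtain ⟨R, hR⟩ := hK.isBounded.subset_closedBall 0
  obtain ⟨N, hN⟩ := exists_nat_ge R
  obtain ⟨B, hB⟩ : ∃ B : Set (Fin (q + 3) → ℝ),
      B = Metric.closedBall 0 ((N + 1 : ℕ) : ℝ) := ⟨_, rfl⟩
  have hBm : MeasurableSet B := hB ▸ Metric.isClosed_closedBall.measurableSet
  have hsub : K ⊆ B ×ˢ B := fun p hp => by
    have h := (mem_closedBall_zero_iff.1 (hR hp)).trans (hN.trans (Nat.cast_le.2 (Nat.le_succ N)))
    rw [hB]
    exact ⟨mem_closedBall_zero_iff.2 ((norm_fst_le p).trans h),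
      mem_closedBall_zero_iff.2 ((norm_snd_le p).trans h)⟩
  refine lt_of_le_of_lt (measure_mono hsub) ?_
  rw [← lintegral_indicator_one (hBm.prod hBm), lintegral_indepMeasure _ _
    ((measurable_one (α := ℝ≥0∞) (β := Pairs q)).indicator (hBm.prod hBm))]
  have hpt : ∀ g : SLR (q + 3), pairTheta P ((indepPairs q).indicator ((B ×ˢ B).indicator 1)) g ≤
      (((N + 1 : ℕ) : ℝ≥0∞) ^ (q + 3)) ^ 2 * maxCount g ^ 2 := by
    intro g
    rw [← mul_pow, sq]
    refine le_trans ?_ (mul_le_mul' (hB ▸ pairTheta_box_le hP N g :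
      theta P (B.indicator 1) g ≤ _) (hB ▸ pairTheta_box_le hP N g))
    rw [← pairTheta_mul]
    refine ENNReal.tsum_le_tsum fun v => ENNReal.tsum_le_tsum fun w =>
      (Set.indicator_le_self _ _ _).trans (le_of_eq ?_)
    classical
    simp [Set.indicator_apply, ← ite_and, and_comm]
  refine lt_of_le_of_lt (lintegral_mono hpt) ?_
  rw [lintegral_const_mul _ (measurable_maxCount.pow_const 2)]
  exact ENNReal.mul_lt_top (ENNReal.pow_lt_top (ENNReal.pow_lt_top (ENNReal.natCast_lt_top _)))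
    (lintegral_maxCount_pow_lt_top (r := 2) (by omega) hEm hE)

theorem exists_pair_const {P : Set (Fin (q + 3) → ℤ)} (hP : P ⊆ nonzeroVecs (q + 3))
    (hs : IsStable P) (hEm : MeasurableSet E) (hE : IsTransversal E) :
    ∃ c : ℝ≥0, indepMeasure P E = c • volume := by
  haveI := isFinite_indepMeasure hP hEm hE
  exact pairs_eq_smul_volume (isPairInvariant_indepMeasure hs hEm hE)
    (by rw [indepMeasure, Measure.restrict_apply measurableSet_indepPairs.compl,
      Set.compl_inter_self, measure_empty])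

/-- A line holds few lattice points. -/
theorem line_count_le {v : Fin (q + 3) → ℤ} (hv : v ≠ 0) (g : SLR (q + 3)) :
    ∃ C : ℝ≥0, ∀ N : ℕ, theta (nonzeroVecs (q + 3)) (fun y => (indepPairs q)ᶜ.indicator
      (fun p => (Metric.closedBall (0 : Fin (q + 3) → ℝ) ((N + 1 : ℕ) : ℝ)).indicator 1 p.2)
        (castVec v ᵥ* g.1, y)) g ≤ (C : ℝ≥0∞) * ((N + 1 : ℕ) : ℝ≥0∞) := by
  obtain ⟨i, hi⟩ := Function.ne_iff.1 hv
  have hnorm : 0 < ‖castVec v ᵥ* g.1‖ := norm_pos_iff.2 (vecMul_ne_zero hv g)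
  obtain ⟨c, hc⟩ : ∃ c : ℕ, |(v i : ℝ)| / ‖castVec v ᵥ* g.1‖ ≤ c := exists_nat_ge _
  refine ⟨((2 * c + 1 : ℕ) : ℝ≥0), fun N => ?_⟩
  obtain ⟨T, hT⟩ : ∃ T : Set (Fin (q + 3) → ℤ), T = {w | w ∈ nonzeroVecs (q + 3) ∧
      castVec w ᵥ* g.1 ∈ {y | (castVec v ᵥ* g.1, y) ∈ (indepPairs q)ᶜ ∧
        y ∈ Metric.closedBall (0 : Fin (q + 3) → ℝ) ((N + 1 : ℕ) : ℝ)}} := ⟨_, rfl⟩
  have hbound : ∀ w ∈ T, |(w i : ℝ)| ≤ ((c * (N + 1) : ℕ) : ℝ) ∧
      ∃ t : ℝ, ∀ j, (w j : ℝ) = t * v j := by
    intro w hw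
    rw [hT] at hw
    obtain ⟨-, hdep, hball⟩ := hw
    obtain ⟨t, ht⟩ := castVec_dep hv hdep
    refine ⟨?_, t, ht⟩
    rw [mem_closedBall_zero_iff, show castVec w = t • castVec v from funext ht, Matrix.smul_vecMul,
      norm_smul, Real.norm_eq_abs, ← le_div_iff₀ hnorm] at hball
    rw [ht i, abs_mul]
    push_cast at hball ⊢
    refine (mul_le_mul_of_nonneg_right hball (abs_nonneg _)).trans ?_
    rw [div_mul_eq_mul_div, mul_div_assoc, mul_comm (c : ℝ)]
    exact mul_le_mul_of_nonneg_left hc (by positivity)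
  have hmaps : Set.MapsTo (fun w : Fin (q + 3) → ℤ => w i) T
      ↑(Finset.Icc (-((c * (N + 1) : ℕ) : ℤ)) ((c * (N + 1) : ℕ) : ℤ)) := by
    intro w hw
    have h := abs_le.1 (hbound w hw).1
    rw [Finset.coe_Icc, Set.mem_Icc]
    constructor
    · exact (Int.cast_le (R := ℝ)).1 (by push_cast at h ⊢; exact h.1)
    · exact (Int.cast_le (R := ℝ)).1 (by push_cast at h ⊢; exact h.2)
  have hinj : Set.InjOn (fun w : Fin (q + 3) → ℤ => w i) T := by
    intro a ha b hb hab
    obtain ⟨-, s, hs⟩ := hbound a ha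
    obtain ⟨-, t, ht⟩ := hbound b hb
    have hst : s = t := mul_right_cancel₀ (Int.cast_ne_zero.2 hi)
      ((hs i).symm.trans ((congrArg (fun z : ℤ => (z : ℝ)) hab).trans (ht i)))
    exact funext fun j => Int.cast_injective (α := ℝ) (by rw [hs j, ht j, hst])
  have hfin : T.Finite := Set.Finite.of_finite_image
    ((Finset.finite_toSet _).subset hmaps.image_subset) hinj
  have hcard : T.ncard ≤ (2 * c + 1) * (N + 1) := by
    refine (Set.ncard_le_ncard_of_injOn _ hmaps hinj (Finset.finite_toSet _)).trans ?_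
    rw [Set.ncard_coe_finset, Int.card_Icc]
    have e : (2 * c + 1) * (N + 1) = 2 * (c * (N + 1)) + (N + 1) := by ring
    rw [e]
    omega
  refine le_trans (b := (T.ncard : ℝ≥0∞)) (le_of_eq ?_)
    ((Nat.cast_le.2 hcard).trans_eq (by push_cast; rfl))
  rw [hT] at hfin ⊢
  rw [← tsum_indicator_eq_ncard g hfin]
  classical
  refine tsum_congr fun w => ?_
  simp [Set.indicator_apply, ← ite_and]

theorem indepMeasure_nonzero (hEm : MeasurableSet E) (hE : IsTransversal E) :
    indepMeasure (nonzeroVecs (q + 3)) E = coneMeasure (q + 3) E • volume := by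
  obtain ⟨c, hc⟩ := exists_pair_const subset_rfl isStable_nonzero hEm hE
  obtain ⟨B, hB⟩ : ∃ B : ℕ → Set (Fin (q + 3) → ℝ),
      B = fun N => Metric.closedBall 0 ((N + 1 : ℕ) : ℝ) := ⟨_, rfl⟩
  have hBm : ∀ N, MeasurableSet (B N) := fun N => hB ▸ Metric.isClosed_closedBall.measurableSet
  have hB1 : ∀ g, theta (nonzeroVecs (q + 3)) ((B 0).indicator 1) g = boxCount (0 + 1) g := by
    intro g
    rw [hB]
    rfl
  obtain ⟨r, hr⟩ : ∃ r : ℕ → ℝ≥0∞, r = fun N => (((N + 1 : ℕ) : ℝ≥0∞) ^ (q + 3))⁻¹ := ⟨_, rfl⟩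
  obtain ⟨G, hG⟩ : ∃ G : ℕ → Pairs q → ℝ≥0∞,
      G = fun N p => (B 0).indicator 1 p.1 * (B N).indicator 1 p.2 := ⟨_, rfl⟩
  have hGm : ∀ N, Measurable (G N) := fun N => by
    rw [hG]
    exact (((measurable_one (α := ℝ≥0∞)).indicator (hBm 0)).comp measurable_fst).fun_mul
      (((measurable_one (α := ℝ≥0∞)).indicator (hBm N)).comp measurable_snd)
  have htot : ∀ N g, pairTheta (nonzeroVecs (q + 3)) (G N) g =
      boxCount (0 + 1) g * boxCount (N + 1) g := fun N g => by
    rw [hG, pairTheta_mul, hB1, hB]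
    rfl
  -- the dependent part is negligible
  have hdep : ∀ g : SLR (q + 3), Tendsto (fun N =>
      pairTheta (nonzeroVecs (q + 3)) ((indepPairs q)ᶜ.indicator (G N)) g * r N) atTop (𝓝 0) := by
    intro g
    have hfin : {v | v ∈ nonzeroVecs (q + 3) ∧ castVec v ᵥ* g.1 ∈ B 0}.Finite := by
      obtain ⟨γ, e, x, hf, -⟩ := exists_reduced_SL g
      obtain ⟨hfin, -⟩ := ncard_frame_le hf (zero_le_one (α := ℝ))
      refine Set.Finite.subset (hfin.image fun v => v ᵥ* γ.1) fun v hv =>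
        ⟨v ᵥ* (γ⁻¹).1, ?_, by simpa using vecMul_inv_cancel v γ⁻¹⟩
      show ‖castVec _ ᵥ* (castSL γ * g).1‖ ≤ _
      rw [Matrix.SpecialLinearGroup.coe_mul, ← Matrix.vecMul_vecMul, ← castVec_vecMul,
        show v ᵥ* (γ⁻¹).1 ᵥ* γ.1 = v by simpa using vecMul_inv_cancel v γ⁻¹]
      simpa [hB] using hv.2
    choose C hC using fun v : nonzeroVecs (q + 3) => line_count_le v.2 g
    obtain ⟨S, hS⟩ : ∃ S : Finset (nonzeroVecs (q + 3)), ∀ v : nonzeroVecs (q + 3),
        v ∈ S ↔ castVec (v : Fin (q + 3) → ℤ) ᵥ* g.1 ∈ B 0 :=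
      ⟨(hfin.preimage Subtype.val_injective.injOn).toFinset, fun v => by simp⟩
    have hle : ∀ N, pairTheta (nonzeroVecs (q + 3)) ((indepPairs q)ᶜ.indicator (G N)) g ≤
        (∑ v ∈ S, (C v : ℝ≥0∞)) * ((N + 1 : ℕ) : ℝ≥0∞) := by
      intro N
      rw [pairTheta, theta, tsum_eq_sum (s := S) fun v hv => ?_, Finset.sum_mul]
      · refine Finset.sum_le_sum fun v _ => le_trans (ENNReal.tsum_le_tsum fun w => ?_) (hC v N)
        rw [hG, hB]
        refine Set.indicator_le_indicator ?_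
        exact mul_le_of_le_one_left zero_le (Set.indicator_le_self' (fun _ _ => zero_le) _)
      · refine ENNReal.tsum_eq_zero.2 fun w => ?_
        rw [Set.indicator_apply_eq_zero]
        intro _
        rw [hG]
        exact mul_eq_zero_of_left
          (Set.indicator_of_notMem (fun h => hv ((hS v).2 h)) _) _
    refine tendsto_of_tendsto_of_tendsto_of_le_of_le tendsto_const_nhds
      (h := fun N : ℕ => (∑ v ∈ S, (C v : ℝ≥0∞)) * ((N + 1 : ℕ) : ℝ≥0∞)⁻¹) ?_
      (fun N => zero_le) fun N => ?_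
    · have h1 : Tendsto (fun N : ℕ => ((N + 1 : ℕ) : ℝ≥0∞)⁻¹) atTop (𝓝 0) :=
        ENNReal.tendsto_inv_nat_nhds_zero.comp (tendsto_add_atTop_nat 1)
      have h2 := ENNReal.Tendsto.const_mul (a := ∑ v ∈ S, (C v : ℝ≥0∞)) h1
        (Or.inr (ENNReal.sum_ne_top.2 fun v _ => ENNReal.coe_ne_top))
      simpa using h2
    · refine (mul_le_mul' (hle N) le_rfl).trans ?_
      rw [mul_assoc]
      simp only [hr]
      refine mul_le_mul' le_rfl ?_
      rw [ENNReal.inv_pow, show q + 3 = q + 1 + 1 + 1 from rfl, pow_succ', ← mul_assoc,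
        ENNReal.mul_inv_cancel (by positivity) (ENNReal.natCast_ne_top _), one_mul]
      exact pow_le_of_le_one zero_le (ENNReal.inv_le_one.2 (by simp)) (by omega)
  -- the limit
  have hpt : ∀ g : SLR (q + 3), Tendsto (fun N =>
      pairTheta (nonzeroVecs (q + 3)) ((indepPairs q).indicator (G N)) g * r N) atTop
      (𝓝 (boxCount (0 + 1) g * ENNReal.ofReal (2 ^ (q + 3)))) := by
    intro g
    have hfin : boxCount (0 + 1) g ≠ ⊤ := by
      obtain ⟨N, hN⟩ := ((tendsto_boxCount g).eventually_lt_const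
        (ENNReal.ofReal_lt_top (r := 2 ^ (q + 3)))).exists
      intro htop
      have hmono : boxCount (0 + 1) g ≤ boxCount (N + 1) g := by
        refine ENNReal.tsum_le_tsum fun v => Set.indicator_le_indicator_of_subset
          (Metric.closedBall_subset_closedBall (by simp)) (fun _ => zero_le) _
      rw [htop, top_le_iff] at hmono
      rw [hmono, ENNReal.top_mul (ENNReal.inv_ne_zero.2
        (ENNReal.pow_ne_top (ENNReal.natCast_ne_top _)))] at hN
      exact lt_irrefl _ hN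
    have h1 : Tendsto (fun N => pairTheta (nonzeroVecs (q + 3)) (G N) g * r N) atTop
        (𝓝 (boxCount (0 + 1) g * ENNReal.ofReal (2 ^ (q + 3)))) := by
      simp only [htot, mul_assoc, hr]
      exact ENNReal.Tendsto.const_mul (tendsto_boxCount g) (Or.inr hfin)
    have hd := hdep g
    have h2 := ENNReal.Tendsto.sub h1 hd (Or.inr ENNReal.zero_ne_top)
    rw [tsub_zero] at h2
    refine h2.congr' ?_
    filter_upwards [hd.eventually_lt_const ENNReal.zero_lt_top] with N hN
    rw [pairTheta_split _ (indepPairs q) (G N), add_mul, ENNReal.add_sub_cancel_right hN.ne]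
  have hlim := tendsto_lintegral_filter_of_dominated_convergence
    (μ := (coneMeasure (q + 3)).restrict E)
    (F := fun N g => pairTheta (nonzeroVecs (q + 3)) ((indepPairs q).indicator (G N)) g * r N)
    (l := atTop) (fun g => maxCount g ^ 2)
    (Eventually.of_forall fun N =>
      (measurable_pairTheta _ ((hGm N).indicator measurableSet_indepPairs)).mul_const _)
    (Eventually.of_forall fun N => ae_of_all _ fun g => ?_)
    (lintegral_maxCount_pow_lt_top (r := 2) (by omega) hEm hE).ne (ae_of_all _ hpt)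
  swap
  · refine (mul_le_mul' ((le_self_add).trans (pairTheta_split _ (indepPairs q) (G N) g).ge)
      le_rfl).trans ?_
    rw [htot, mul_assoc, sq]
    refine mul_le_mul' ?_ (hr ▸
      le_iSup (fun N : ℕ => boxCount (N + 1) g * (((N + 1 : ℕ) : ℝ≥0∞) ^ (q + 3))⁻¹) N)
    refine le_trans (le_of_eq ?_)
      (le_iSup (fun N : ℕ => boxCount (N + 1) g * (((N + 1 : ℕ) : ℝ≥0∞) ^ (q + 3))⁻¹) 0)
    simp
  have hvolB : ∀ N, volume (B N) = ENNReal.ofReal (2 ^ (q + 3)) *
      ((N + 1 : ℕ) : ℝ≥0∞) ^ (q + 3) := fun N => by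
    rw [hB, Real.volume_pi_closedBall _ (by positivity), Fintype.card_fin, mul_pow,
      ENNReal.ofReal_mul (by positivity), ENNReal.ofReal_pow (Nat.cast_nonneg _),
      ENNReal.ofReal_natCast]
  have hconst : ∀ N, ∫⁻ g in E, pairTheta (nonzeroVecs (q + 3))
      ((indepPairs q).indicator (G N)) g * r N ∂coneMeasure (q + 3) =
      (c : ℝ≥0∞) * (ENNReal.ofReal (2 ^ (q + 3)) * ENNReal.ofReal (2 ^ (q + 3))) := by
    intro N
    rw [lintegral_mul_const _ (measurable_pairTheta _ ((hGm N).indicator measurableSet_indepPairs)),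
      ← lintegral_indepMeasure _ _ (hGm N), hc, lintegral_smul_measure, hG, Measure.volume_eq_prod,
      lintegral_prod_mul ((measurable_one (α := ℝ≥0∞)).indicator (hBm 0)).aemeasurable
        ((measurable_one (α := ℝ≥0∞)).indicator (hBm N)).aemeasurable,
      lintegral_indicator_one (hBm 0), lintegral_indicator_one (hBm N), hvolB, hvolB, hr,
      ENNReal.smul_def, smul_eq_mul]
    simp only [Nat.zero_add, Nat.cast_one, one_pow, mul_one, mul_assoc]
    rw [ENNReal.mul_inv_cancel (by positivity) (ENNReal.pow_ne_top (ENNReal.natCast_ne_top _)),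
      mul_one]
  have hfirst : ∫⁻ g in E, boxCount (0 + 1) g ∂coneMeasure (q + 3) =
      coneMeasure (q + 3) E * ENNReal.ofReal (2 ^ (q + 3)) := by
    unfold boxCount
    rw [← meanMeasure_apply _ _ _ Metric.isClosed_closedBall.measurableSet,
      meanMeasure_nonzero (by omega) hEm hE, Measure.smul_apply, smul_eq_mul,
      Real.volume_pi_closedBall _ (Nat.cast_nonneg _), Fintype.card_fin]
    simp
  rw [lintegral_mul_const _ (measurable_boxCount _), hfirst] at hlim
  simp only [hconst] at hlim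
  have h := tendsto_nhds_unique tendsto_const_nhds hlim
  rw [← mul_assoc, ENNReal.mul_left_inj (by simp) ENNReal.ofReal_ne_top,
    ENNReal.mul_left_inj (by simp) ENNReal.ofReal_ne_top] at h
  rw [hc, ← h]
  rfl

theorem indepMeasure_prim (hEm : MeasurableSet E) (hE : IsTransversal E) :
    ENNReal.ofReal (zetaVal (q + 3)) ^ 2 • indepMeasure (primVecs (q + 3)) E =
      coneMeasure (q + 3) E • volume := by
  obtain ⟨c, hc⟩ := exists_pair_const prim_subset_nonzero isStable_prim hEm hE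
  have hball : ∀ s : ℝ, MeasurableSet (Metric.closedBall (0 : Fin (q + 3) → ℝ) s) := fun s =>
    Metric.isClosed_closedBall.measurableSet
  obtain ⟨G, hG⟩ : ∃ G : Pairs q → ℝ≥0∞, G = fun p => (Metric.closedBall 0 1).indicator 1 p.1 *
      (Metric.closedBall 0 1).indicator 1 p.2 := ⟨_, rfl⟩
  have hGm : Measurable G := by
    rw [hG]
    exact (((measurable_one (α := ℝ≥0∞)).indicator (hball 1)).comp measurable_fst).fun_mul
      (((measurable_one (α := ℝ≥0∞)).indicator (hball 1)).comp measurable_snd)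
  have h1 := lintegral_indepMeasure (nonzeroVecs (q + 3)) E hGm
  simp only [pairTheta_nonzero_eq] at h1
  have hpre : ∀ e d : ℕ, (fun p : Pairs q => (indepPairs q).indicator G
      (((e + 1 : ℕ) : ℝ) • p.1, ((d + 1 : ℕ) : ℝ) • p.2)) =
      (indepPairs q).indicator (fun p =>
        (Metric.closedBall 0 (1 / ((e + 1 : ℕ) : ℝ))).indicator 1 p.1 *
          (Metric.closedBall 0 (1 / ((d + 1 : ℕ) : ℝ))).indicator 1 p.2) := by
    intro e d
    funext p
    classical
    have he : (0 : ℝ) < ((e + 1 : ℕ) : ℝ) := by positivity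
    have hd : (0 : ℝ) < ((d + 1 : ℕ) : ℝ) := by positivity
    simp only [hG, Set.indicator_apply, smul_mem_indepPairs he.ne' hd.ne', mem_closedBall_zero_iff,
      norm_smul, Real.norm_eq_abs, abs_of_pos he, abs_of_pos hd, le_div_iff₀' he,
      le_div_iff₀' hd, Pi.one_apply]
  simp only [hpre] at h1
  have hm : ∀ e d : ℕ, Measurable fun p : Pairs q =>
      (Metric.closedBall 0 (1 / ((e + 1 : ℕ) : ℝ))).indicator (1 : (Fin (q + 3) → ℝ) → ℝ≥0∞) p.1 *
        (Metric.closedBall 0 (1 / ((d + 1 : ℕ) : ℝ))).indicator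
          (1 : (Fin (q + 3) → ℝ) → ℝ≥0∞) p.2 := fun e d =>
    (((measurable_one (α := ℝ≥0∞)).indicator (hball _)).comp measurable_fst).fun_mul
      (((measurable_one (α := ℝ≥0∞)).indicator (hball _)).comp measurable_snd)
  rw [lintegral_tsum fun e => (Measurable.ennreal_tsum fun d =>
    measurable_pairTheta _ ((hm e d).indicator measurableSet_indepPairs)).aemeasurable] at h1
  simp only [lintegral_tsum fun d => (measurable_pairTheta _
    ((hm _ d).indicator measurableSet_indepPairs)).aemeasurable] at h1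
  simp only [← lintegral_indepMeasure _ _ (hm _ _), hc, indepMeasure_nonzero hEm hE,
    lintegral_smul_measure, hG, Measure.volume_eq_prod,
    lintegral_prod_mul ((measurable_one (α := ℝ≥0∞)).indicator (hball _)).aemeasurable
      ((measurable_one (α := ℝ≥0∞)).indicator (hball _)).aemeasurable,
    lintegral_indicator_one (hball _), ENNReal.smul_def, smul_eq_mul] at h1
  have hvol : ∀ e : ℕ, volume (Metric.closedBall (0 : Fin (q + 3) → ℝ) (1 / ((e + 1 : ℕ) : ℝ))) =
      ENNReal.ofReal (2 ^ (q + 3)) * ENNReal.ofReal (1 / ((e + 1 : ℕ) : ℝ) ^ (q + 3)) := fun e => by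
    rw [Real.volume_pi_closedBall _ (by positivity), Fintype.card_fin, mul_pow, div_pow, one_pow,
      ENNReal.ofReal_mul (by positivity)]
  simp only [hvol, Real.volume_pi_closedBall _ zero_le_one, mul_one, Fintype.card_fin,
    ENNReal.tsum_mul_left, ENNReal.tsum_mul_right,
    tsum_succ_inv_pow (m := q + 2) (by omega)] at h1
  have h2 : coneMeasure (q + 3) E *
      (ENNReal.ofReal (2 ^ (q + 3)) * ENNReal.ofReal (2 ^ (q + 3))) =
      ENNReal.ofReal (zetaVal (q + 3)) ^ 2 * c *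
        (ENNReal.ofReal (2 ^ (q + 3)) * ENNReal.ofReal (2 ^ (q + 3))) := by
    rw [h1]
    ring
  rw [ENNReal.mul_left_inj (by simp) (ENNReal.mul_ne_top ENNReal.ofReal_ne_top
    ENNReal.ofReal_ne_top)] at h2
  rw [hc, h2, show (c • volume : Measure (Pairs q)) = (c : ℝ≥0∞) • volume from rfl, smul_smul]

/-- The formulas over a transversal. -/
theorem rogers_transversal (hEm : MeasurableSet E) (hE : IsTransversal E) {F : Pairs q → ℝ≥0∞}
    (hF : Measurable F) :
    ENNReal.ofReal (zetaVal (q + 3)) ^ 2 *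
        ∫⁻ g in E, pairTheta (primVecs (q + 3)) F g ∂coneMeasure (q + 3) =
      coneMeasure (q + 3) E * ((∫⁻ p, F p) +
        ENNReal.ofReal (zetaVal (q + 3)) * ∫⁻ x, (F (x, x) + F (x, -x))) ∧
    ENNReal.ofReal (zetaVal (q + 3)) *
        ∫⁻ g in E, pairTheta (nonzeroVecs (q + 3)) F g ∂coneMeasure (q + 3) =
      coneMeasure (q + 3) E * (ENNReal.ofReal (zetaVal (q + 3)) * (∫⁻ p, F p) +
        ∑' e : ℕ, ∑' d : ℕ, ∫⁻ x, (F (((e + 1 : ℕ) : ℝ) • x, ((d + 1 : ℕ) : ℝ) • x) +
          F (((e + 1 : ℕ) : ℝ) • x, -(((d + 1 : ℕ) : ℝ) • x)))) := by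
  have hdiag : ∀ G : Pairs q → ℝ≥0∞, Measurable G →
      Measurable fun x : Fin (q + 3) → ℝ => G (x, x) + G (x, -x) := fun G hG =>
    (hG.comp (measurable_id.prodMk measurable_id)).fun_add
      (hG.comp (measurable_id.prodMk measurable_neg))
  have hind : ∀ G : Pairs q → ℝ≥0∞, Measurable G →
      Measurable (pairTheta (primVecs (q + 3)) ((indepPairs q).indicator G)) := fun G hG =>
    measurable_pairTheta _ (hG.indicator measurableSet_indepPairs)
  have hdep : ∀ G : Pairs q → ℝ≥0∞, Measurable G →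
      ENNReal.ofReal (zetaVal (q + 3)) * ∫⁻ g in E, pairTheta (primVecs (q + 3))
        ((indepPairs q)ᶜ.indicator G) g ∂coneMeasure (q + 3) =
      coneMeasure (q + 3) E * ∫⁻ x, (G (x, x) + G (x, -x)) := fun G hG => by
    simp only [pairTheta_prim_dep]
    rw [← lintegral_meanMeasure _ _ _ (hdiag G hG), ← smul_eq_mul (ENNReal.ofReal _),
      ← lintegral_smul_measure, meanMeasure_prim (by omega) hEm hE, lintegral_smul_measure,
      smul_eq_mul]
  constructor
  · simp only [pairTheta_split (primVecs (q + 3)) (indepPairs q) F]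
    rw [lintegral_add_left (hind F hF), mul_add, ← lintegral_indepMeasure _ _ hF,
      ← smul_eq_mul (ENNReal.ofReal _ ^ 2), ← lintegral_smul_measure, indepMeasure_prim hEm hE,
      lintegral_smul_measure, smul_eq_mul, sq, mul_assoc, hdep F hF]
    ring
  · have hscale : ∀ e d : ℕ, Measurable fun p : Pairs q =>
        F (((e + 1 : ℕ) : ℝ) • p.1, ((d + 1 : ℕ) : ℝ) • p.2) := fun e d =>
      hF.comp (((measurable_const_smul ((e + 1 : ℕ) : ℝ)).comp measurable_fst).prodMk
        ((measurable_const_smul ((d + 1 : ℕ) : ℝ)).comp measurable_snd))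
    have hnd : ∫⁻ g in E, pairTheta (nonzeroVecs (q + 3)) ((indepPairs q)ᶜ.indicator F) g
          ∂coneMeasure (q + 3) =
        ∑' e : ℕ, ∑' d : ℕ, ∫⁻ g in E, pairTheta (primVecs (q + 3))
          ((indepPairs q)ᶜ.indicator fun p =>
            F (((e + 1 : ℕ) : ℝ) • p.1, ((d + 1 : ℕ) : ℝ) • p.2)) g ∂coneMeasure (q + 3) := by
      have hpre : ∀ e d : ℕ, (fun p : Pairs q => (indepPairs q)ᶜ.indicator F
          (((e + 1 : ℕ) : ℝ) • p.1, ((d + 1 : ℕ) : ℝ) • p.2)) =
          (indepPairs q)ᶜ.indicator fun p =>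
            F (((e + 1 : ℕ) : ℝ) • p.1, ((d + 1 : ℕ) : ℝ) • p.2) := by
        intro e d
        funext p
        classical
        simp only [Set.indicator_apply, Set.mem_compl_iff,
          smul_mem_indepPairs (Nat.cast_ne_zero.2 (Nat.succ_ne_zero e) : ((e + 1 : ℕ) : ℝ) ≠ 0)
            (Nat.cast_ne_zero.2 (Nat.succ_ne_zero d) : ((d + 1 : ℕ) : ℝ) ≠ 0)]
      simp only [pairTheta_nonzero_eq, hpre]
      rw [lintegral_tsum fun e => (Measurable.ennreal_tsum fun d => measurable_pairTheta _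
        ((hscale e d).indicator measurableSet_indepPairs.compl)).aemeasurable]
      exact tsum_congr fun e => lintegral_tsum fun d => (measurable_pairTheta _
        ((hscale e d).indicator measurableSet_indepPairs.compl)).aemeasurable
    simp only [pairTheta_split (nonzeroVecs (q + 3)) (indepPairs q) F]
    rw [lintegral_add_left (measurable_pairTheta _ (hF.indicator measurableSet_indepPairs)),
      mul_add, ← lintegral_indepMeasure _ _ hF, indepMeasure_nonzero hEm hE, hnd,
      lintegral_smul_measure, smul_eq_mul, mul_left_comm]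
    simp only [← ENNReal.tsum_mul_left, hdep _ (hscale _ _)]
    rw [mul_add, ← ENNReal.tsum_mul_left]
    simp only [ENNReal.tsum_mul_left, smul_neg]

/-- **Rogers' second moment formula.** -/
theorem rogers_second_moment (μ : Measure (SLR (q + 3))) [μ.IsHaarMeasure]
    {D : Set (SLR (q + 3))} (hD : IsFundamentalDomain (Gamma (q + 3)) D μ) {F : Pairs q → ℝ≥0∞}
    (hF : Measurable F) :
    ENNReal.ofReal (zetaVal (q + 3)) ^ 2 * ∫⁻ g in D, pairTheta (primVecs (q + 3)) F g ∂μ =
      μ D * ((∫⁻ p, F p) + ENNReal.ofReal (zetaVal (q + 3)) * ∫⁻ x, (F (x, x) + F (x, -x))) ∧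
    ENNReal.ofReal (zetaVal (q + 3)) * ∫⁻ g in D, pairTheta (nonzeroVecs (q + 3)) F g ∂μ =
      μ D * (ENNReal.ofReal (zetaVal (q + 3)) * (∫⁻ p, F p) +
        ∑' e : ℕ, ∑' d : ℕ, ∫⁻ x, (F (((e + 1 : ℕ) : ℝ) • x, ((d + 1 : ℕ) : ℝ) • x) +
          F (((e + 1 : ℕ) : ℝ) • x, -(((d + 1 : ℕ) : ℝ) • x)))) := by
  obtain ⟨T, hTm, hT⟩ := exists_fundamentalDomain (n := q + 3)
  obtain ⟨c, -, hc⟩ := exists_eq_smul_coneMeasure μ
  have hT' := isFundamentalDomain_of_transversal hTm hT μ
  rw [hD.measure_eq hT', hD.setLIntegral_eq hT' _ (pairTheta_smul isStable_prim F),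
    hD.setLIntegral_eq hT' _ (pairTheta_smul isStable_nonzero F), hc, Measure.restrict_smul,
    lintegral_smul_measure, lintegral_smul_measure, Measure.smul_apply, ENNReal.smul_def,
    ENNReal.smul_def, ENNReal.smul_def, smul_eq_mul, smul_eq_mul, smul_eq_mul, mul_assoc, mul_assoc]
  obtain ⟨h1, h2⟩ := rogers_transversal hTm hT hF
  rw [mul_left_comm, h1, mul_left_comm _ (c : ℝ≥0∞), h2]
  exact ⟨rfl, rfl⟩

end FA.SiegelMean

end
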