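import Fermat.Agent.MinkowskiHlawka.Count
import Fermat.Agent.SLnVolume.Volume

/-!
# The Siegel transform

For a set `P` of integral vectors stable under `SL n ℤ` the function `g ↦ ∑_{v ∈ P} f (v g)` is
invariant under `SL n ℤ`; its integral over a fundamental domain is a measure in `f` which is
invariant under `SL n ℝ`.
-/

set_option autoImplicit false

noncomputable section

open MeasureTheory Matrix Set
open scoped ENNReal
open FA.SLnLattice FA.SLnVolume
open FA.MinkowskiHlawka (castVec content dvd_content_iff content_eq_zero)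

namespace FA.SiegelMean

variable {n : ℕ}

/-- Stability of a set of integral vectors under `SL n ℤ`. -/
def IsStable (P : Set (Fin n → ℤ)) : Prop :=
  ∀ v ∈ P, ∀ γ : Matrix.SpecialLinearGroup (Fin n) ℤ, v ᵥ* γ.1 ∈ P

/-- The nonzero vectors. -/
def nonzeroVecs (n : ℕ) : Set (Fin n → ℤ) := {v | v ≠ 0}

/-- The primitive vectors. -/
def primVecs (n : ℕ) : Set (Fin n → ℤ) := {v | content v = 1}

theorem vecMul_inv_cancel (v : Fin n → ℤ) (γ : Matrix.SpecialLinearGroup (Fin n) ℤ) :
    (v ᵥ* γ.1) ᵥ* (γ⁻¹).1 = v := by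
  rw [Matrix.vecMul_vecMul, ← Matrix.SpecialLinearGroup.coe_mul, mul_inv_cancel,
    Matrix.SpecialLinearGroup.coe_one, Matrix.vecMul_one]

theorem isStable_nonzero : IsStable (nonzeroVecs n) := fun v hv γ h => hv (by
  rw [← vecMul_inv_cancel v γ, show v ᵥ* γ.1 = 0 from h, Matrix.zero_vecMul])

theorem content_vecMul (v : Fin n → ℤ) (γ : Matrix.SpecialLinearGroup (Fin n) ℤ) :
    content (v ᵥ* γ.1) = content v := by
  have h : ∀ (w : Fin n → ℤ) (δ : Matrix.SpecialLinearGroup (Fin n) ℤ),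
      content w ∣ content (w ᵥ* δ.1) := fun w δ => dvd_content_iff.2 fun i =>
    show (content w : ℤ) ∣ ∑ j, w j * δ.1 j i from
      Finset.dvd_sum fun j _ => (dvd_content_iff.1 dvd_rfl j).mul_right _
  refine Nat.dvd_antisymm ?_ (h v γ)
  have h1 := h (v ᵥ* γ.1) γ⁻¹
  rwa [vecMul_inv_cancel] at h1

theorem isStable_prim : IsStable (primVecs n) := fun v hv γ =>
  (content_vecMul v γ).trans hv

/-- The Siegel transform. -/
def theta (P : Set (Fin n → ℤ)) (f : (Fin n → ℝ) → ℝ≥0∞) (g : SLR n) : ℝ≥0∞ :=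
  ∑' v : P, f (castVec (v : Fin n → ℤ) ᵥ* g.1)

theorem castVec_vecMul (v : Fin n → ℤ) (γ : Matrix.SpecialLinearGroup (Fin n) ℤ) :
    castVec (v ᵥ* γ.1) = castVec v ᵥ* (castSL γ).1 := by
  funext i
  simp [castVec, Matrix.vecMul, dotProduct]

theorem theta_smul {P : Set (Fin n → ℤ)} (hP : IsStable P) (f : (Fin n → ℝ) → ℝ≥0∞)
    (γ : Gamma n) (g : SLR n) : theta P f (γ • g) = theta P f g := by
  obtain ⟨_, δ, rfl⟩ := γ
  obtain ⟨e, he⟩ : ∃ e : P ≃ P, ∀ v : P, (e v : Fin n → ℤ) = (v : Fin n → ℤ) ᵥ* δ.1 := by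
    refine ⟨⟨fun v => ⟨_, hP v v.2 δ⟩, fun v => ⟨_, hP v v.2 δ⁻¹⟩, fun v => Subtype.ext ?_,
      fun v => Subtype.ext ?_⟩, fun _ => rfl⟩
    · exact vecMul_inv_cancel _ δ
    · simpa using vecMul_inv_cancel (v : Fin n → ℤ) δ⁻¹
  rw [theta, theta, ← e.tsum_eq fun v : P => f (castVec (v : Fin n → ℤ) ᵥ* g.1)]
  refine tsum_congr fun v => ?_
  rw [he, castVec_vecMul, Matrix.vecMul_vecMul]
  rfl

variable [MeasurableSpace (SLR n)] [BorelSpace (SLR n)]

theorem measurable_orbit (x : Fin n → ℝ) : Measurable fun g : SLR n => x ᵥ* g.1 := by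
  refine Continuous.measurable (continuous_pi fun i => ?_)
  simp only [Matrix.vecMul, dotProduct]
  fun_prop

theorem measurable_theta (P : Set (Fin n → ℤ)) {f : (Fin n → ℝ) → ℝ≥0∞} (hf : Measurable f) :
    Measurable (theta P f) :=
  Measurable.ennreal_tsum fun v : P => hf.comp (measurable_orbit _)

/-- The measure `f ↦ ∫_E θ f`. -/
def meanMeasure (P : Set (Fin n → ℤ)) (μ : Measure (SLR n)) (E : Set (SLR n)) :
    Measure (Fin n → ℝ) :=
  Measure.sum fun v : P => (μ.restrict E).map fun g => castVec (v : Fin n → ℤ) ᵥ* g.1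

theorem lintegral_meanMeasure (P : Set (Fin n → ℤ)) (μ : Measure (SLR n)) (E : Set (SLR n))
    {f : (Fin n → ℝ) → ℝ≥0∞} (hf : Measurable f) :
    ∫⁻ x, f x ∂meanMeasure P μ E = ∫⁻ g in E, theta P f g ∂μ := by
  rw [meanMeasure, lintegral_sum_measure]
  unfold theta
  rw [lintegral_tsum (f := fun (v : P) (g : SLR n) => f (castVec (v : Fin n → ℤ) ᵥ* g.1))
    fun v => (hf.comp (measurable_orbit _)).aemeasurable]
  exact tsum_congr fun v => lintegral_map hf (measurable_orbit _)

theorem meanMeasure_apply (P : Set (Fin n → ℤ)) (μ : Measure (SLR n)) (E : Set (SLR n))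
    {A : Set (Fin n → ℝ)} (hA : MeasurableSet A) :
    meanMeasure P μ E A = ∫⁻ g in E, theta P (A.indicator 1) g ∂μ := by
  rw [← lintegral_indicator_one hA,
    lintegral_meanMeasure _ _ _ (measurable_one.indicator hA)]

theorem meanMeasure_zero {P : Set (Fin n → ℤ)} (hP0 : P ⊆ nonzeroVecs n) (μ : Measure (SLR n))
    (E : Set (SLR n)) : meanMeasure P μ E {0} = 0 := by
  rw [meanMeasure_apply _ _ _ (measurableSet_singleton 0)]
  have h : ∀ g, theta P (({0} : Set (Fin n → ℝ)).indicator 1) g = 0 := by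
    intro g
    refine ENNReal.tsum_eq_zero.2 fun v => Set.indicator_of_notMem (fun h => ?_) _
    have h' := Matrix.eq_zero_of_vecMul_eq_zero (by rw [g.2]; exact one_ne_zero)
      (Set.mem_singleton_iff.1 h)
    exact hP0 v.2 (funext fun i => Int.cast_injective (α := ℝ) (by
      simpa [castVec] using congrFun h' i))
  simp only [h, lintegral_zero]

/-- The transversals are fundamental domains. -/
theorem isFundamentalDomain_of_transversal {E : Set (SLR n)} (hEm : MeasurableSet E)
    (hE : IsTransversal E) (μ : Measure (SLR n)) : IsFundamentalDomain (Gamma n) E μ :=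
  IsFundamentalDomain.mk' hEm.nullMeasurableSet hE

instance instMeasurableConstSMulGamma : MeasurableConstSMul (Gamma n) (SLR n) :=
  ⟨fun γ => (continuous_const_mul (γ : SLR n)).measurable⟩

instance instSMulInvariantGamma (μ : Measure (SLR n)) [μ.IsMulLeftInvariant] :
    SMulInvariantMeasure (Gamma n) (SLR n) μ :=
  ⟨fun γ s _ => measure_preimage_mul μ (γ : SLR n) s⟩

/-- **Invariance of the mean.** -/
theorem map_meanMeasure {P : Set (Fin n → ℤ)} (hP : IsStable P) (μ : Measure (SLR n))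
    [μ.IsMulLeftInvariant] [μ.IsMulRightInvariant] {E : Set (SLR n)} (hEm : MeasurableSet E)
    (hE : IsTransversal E) (h : SLR n) :
    (meanMeasure P μ E).map (fun x => x ᵥ* h.1) = meanMeasure P μ E := by
  have hmul : Measurable fun x : Fin n → ℝ => x ᵥ* h.1 := by
    refine Continuous.measurable (continuous_pi fun i => ?_)
    simp only [Matrix.vecMul, dotProduct]
    fun_prop
  refine Measure.ext fun A hA => ?_
  rw [Measure.map_apply hmul hA, meanMeasure_apply _ _ _ (hmul hA), meanMeasure_apply _ _ _ hA]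
  obtain ⟨E', hE'⟩ : ∃ E', E' = (· * h⁻¹) ⁻¹' E := ⟨_, rfl⟩
  have hE'm : MeasurableSet E' := hE' ▸ (continuous_mul_const h⁻¹).measurable hEm
  have hE't : IsTransversal E' := fun x => by
    obtain ⟨γ, hγ, huniq⟩ := hE (x * h⁻¹)
    have key : ∀ δ : Gamma n, δ • x ∈ E' ↔ δ • (x * h⁻¹) ∈ E := fun δ => by
      rw [hE', Set.mem_preimage]
      show (δ : SLR n) * x * h⁻¹ ∈ E ↔ (δ : SLR n) * (x * h⁻¹) ∈ E
      rw [mul_assoc]
    exact ⟨γ, (key γ).2 hγ, fun δ hδ => huniq δ ((key δ).1 hδ)⟩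
  have hmp : MeasurePreserving (fun g : SLR n => g * h) μ μ := measurePreserving_mul_right μ h
  have hpre : (fun g : SLR n => g * h) ⁻¹' E' = E := by
    ext g
    simp [hE']
  calc ∫⁻ g in E, theta P (((fun x => x ᵥ* h.1) ⁻¹' A).indicator 1) g ∂μ
      = ∫⁻ g in E, theta P (A.indicator 1) (g * h) ∂μ := by
        refine lintegral_congr fun g => tsum_congr fun v => ?_
        rw [Matrix.SpecialLinearGroup.coe_mul, ← Matrix.vecMul_vecMul]
        rfl
    _ = ∫⁻ g in E', theta P (A.indicator 1) g ∂μ := by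
        rw [← hpre]
        exact hmp.setLIntegral_comp_preimage hE'm (measurable_theta _ (measurable_one.indicator hA))
    _ = ∫⁻ g in E, theta P (A.indicator 1) g ∂μ :=
        (isFundamentalDomain_of_transversal hE'm hE't μ).setLIntegral_eq
          (isFundamentalDomain_of_transversal hEm hE μ) _ (theta_smul hP _)

end FA.SiegelMean

end
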